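/-
M1 / chapter ES (helper73): the exact identity `x(R + Q) - x(R - Q) = -4 y_R y_Q / (x_R - x_Q)²`
on the model curve `Wab a b : Y² = X³ + aX² + bX`, and its valuation consequence: if `R` has
integral `x`-coordinate and `Q` is a nonzero point of the kernel of reduction then
`v (x(R + Q) - x(R - Q)) = v (y_R) * v (z(Q))`, `z = -x/y`.
-/
import Fermat.Agent.S05.Formulas
import Fermat.Agent.S05.Kernel
import Fermat.Agent.S05.KernelContract

set_option autoImplicit false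
set_option linter.unusedSectionVars false

namespace Fermat.Agent.M1.ES.AddSub73

open WeierstrassCurve WeierstrassCurve.Affine
open Fermat.Agent.S05

section Algebra

variable {K : Type*} [Field K] [DecidableEq K] {a b : K}

/-- The exact identity `x(R + Q) - x(R - Q) = -4 y_R y_Q / (x_R - x_Q)²`. -/
theorem add_sub_X {x₁ y₁ x₂ y₂ : K} (h₁ : (Wab a b).toAffine.Nonsingular x₁ y₁)
    (h₂ : (Wab a b).toAffine.Nonsingular x₂ y₂) (hne : x₁ ≠ x₂) :
    ∃ (X Y X' Y' : K) (h : (Wab a b).toAffine.Nonsingular X Y)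
      (h' : (Wab a b).toAffine.Nonsingular X' Y'),
      Point.some _ _ h₁ + Point.some _ _ h₂ = Point.some X Y h ∧
      Point.some _ _ h₁ - Point.some _ _ h₂ = Point.some X' Y' h' ∧
      X - X' = -4 * y₁ * y₂ / (x₁ - x₂) ^ 2 := by
  have hne' : x₁ - x₂ ≠ 0 := sub_ne_zero.2 hne
  have e1 := Point.add_of_X_ne (h₁ := h₁) (h₂ := h₂) hne
  have hn : (Wab a b).toAffine.Nonsingular x₂ ((Wab a b).toAffine.negY x₂ y₂) :=
    (Affine.nonsingular_neg ..).mpr h₂
  have e2 : Point.some _ _ h₁ - Point.some _ _ h₂ = Point.some _ _ h₁ + Point.some _ _ hn := by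
    rw [sub_eq_add_neg, Point.neg_some]
  rw [Point.add_of_X_ne (h₁ := h₁) (h₂ := hn) hne] at e2
  refine ⟨_, _, _, _, _, _, e1, e2, ?_⟩
  rw [Affine.slope_of_X_ne hne, Affine.slope_of_X_ne hne]
  simp only [Affine.addX, Wab_a₁, Wab_a₂, Wab_negY]
  field_simp
  ring

end Algebra

section Val

variable {K : Type*} [Field K] [DecidableEq K] {Γ₀ : Type*} [LinearOrderedCommGroupWithZero Γ₀]
  (v : Valuation K Γ₀) {a b : K}

/-- The valuations of the coordinates of a point of the kernel of reduction in terms of the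
valuation of `z = -x/y`: `v x = (v z)⁻¹ ^ 2`, `v y = (v z)⁻¹ ^ 3`. -/
theorem val_xy_of_inE1 (ha : v a ≤ 1) (hb : v b ≤ 1) {x y : K}
    (h : (Wab a b).toAffine.Nonsingular x y) (hx : 1 < v x) :
    y ≠ 0 ∧ v (-x / y) ≠ 0 ∧ v (-x / y) < 1 ∧ v x = (v (-x / y))⁻¹ ^ 2 ∧
      v y = (v (-x / y))⁻¹ ^ 3 := by
  obtain ⟨hy0, hz1, hz0, hw⟩ :=
    Kernel.zw_of_vx (KernelContract.integralCoeffs_Wab v ha hb) h.1 hx
  have hvy0 : v y ≠ 0 := (Valuation.ne_zero_iff v).mpr hy0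
  have hvy : v y = (v (-x / y))⁻¹ ^ 3 := by
    rw [map_div₀, Valuation.map_neg, map_one] at hw
    rw [inv_pow, ← hw, one_div, inv_inv]
  refine ⟨hy0, hz0.ne', hz1, ?_, hvy⟩
  have hzx : v (-x / y) = v x / v y := by rw [map_div₀, Valuation.map_neg]
  have hx' : v x = v (-x / y) * v y := by
    rw [hzx, div_mul_cancel₀ _ hvy0]
  rw [hx', hvy, pow_succ _ 2, mul_left_comm, mul_inv_cancel₀ hz0.ne', mul_one]

/-- **Valuation of the difference `x(R + Q) - x(R - Q)`** for `R` with integral `x`-coordinate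
and `Q ≠ 0` in the kernel of reduction: it is `v (y_R) * v (z(Q))`. -/
theorem val_add_sub_X (h2 : v 2 = 1) (ha : v a ≤ 1) (hb : v b ≤ 1) {x₁ y₁ x₂ y₂ : K}
    (h₁ : (Wab a b).toAffine.Nonsingular x₁ y₁) (h₂ : (Wab a b).toAffine.Nonsingular x₂ y₂)
    (hx₁ : v x₁ ≤ 1) (hx₂ : 1 < v x₂) :
    ∃ (X Y X' Y' : K) (h : (Wab a b).toAffine.Nonsingular X Y)
      (h' : (Wab a b).toAffine.Nonsingular X' Y'),
      Point.some _ _ h₁ + Point.some _ _ h₂ = Point.some X Y h ∧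
      Point.some _ _ h₁ - Point.some _ _ h₂ = Point.some X' Y' h' ∧
      v (X - X') = v y₁ * v (-x₂ / y₂) := by
  have hne : x₁ ≠ x₂ := by
    rintro rfl
    exact absurd hx₂ (not_lt.mpr hx₁)
  obtain ⟨X, Y, X', Y', h, h', e1, e2, e3⟩ := add_sub_X h₁ h₂ hne
  refine ⟨X, Y, X', Y', h, h', e1, e2, ?_⟩
  obtain ⟨hy0, hz0, -, hvx, hvy⟩ := val_xy_of_inE1 v ha hb h₂ hx₂
  have h4 : v (4 : K) = 1 := by
    have : (4 : K) = 2 * 2 := by norm_num
    rw [this, map_mul, h2, mul_one]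
  have hsub : v (x₁ - x₂) = v x₂ := by
    rw [Valuation.map_sub_eq_of_lt_right v (lt_of_le_of_lt hx₁ hx₂)]
  rw [e3, map_div₀, map_mul, map_mul, Valuation.map_neg, h4, one_mul, map_pow, hsub, hvx, hvy]
  set Z := v (-x₂ / y₂) with hZ
  have hZi : Z⁻¹ ≠ 0 := inv_ne_zero hz0
  rw [mul_div_assoc]
  congr 1
  rw [← pow_mul, div_eq_iff (pow_ne_zero _ hZi), show 2 * 2 = 3 + 1 by norm_num,
    pow_succ _ 3, mul_left_comm, mul_inv_cancel₀ hz0, mul_one]

end Val

end Fermat.Agent.M1.ES.AddSub73
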