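/-
M1 (row 38, S44), chapter ES (helper20): **odd division polynomials at a `2`-torsion point**.

`W` a Weierstrass curve over a commutative ring, `x₀` a root of `Ψ₂Sq` (the `x`-coordinate of a
`2`-torsion point).  Then the odd-index recurrence of `preΨ'` closes on the odd indices and

  `(preΨ' (2 i + 1))(x₀) ^ 2 = Ψ₃(x₀) ^ (i (i + 1))`.

Consequently, for a valuation `v` with `v (Ψ₃ x₀) = 1` resp. `< 1`, the value of every odd division
polynomial at `x₀` is a unit resp. (for `i ≥ 1`) a non-unit.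
-/
import Mathlib

set_option autoImplicit false

open Polynomial

namespace Fermat.Agent.M1.ES.DivPolyTwoTors20

variable {R : Type*} [CommRing R] (W : WeierstrassCurve R)

/-- **The odd division polynomials at a root of `Ψ₂Sq`.** -/
theorem eval_preΨ'_odd_sq {x₀ : R} (h2 : W.Ψ₂Sq.eval x₀ = 0) (i : ℕ) :
    (W.preΨ' (2 * i + 1)).eval x₀ ^ 2 = W.Ψ₃.eval x₀ ^ (i * (i + 1)) := by
  induction i using Nat.strong_induction_on with
  | _ i ih =>
    match i, ih with
    | 0, _ => simp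
    | 1, _ => simp
    | (m + 2), ih =>
      rw [WeierstrassCurve.preΨ'_odd]
      rcases Nat.even_or_odd' m with ⟨j, rfl | rfl⟩
      · -- `m = 2 j`: `e = - e_{2j+1} * e_{2j+3} ^ 3`
        have hev : Even (2 * j) := even_two_mul j
        simp only [if_pos hev, eval_sub, eval_mul, eval_pow, h2, eval_one]
        have h1 := ih j (by omega)
        have h3 := ih (j + 1) (by omega)
        have e1 : 2 * j + 1 = 2 * j + 1 := rfl
        have e3 : 2 * j + 3 = 2 * (j + 1) + 1 := by ring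
        rw [e3]
        have : ((W.preΨ' (2 * j + 4)).eval x₀ * (W.preΨ' (2 * j + 2)).eval x₀ ^ 3 * 0 ^ 2
            - (W.preΨ' (2 * j + 1)).eval x₀ * (W.preΨ' (2 * (j + 1) + 1)).eval x₀ ^ 3 * 1) ^ 2
            = (W.preΨ' (2 * j + 1)).eval x₀ ^ 2
              * ((W.preΨ' (2 * (j + 1) + 1)).eval x₀ ^ 2) ^ 3 := by ring
        rw [this, h1, h3, ← pow_mul, ← pow_add]
        congr 1
        ring
      · -- `m = 2 j + 1`: `e = e_{2j+5} * e_{2j+3} ^ 3`
        have hodd : ¬ Even (2 * j + 1) := Nat.not_even_two_mul_add_one j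
        simp only [if_neg hodd, eval_sub, eval_mul, eval_pow, h2, eval_one]
        have h5 := ih (j + 2) (by omega)
        have h3 := ih (j + 1) (by omega)
        have e5 : 2 * j + 1 + 4 = 2 * (j + 2) + 1 := by ring
        have e3 : 2 * j + 1 + 2 = 2 * (j + 1) + 1 := by ring
        rw [e5, e3]
        have : ((W.preΨ' (2 * (j + 2) + 1)).eval x₀ * (W.preΨ' (2 * (j + 1) + 1)).eval x₀ ^ 3 * 1
            - (W.preΨ' (2 * j + 1 + 1)).eval x₀ * (W.preΨ' (2 * j + 1 + 3)).eval x₀ ^ 3 * 0 ^ 2) ^ 2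
            = (W.preΨ' (2 * (j + 2) + 1)).eval x₀ ^ 2
              * ((W.preΨ' (2 * (j + 1) + 1)).eval x₀ ^ 2) ^ 3 := by ring
        rw [this, h5, h3, ← pow_mul, ← pow_add]
        congr 1
        ring

section Valuation

variable {K : Type*} [Field K] {Γ₀ : Type*} [LinearOrderedCommGroupWithZero Γ₀]
  (v : Valuation K Γ₀) (W : WeierstrassCurve K)

theorem val_eq_one_of_sq_eq_one {z : K} (h : v z ^ 2 = 1) : v z = 1 := by
  rcases lt_trichotomy (v z) 1 with h1 | h1 | h1
  · exact absurd h (ne_of_lt (pow_lt_one₀ zero_le h1 two_ne_zero))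
  · exact h1
  · exact absurd h (ne_of_gt (one_lt_pow₀ h1 two_ne_zero))

theorem val_lt_one_of_sq_lt_one {z : K} (h : v z ^ 2 < 1) : v z < 1 := by
  by_contra h1
  exact absurd h (not_lt.mpr (one_le_pow₀ (not_lt.mp h1)))

/-- if `Ψ₃(x₀)` is a unit, so is the value at `x₀` of every odd division polynomial. -/
theorem val_eval_preΨ'_eq_one {x₀ : K} (h2 : W.Ψ₂Sq.eval x₀ = 0)
    (hD : v (W.Ψ₃.eval x₀) = 1) {n : ℕ} (hn : Odd n) : v ((W.preΨ' n).eval x₀) = 1 := by
  obtain ⟨i, rfl⟩ := hn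
  apply val_eq_one_of_sq_eq_one
  rw [← map_pow, eval_preΨ'_odd_sq W h2 i, map_pow, hD, one_pow]

/-- if `Ψ₃(x₀)` is a non-unit, so is the value at `x₀` of every odd division polynomial of index
`≥ 3`. -/
theorem val_eval_preΨ'_lt_one {x₀ : K} (h2 : W.Ψ₂Sq.eval x₀ = 0)
    (hD : v (W.Ψ₃.eval x₀) < 1) {n : ℕ} (hn : Odd n) (h3 : 3 ≤ n) :
    v ((W.preΨ' n).eval x₀) < 1 := by
  obtain ⟨i, rfl⟩ := hn
  apply val_lt_one_of_sq_lt_one
  rw [← map_pow, eval_preΨ'_odd_sq W h2 i, map_pow]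
  have hi : i * (i + 1) ≠ 0 := by
    have : 1 ≤ i := by omega
    positivity
  exact pow_lt_one₀ zero_le hD hi

end Valuation

end Fermat.Agent.M1.ES.DivPolyTwoTors20
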