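/-
M1 (row 38, S44), chapter ES (helper20): **`p`-torsion of a curve with multiplicative reduction at
the residue characteristic, inside and outside the kernel of reduction**.

Model curve `Wab a b : Y² = X³ + aX² + bX` over an algebraically closed valued field `(K, v)` with
`v 2 = 1`, `v a = 1`, `v b < 1`, `b ≠ 0`; `n` odd, `3 ≤ n`, `(n : K) ≠ 0`.
* `exists_torsion_node` : there is a point killed by `n` with `v X < 1` (it reduces to the node; in
  particular it is NOT in the kernel of reduction);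
* `exists_torsion_E1`   : if moreover `v n < 1`, there is a nonzero point killed by `n` with
  `1 < v X` (in the kernel of reduction).

Method: the value of `preΨ'ₙ` at the `2`-torsion point `(0, 0)` is a non-unit, its value at the
unit `2`-torsion point is a unit (`DivPolyTwoTors20`), its leading coefficient is `n`; then
`NewtonRoot20`.
-/
import Mathlib
import Fermat.Agent.S05.Defs
import Fermat.Agent.DivPoly.A1Final
import Fermat.Agent.M1.ES.DivPolyTwoTors20
import Fermat.Agent.M1.ES.NewtonRoot20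

set_option autoImplicit false
set_option linter.unusedSectionVars false

open Polynomial WeierstrassCurve WeierstrassCurve.Affine

namespace Fermat.Agent.M1.ES.MultTors20

open Fermat.Agent.S05 Fermat.Agent.M1.ES.DivPolyTwoTors20 Fermat.Agent.M1.ES.NewtonRoot20

section Ring

variable {R : Type*} [CommRing R] (a b : R)

theorem Wab_Δ : (Wab a b).Δ = 16 * b ^ 2 * (a ^ 2 - 4 * b) := by
  simp only [WeierstrassCurve.Δ, WeierstrassCurve.b₂, WeierstrassCurve.b₄,
    WeierstrassCurve.b₆, WeierstrassCurve.b₈, Wab_a₁, Wab_a₂, Wab_a₃, Wab_a₄, Wab_a₆]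
  ring

theorem eval_Wab_Ψ₂Sq (x : R) :
    (Wab a b).Ψ₂Sq.eval x = 4 * x * (x ^ 2 + a * x + b) := by
  simp only [WeierstrassCurve.Ψ₂Sq, WeierstrassCurve.b₂, WeierstrassCurve.b₄,
    WeierstrassCurve.b₆, Wab_a₁, Wab_a₂, Wab_a₃, Wab_a₄, Wab_a₆,
    eval_add, eval_mul, eval_pow, eval_X, eval_C]
  ring

theorem eval_Wab_Ψ₃ (x : R) :
    (Wab a b).Ψ₃.eval x = 3 * x ^ 4 + 4 * a * x ^ 3 + 6 * b * x ^ 2 - b ^ 2 := by
  simp only [WeierstrassCurve.Ψ₃, WeierstrassCurve.b₂, WeierstrassCurve.b₄,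
    WeierstrassCurve.b₆, WeierstrassCurve.b₈, Wab_a₁, Wab_a₂, Wab_a₃, Wab_a₄, Wab_a₆,
    eval_add, eval_mul, eval_pow, eval_X, eval_C, eval_ofNat]
  ring

end Ring

section Val

variable {K : Type*} [Field K] {Γ₀ : Type*} [LinearOrderedCommGroupWithZero Γ₀]
  (v : Valuation K Γ₀) {a b : K}

/-- the division polynomials of `Wab a b` have integral coefficients. -/
theorem val_coeff_preΨ'_le_one (ha : v a ≤ 1) (hb : v b ≤ 1) (n i : ℕ) :
    v (((Wab a b).preΨ' n).coeff i) ≤ 1 := by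
  let WA : WeierstrassCurve v.integer := Wab ⟨a, ha⟩ ⟨b, hb⟩
  have hW : WA.map v.integer.subtype = Wab a b := by
    ext <;> simp [WA, Wab]
  rw [← hW, WeierstrassCurve.map_preΨ', Polynomial.coeff_map]
  exact ((WA.preΨ' n).coeff i).2

theorem val_two_ne_zero (h2 : v (2 : K) = 1) : (2 : K) ≠ 0 := by
  intro h
  rw [h, map_zero] at h2
  exact zero_ne_one h2

theorem val_ofNat_le_one (m : ℕ) : v (m : K) ≤ 1 := by
  induction m with
  | zero => simp
  | succ m ih =>
    rw [Nat.cast_succ]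
    exact le_trans (v.map_add _ _) (max_le ih (by rw [map_one]))

variable {v}

/-- `a² - 4b` is a unit. -/
theorem val_disc (ha : v a = 1) (hb : v b < 1) : v (a ^ 2 - 4 * b) = 1 := by
  have h4 : v (4 * b) < 1 := by
    rw [map_mul]
    have : v (4 : K) ≤ 1 := by
      have := val_ofNat_le_one v 4
      simpa using this
    calc v (4 : K) * v b ≤ 1 * v b := mul_le_mul' this le_rfl
      _ = v b := one_mul _
      _ < 1 := hb
  have h1 : v (a ^ 2) = 1 := by rw [map_pow, ha, one_pow]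
  rw [Valuation.map_sub_eq_of_lt_left v (by rw [h1]; exact h4), h1]

theorem Wab_Δ_ne_zero (h2 : v (2 : K) = 1) (ha : v a = 1) (hb : v b < 1) (hb0 : b ≠ 0) :
    (Wab a b).Δ ≠ 0 := by
  rw [Wab_Δ]
  have h16 : (16 : K) ≠ 0 := by
    have : (16 : K) = 2 ^ 4 := by norm_num
    rw [this]
    exact pow_ne_zero _ (val_two_ne_zero v h2)
  have hd : a ^ 2 - 4 * b ≠ 0 := by
    intro h
    have := val_disc ha hb
    rw [h, map_zero] at this
    exact zero_ne_one this
  exact mul_ne_zero (mul_ne_zero h16 (pow_ne_zero _ hb0)) hd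

/-- the unit `2`-torsion abscissa: a root of `X² + aX + b` of valuation `1`, at which `Ψ₃` is a
unit. -/
theorem exists_unit_two_torsion [IsAlgClosed K] (ha : v a = 1) (hb : v b < 1) :
    ∃ x₁ : K, v x₁ = 1 ∧ (Wab a b).Ψ₂Sq.eval x₁ = 0 ∧ v ((Wab a b).Ψ₃.eval x₁) = 1 := by
  -- the small root
  obtain ⟨x₂, hx₂⟩ := IsAlgClosed.exists_root (X ^ 2 + C a * X + C b : K[X]) (by
    have : (X ^ 2 + C a * X + C b : K[X]).degree = 2 := by compute_degree!
    rw [this]; norm_num)
  have hx₂' : x₂ ^ 2 + a * x₂ + b = 0 := by simpa using hx₂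
  -- one of the two roots `x₂`, `-a - x₂` is a unit, the other one is small
  have key : ∀ x s : K, x ^ 2 + a * x + b = 0 → s = -a - x → v s < 1 →
      v x = 1 ∧ (Wab a b).Ψ₂Sq.eval x = 0 ∧ v ((Wab a b).Ψ₃.eval x) = 1 := by
    intro x s hx hs hvs
    have hxv : v x = 1 := by
      have e : x = -(a + s) := by rw [hs]; ring
      rw [e, Valuation.map_neg, Valuation.map_add_eq_of_lt_left v (by rw [ha]; exact hvs), ha]
    refine ⟨hxv, ?_, ?_⟩
    · rw [eval_Wab_Ψ₂Sq, hx, mul_zero]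
    · have e3 : (Wab a b).Ψ₃.eval x = -(x * (-3 * s - a) + b) ^ 2 := by
        rw [eval_Wab_Ψ₃, hs]
        linear_combination (2 * x * (6 * x + 2 * a)) * hx
      have h3s : v (-3 * s) < 1 := by
        rw [map_mul, Valuation.map_neg]
        have : v (3 : K) ≤ 1 := by
          have := val_ofNat_le_one v 3
          simpa using this
        calc v (3 : K) * v s ≤ 1 * v s := mul_le_mul' this le_rfl
          _ = v s := one_mul _
          _ < 1 := hvs
      have h1 : v (-3 * s - a) = 1 := by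
        rw [sub_eq_add_neg, Valuation.map_add_eq_of_lt_right v
          (by rw [Valuation.map_neg, ha]; exact h3s), Valuation.map_neg, ha]
      have h2' : v (x * (-3 * s - a)) = 1 := by rw [map_mul, hxv, h1, one_mul]
      have h3 : v (x * (-3 * s - a) + b) = 1 := by
        rw [Valuation.map_add_eq_of_lt_left v (by rw [h2']; exact hb), h2']
      rw [e3, Valuation.map_neg, map_pow, h3, one_pow]
  by_cases hsmall : v x₂ < 1
  · -- `x₁ := -a - x₂`
    refine ⟨-a - x₂, key (-a - x₂) x₂ ?_ (by ring) hsmall⟩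
    linear_combination hx₂'
  · -- `x₂` itself is the unit root: the other root `-a - x₂` is small
    have hx20 : x₂ ≠ 0 := by
      intro h
      rw [h, map_zero] at hsmall
      exact hsmall zero_lt_one
    have hprod : x₂ * (-a - x₂) = b := by linear_combination -hx₂'
    have hs : v (-a - x₂) < 1 := by
      have hv : v x₂ * v (-a - x₂) = v b := by rw [← map_mul, hprod]
      by_contra hcon
      have h1 : 1 ≤ v x₂ := not_lt.mp hsmall
      have h1' : 1 ≤ v (-a - x₂) := not_lt.mp hcon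
      have : (1 : Γ₀) ≤ v b := by
        rw [← hv]
        calc (1 : Γ₀) = 1 * 1 := (one_mul 1).symm
          _ ≤ v x₂ * v (-a - x₂) := mul_le_mul' h1 h1'
      exact absurd hb (not_lt.mpr this)
    exact ⟨x₂, key x₂ (-a - x₂) hx₂' rfl hs⟩

section Main

variable [DecidableEq K] [IsAlgClosed K]

/-- every abscissa carries a (nonsingular) point of `Wab a b`. -/
theorem exists_point (h2 : v (2 : K) = 1) (ha : v a = 1) (hb : v b < 1) (hb0 : b ≠ 0) (x : K) :
    ∃ y : K, (Wab a b).toAffine.Nonsingular x y := by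
  obtain ⟨y, hy⟩ := IsAlgClosed.exists_pow_nat_eq (x ^ 3 + a * x ^ 2 + b * x) (n := 2)
    zero_lt_two
  have heq : (Wab a b).toAffine.Equation x y := (Wab_equation_iff x y).mpr hy
  exact ⟨y, ((Wab a b).toAffine.equation_iff_nonsingular_of_Δ_ne_zero
    (Wab_Δ_ne_zero h2 ha hb hb0)).mp heq⟩

/-- the facts on `preΨ'ₙ` used below. -/
theorem preΨ'_facts (ha : v a = 1) (hb : v b < 1) {n : ℕ} (hn : Odd n) (hn3 : 3 ≤ n) :
    (∀ i, v (((Wab a b).preΨ' n).coeff i) ≤ 1) ∧ (∃ j, v (((Wab a b).preΨ' n).coeff j) = 1) ∧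
      v (((Wab a b).preΨ' n).coeff 0) < 1 := by
  have hint := val_coeff_preΨ'_le_one v ha.le hb.le n
  refine ⟨hint, ?_, ?_⟩
  · obtain ⟨x₁, hx1, h21, hD1⟩ := exists_unit_two_torsion ha hb
    exact exists_coeff_val_eq_one hint hx1.le (val_eval_preΨ'_eq_one v (Wab a b) h21 hD1 hn)
  · rw [Polynomial.coeff_zero_eq_eval_zero]
    refine val_eval_preΨ'_lt_one v (Wab a b) ?_ ?_ hn hn3
    · rw [eval_Wab_Ψ₂Sq]; ring
    · rw [eval_Wab_Ψ₃]
      have : (3 * (0 : K) ^ 4 + 4 * a * 0 ^ 3 + 6 * b * 0 ^ 2 - b ^ 2) = -b ^ 2 := by ring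
      rw [this, Valuation.map_neg, map_pow]
      exact pow_lt_one₀ zero_le hb two_ne_zero

/-- **A torsion point reducing to the node**: for odd `n ≥ 3` there is a point of `Wab a b` killed
by `n` with `v X < 1`. -/
theorem exists_torsion_node (h2 : v (2 : K) = 1) (ha : v a = 1) (hb : v b < 1) (hb0 : b ≠ 0)
    {n : ℕ} (hn : Odd n) (hn3 : 3 ≤ n) :
    ∃ (x y : K) (h : (Wab a b).toAffine.Nonsingular x y),
      n • (Point.some x y h : (Wab a b).toAffine.Point) = 0 ∧ v x < 1 := by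
  obtain ⟨-, ⟨j, hj⟩, h0⟩ := preΨ'_facts (v := v) ha hb hn hn3
  obtain ⟨r, hr, hvr⟩ := exists_root_lt_one (IsAlgClosed.splits _) hj h0
  obtain ⟨y, hy⟩ := exists_point h2 ha hb hb0 r
  exact ⟨r, y, hy, (Fermat.Agent.DivPoly.A1Final.nsmul_eq_zero_iff_preΨ' hy hn).mpr hr, hvr⟩

/-- **A torsion point in the kernel of reduction**: for odd `n ≥ 3` which is a non-unit, there is
a point of `Wab a b` killed by `n` with `1 < v X`. -/
theorem exists_torsion_E1 (h2 : v (2 : K) = 1) (ha : v a = 1) (hb : v b < 1) (hb0 : b ≠ 0)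
    {n : ℕ} (hn : Odd n) (hn3 : 3 ≤ n) (hn0 : (n : K) ≠ 0) (hvn : v (n : K) < 1) :
    ∃ (x y : K) (h : (Wab a b).toAffine.Nonsingular x y),
      n • (Point.some x y h : (Wab a b).toAffine.Point) = 0 ∧ 1 < v x := by
  obtain ⟨-, ⟨j, hj⟩, -⟩ := preΨ'_facts (v := v) ha hb hn hn3
  have hlc : ((Wab a b).preΨ' n).leadingCoeff = (n : K) := by
    rw [WeierstrassCurve.leadingCoeff_preΨ' _ hn0, if_neg (Nat.not_even_iff_odd.mpr hn)]
  obtain ⟨r, hr, hvr⟩ := exists_root_one_lt (IsAlgClosed.splits _) hj (by rw [hlc]; exact hvn)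
  obtain ⟨y, hy⟩ := exists_point h2 ha hb hb0 r
  exact ⟨r, y, hy, (Fermat.Agent.DivPoly.A1Final.nsmul_eq_zero_iff_preΨ' hy hn).mpr hr, hvr⟩

end Main

end Val

end Fermat.Agent.M1.ES.MultTors20
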