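/-
M1 (row 38, S44), chapter ES (helper8): **valuations and `p`-th roots of unity** ("Newton polygon of
`X^p - 1` by hand").

`K` a field with a valuation `v`, `ξ` a primitive `p`-th root of unity, `p` prime, `lam := v (1 - ξ)`.
* `lam_pow` : `lam ^ (p - 1) = v p`; distinct `p`-th roots of unity are at distance exactly `lam`.
* trichotomy for `v (U ^ p - 1) = ∏_{ζ ∈ μ_p} v (U - ζ)`: `val_pow_sub_one_of_near/far/all_eq`.
* consequences for `p ≠ 2`, `v p < 1`: `exists_root_near`, `val_one_add_pow_sub_one`,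
  `val_sub_one_of_val_pow_sub_one_eq`, `exists_root_close_one`, `root_close_one_unique`.
-/
import Mathlib

set_option autoImplicit false

open Finset Polynomial

namespace Fermat.Agent.M1.ES.CycloVal8

variable {K : Type*} [Field K] {Γ₀ : Type*} [LinearOrderedCommGroupWithZero Γ₀]
  (v : Valuation K Γ₀)

theorem val_eq_one_of_pow_eq_one {ζ : K} {n : ℕ} (hn : n ≠ 0) (h : ζ ^ n = 1) : v ζ = 1 := by
  have : v ζ ^ n = 1 := by rw [← map_pow, h, map_one]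
  exact (pow_eq_one_iff_left hn).mp this

/-- `v (1 - ζ ^ k) ≤ v (1 - ζ)` for integral `ζ`. -/
theorem val_one_sub_pow_le {ζ : K} (hζ : v ζ ≤ 1) (k : ℕ) : v (1 - ζ ^ k) ≤ v (1 - ζ) := by
  have h : (∑ i ∈ range k, ζ ^ i) * (1 - ζ) = 1 - ζ ^ k := geom_sum_mul_neg ζ k
  rw [← h, map_mul]
  have h1 : v (∑ i ∈ range k, ζ ^ i) ≤ 1 := by
    apply Valuation.map_sum_le
    intro i _
    rw [map_pow]
    exact pow_le_one₀ zero_le hζ
  calc v (∑ i ∈ range k, ζ ^ i) * v (1 - ζ) ≤ 1 * v (1 - ζ) := mul_le_mul_left h1 _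
    _ = v (1 - ζ) := one_mul _

section Prim

variable {p : ℕ} {ξ : K}

/-- All `1 - ξ ^ k`, `p ∤ k`, have the same valuation. -/
theorem val_one_sub_pow (hp : p.Prime) (hξ : IsPrimitiveRoot ξ p) {k : ℕ} (hk : ¬ p ∣ k) :
    v (1 - ξ ^ k) = v (1 - ξ) := by
  have hξ1 : v ξ = 1 := val_eq_one_of_pow_eq_one v hp.ne_zero hξ.pow_eq_one
  apply le_antisymm (val_one_sub_pow_le v hξ1.le k)
  have hcop : Nat.Coprime k p := ((Nat.Prime.coprime_iff_not_dvd hp).mpr hk).symm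
  obtain ⟨m, -, hm⟩ := Nat.exists_mul_mod_eq_one_of_coprime hcop hp.one_lt
  have hpow : (ξ ^ k) ^ m = ξ := by
    rw [← pow_mul, pow_eq_pow_mod (k * m) hξ.pow_eq_one, hm, pow_one]
  have hk1 : v (ξ ^ k) ≤ 1 := by rw [map_pow, hξ1, one_pow]
  calc v (1 - ξ) = v (1 - (ξ ^ k) ^ m) := by rw [hpow]
    _ ≤ v (1 - ξ ^ k) := val_one_sub_pow_le v hk1 m

/-- `v (1 - ξ) ^ (p - 1) = v p`. -/
theorem lam_pow (hp : p.Prime) (hξ : IsPrimitiveRoot ξ p) : v (1 - ξ) ^ (p - 1) = v (p : K) := by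
  obtain ⟨n, rfl⟩ : ∃ n, p = n + 1 := ⟨p - 1, (Nat.succ_pred_eq_of_pos hp.pos).symm⟩
  have h := hξ.prod_one_sub_pow_eq_order
  have h2 : v (∏ k ∈ range n, (1 - ξ ^ (k + 1))) = v (((n + 1 : ℕ) : K)) := by
    rw [h]; push_cast; rfl
  rw [map_prod] at h2
  rw [← h2, Nat.add_sub_cancel]
  have : ∀ k ∈ range n, v (1 - ξ ^ (k + 1)) = v (1 - ξ) := by
    intro k hk
    apply val_one_sub_pow v hp hξ
    intro hdvd
    have hk' : k + 1 < n + 1 := by have := mem_range.mp hk; omega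
    exact absurd (Nat.le_of_dvd (Nat.succ_pos k) hdvd) (not_le.mpr hk')
  rw [prod_congr rfl this, prod_const, card_range]

/-- Distinct `p`-th roots of unity are at distance `v (1 - ξ)`. -/
theorem val_sub_of_ne (hp : p.Prime) (hξ : IsPrimitiveRoot ξ p) {ζ₁ ζ₂ : K} (h₁ : ζ₁ ^ p = 1)
    (h₂ : ζ₂ ^ p = 1) (hne : ζ₁ ≠ ζ₂) : v (ζ₁ - ζ₂) = v (1 - ξ) := by
  have hζ₂0 : ζ₂ ≠ 0 := by
    rintro rfl
    rw [zero_pow hp.ne_zero] at h₂
    exact zero_ne_one h₂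
  have hv₂ : v ζ₂ = 1 := val_eq_one_of_pow_eq_one v hp.ne_zero h₂
  have hω : (ζ₁ / ζ₂) ^ p = 1 := by rw [div_pow, h₁, h₂, div_one]
  have : NeZero p := ⟨hp.ne_zero⟩
  obtain ⟨k, hkp, hk⟩ := hξ.eq_pow_of_pow_eq_one hω
  have hk0 : ¬ p ∣ k := by
    intro hdvd
    rcases Nat.eq_zero_or_pos k with h0 | hpos
    · rw [h0, pow_zero] at hk
      apply hne
      field_simp at hk
      exact hk.symm
    · exact absurd (Nat.le_of_dvd hpos hdvd) (not_le.mpr hkp)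
  have e : ζ₁ - ζ₂ = -(ζ₂ * (1 - ξ ^ k)) := by
    rw [hk]; field_simp; ring
  rw [e, Valuation.map_neg, map_mul, hv₂, one_mul, val_one_sub_pow v hp hξ hk0]

theorem one_mem_roots (hp : p.Prime) : (1 : K) ∈ nthRootsFinset p (1 : K) := by
  rw [mem_nthRootsFinset hp.pos]; exact one_pow p

/-- `v (U ^ p - 1) = ∏_{ζ ∈ μ_p} v (U - ζ)`. -/
theorem val_pow_sub_one_eq_prod (hp : p.Prime) (hξ : IsPrimitiveRoot ξ p) (U : K) :
    v (U ^ p - 1) = ∏ ζ ∈ nthRootsFinset p (1 : K), v (U - ζ) := by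
  have h := hξ.pow_sub_pow_eq_prod_sub_mul U 1 hp.pos
  simp only [one_pow, mul_one] at h
  rw [h, map_prod]

/-- Near a root of unity: `v (U ^ p - 1) = v (U - ζ₀) * lam ^ (p - 1)`. -/
theorem val_pow_sub_one_of_near (hp : p.Prime) (hξ : IsPrimitiveRoot ξ p) {U ζ₀ : K}
    (hζ₀ : ζ₀ ^ p = 1) (h : v (U - ζ₀) < v (1 - ξ)) :
    v (U ^ p - 1) = v (U - ζ₀) * v (1 - ξ) ^ (p - 1) := by
  classical
  have hmem : ζ₀ ∈ nthRootsFinset p (1 : K) := (mem_nthRootsFinset hp.pos _).mpr hζ₀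
  rw [val_pow_sub_one_eq_prod v hp hξ, ← mul_prod_erase _ _ hmem]
  congr 1
  have : ∀ ζ ∈ (nthRootsFinset p (1 : K)).erase ζ₀, v (U - ζ) = v (1 - ξ) := by
    intro ζ hζ
    obtain ⟨hne, hζm⟩ := mem_erase.mp hζ
    have hζp : ζ ^ p = 1 := (mem_nthRootsFinset hp.pos _).mp hζm
    have hd : v (ζ₀ - ζ) = v (1 - ξ) := val_sub_of_ne v hp hξ hζ₀ hζp (Ne.symm hne)
    have e : U - ζ = (U - ζ₀) + (ζ₀ - ζ) := by ring
    rw [e, ← hd]
    apply Valuation.map_add_eq_of_lt_right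
    rw [hd]; exact h
  rw [prod_congr rfl this, prod_const, card_erase_of_mem hmem, hξ.card_nthRootsFinset]

/-- Far from one (hence all) roots of unity. -/
theorem val_pow_sub_one_of_far (hp : p.Prime) (hξ : IsPrimitiveRoot ξ p) {U ζ₀ : K}
    (hζ₀ : ζ₀ ^ p = 1) (h : v (1 - ξ) < v (U - ζ₀)) :
    (∀ ζ : K, ζ ^ p = 1 → v (U - ζ) = v (U - ζ₀)) ∧ v (U ^ p - 1) = v (U - ζ₀) ^ p := by
  have hall : ∀ ζ : K, ζ ^ p = 1 → v (U - ζ) = v (U - ζ₀) := by
    intro ζ hζp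
    by_cases hne : ζ = ζ₀
    · rw [hne]
    · have hd : v (ζ₀ - ζ) = v (1 - ξ) := val_sub_of_ne v hp hξ hζ₀ hζp (Ne.symm hne)
      have e : U - ζ = (U - ζ₀) + (ζ₀ - ζ) := by ring
      rw [e]
      apply Valuation.map_add_eq_of_lt_left
      rw [hd]; exact h
  refine ⟨hall, ?_⟩
  rw [val_pow_sub_one_eq_prod v hp hξ]
  have : ∀ ζ ∈ nthRootsFinset p (1 : K), v (U - ζ) = v (U - ζ₀) := fun ζ hζ =>
    hall ζ ((mem_nthRootsFinset hp.pos _).mp hζ)
  rw [prod_congr rfl this, prod_const, hξ.card_nthRootsFinset]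

/-- At distance exactly `lam` from every root of unity. -/
theorem val_pow_sub_one_of_all_eq (hp : p.Prime) (hξ : IsPrimitiveRoot ξ p) {U : K}
    (h : ∀ ζ : K, ζ ^ p = 1 → v (U - ζ) = v (1 - ξ)) : v (U ^ p - 1) = v (1 - ξ) ^ p := by
  rw [val_pow_sub_one_eq_prod v hp hξ]
  have : ∀ ζ ∈ nthRootsFinset p (1 : K), v (U - ζ) = v (1 - ξ) := fun ζ hζ =>
    h ζ ((mem_nthRootsFinset hp.pos _).mp hζ)
  rw [prod_congr rfl this, prod_const, hξ.card_nthRootsFinset]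

end Prim

section Odd

variable {p : ℕ} {ξ : K}

theorem lam_ne_zero (hp : p.Prime) (hξ : IsPrimitiveRoot ξ p) : v (1 - ξ) ≠ 0 := by
  rw [Valuation.ne_zero_iff, sub_ne_zero]
  exact fun h => hξ.ne_one hp.one_lt h.symm

theorem lam_lt_one (hp : p.Prime) (hξ : IsPrimitiveRoot ξ p) (hvp : v (p : K) < 1) :
    v (1 - ξ) < 1 := by
  by_contra hle
  push Not at hle
  have : 1 ≤ v (1 - ξ) ^ (p - 1) := one_le_pow₀ hle
  rw [lam_pow v hp hξ] at this
  exact absurd hvp (not_lt.mpr this)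

theorem vp_lt_lam (hp : p.Prime) (hp2 : p ≠ 2) (hξ : IsPrimitiveRoot ξ p) (hvp : v (p : K) < 1) :
    v (p : K) < v (1 - ξ) := by
  have h1 := lam_lt_one v hp hξ hvp
  have h0 := lam_ne_zero v hp hξ
  rw [← lam_pow v hp hξ]
  have h3 : 1 < p - 1 := by have := hp.two_le; omega
  exact pow_lt_self_of_lt_one₀ (zero_lt_iff.mpr h0) h1 h3

theorem lam_pow_p (hp : p.Prime) (hξ : IsPrimitiveRoot ξ p) :
    v (1 - ξ) ^ p = v (1 - ξ) * v (p : K) := by
  rw [← lam_pow v hp hξ, ← pow_succ']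
  congr 1
  have := hp.pos; omega

/-- If `v (U ^ p - 1) < lam ^ p` then `U` is within `< lam` of a unique root of unity `ζ₀` and
`v (U ^ p - 1) = v (U - ζ₀) * v p`. -/
theorem exists_root_near (hp : p.Prime) (hξ : IsPrimitiveRoot ξ p) {U : K}
    (h : v (U ^ p - 1) < v (1 - ξ) ^ p) :
    ∃ ζ₀ : K, ζ₀ ^ p = 1 ∧ v (U - ζ₀) < v (1 - ξ) ∧ v (U ^ p - 1) = v (U - ζ₀) * v (p : K) := by
  by_contra hcon
  push Not at hcon
  have hge : ∀ ζ : K, ζ ^ p = 1 → v (1 - ξ) ≤ v (U - ζ) := by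
    intro ζ hζ
    by_contra hlt
    push Not at hlt
    have := val_pow_sub_one_of_near v hp hξ hζ hlt
    rw [lam_pow v hp hξ] at this
    exact hcon ζ hζ hlt this
  by_cases hex : ∃ ζ₀ : K, ζ₀ ^ p = 1 ∧ v (1 - ξ) < v (U - ζ₀)
  · obtain ⟨ζ₀, hζ₀, hlt⟩ := hex
    have := (val_pow_sub_one_of_far v hp hξ hζ₀ hlt).2
    rw [this] at h
    exact absurd h (not_lt.mpr (pow_le_pow_left' hlt.le p))
  · push Not at hex
    have hall : ∀ ζ : K, ζ ^ p = 1 → v (U - ζ) = v (1 - ξ) := fun ζ hζ =>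
      le_antisymm (hex ζ hζ) (hge ζ hζ)
    rw [val_pow_sub_one_of_all_eq v hp hξ hall] at h
    exact lt_irrefl _ h

/-- `v ((1 + η) ^ p - 1) = v η * v p` for `v η < lam`. -/
theorem val_one_add_pow_sub_one (hp : p.Prime) (hξ : IsPrimitiveRoot ξ p) {η : K}
    (h : v η < v (1 - ξ)) : v ((1 + η) ^ p - 1) = v η * v (p : K) := by
  have h' : v ((1 + η) - 1) < v (1 - ξ) := by rwa [add_sub_cancel_left]
  have := val_pow_sub_one_of_near v hp hξ (one_pow p) h'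
  rwa [add_sub_cancel_left, lam_pow v hp hξ] at this

/-- If `v (U ^ p - 1) = v p` exactly then `v (U - 1) ^ p = v p` and `lam < v (U - 1)`. -/
theorem val_sub_one_of_val_pow_sub_one_eq (hp : p.Prime) (hξ : IsPrimitiveRoot ξ p)
    (hvp : v (p : K) < 1) {U : K} (h : v (U ^ p - 1) = v (p : K)) :
    v (U - 1) ^ p = v (p : K) ∧ v (1 - ξ) < v (U - 1) ∧
      ∀ ζ : K, ζ ^ p = 1 → v (U - ζ) = v (U - 1) := by
  have hl1 := lam_lt_one v hp hξ hvp
  have hl0 := lam_ne_zero v hp hξ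
  have hp0 : v (p : K) ≠ 0 := by rw [← lam_pow v hp hξ]; exact pow_ne_zero _ hl0
  have hge : ∀ ζ : K, ζ ^ p = 1 → v (1 - ξ) ≤ v (U - ζ) := by
    intro ζ hζ
    by_contra hlt
    push Not at hlt
    have h1 := val_pow_sub_one_of_near v hp hξ hζ hlt
    rw [lam_pow v hp hξ, h] at h1
    have h2 : v (U - ζ) = 1 := by
      have : 1 * v (p : K) = v (U - ζ) * v (p : K) := by rw [one_mul]; exact h1
      exact ((mul_left_inj' hp0).mp this).symm
    rw [h2] at hlt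
    exact absurd hl1 (not_lt.mpr hlt.le)
  by_cases hex : ∃ ζ₀ : K, ζ₀ ^ p = 1 ∧ v (1 - ξ) < v (U - ζ₀)
  · obtain ⟨ζ₀, hζ₀, hlt⟩ := hex
    obtain ⟨hall, hpow⟩ := val_pow_sub_one_of_far v hp hξ hζ₀ hlt
    have h1 : v (U - 1) = v (U - ζ₀) := hall 1 (one_pow p)
    refine ⟨by rw [h1, ← hpow, h], by rw [h1]; exact hlt, fun ζ hζ => by rw [h1]; exact hall ζ hζ⟩
  · exfalso
    push Not at hex
    have hall : ∀ ζ : K, ζ ^ p = 1 → v (U - ζ) = v (1 - ξ) := fun ζ hζ =>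
      le_antisymm (hex ζ hζ) (hge ζ hζ)
    have h1 := val_pow_sub_one_of_all_eq v hp hξ hall
    rw [h, lam_pow_p v hp hξ] at h1
    have h2 : v (1 - ξ) = 1 := by
      have : 1 * v (p : K) = v (1 - ξ) * v (p : K) := by rw [one_mul]; exact h1
      exact ((mul_left_inj' hp0).mp this).symm
    rw [h2] at hl1
    exact lt_irrefl _ hl1

/-- A `p`-th root of `1 + r` close to `1` exists as soon as some root exists and `v r < lam ^ p`. -/
theorem exists_root_close_one (hp : p.Prime) (hξ : IsPrimitiveRoot ξ p) {r ρ₀ : K}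
    (hρ₀ : ρ₀ ^ p = 1 + r) (hr : v r < v (1 - ξ) ^ p) :
    ∃ ρ : K, ρ ^ p = 1 + r ∧ v (ρ - 1) < v (1 - ξ) ∧ v r = v (ρ - 1) * v (p : K) := by
  have h1 : v (ρ₀ ^ p - 1) = v r := by rw [hρ₀, add_sub_cancel_left]
  obtain ⟨ζ₀, hζ₀, hlt, heq⟩ := exists_root_near v hp hξ (h1 ▸ hr)
  have hζ₀0 : ζ₀ ≠ 0 := by
    rintro rfl
    rw [zero_pow hp.ne_zero] at hζ₀
    exact zero_ne_one hζ₀
  have hvζ : v ζ₀ = 1 := val_eq_one_of_pow_eq_one v hp.ne_zero hζ₀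
  have e : ρ₀ / ζ₀ - 1 = (ρ₀ - ζ₀) / ζ₀ := by field_simp
  refine ⟨ρ₀ / ζ₀, by rw [div_pow, hζ₀, div_one, hρ₀], ?_, ?_⟩
  · rw [e, map_div₀, hvζ, div_one]; exact hlt
  · rw [e, map_div₀, hvζ, div_one, ← heq, h1]

/-- Uniqueness of the `p`-th root close to `1`. -/
theorem root_close_one_unique (hp : p.Prime) (hξ : IsPrimitiveRoot ξ p) {c ρ ρ' : K}
    (hc : c ≠ 0) (hρ : ρ ^ p = c) (hρ' : ρ' ^ p = c) (h : v (ρ - 1) < v (1 - ξ))
    (h' : v (ρ' - 1) < v (1 - ξ)) : ρ = ρ' := by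
  by_contra hne
  have hρ0 : ρ ≠ 0 := by
    rintro rfl
    rw [zero_pow hp.ne_zero] at hρ
    exact hc hρ.symm
  have hl1 : v (1 - ξ) ≠ 0 := lam_ne_zero v hp hξ
  have hvρ : v ρ = 1 := by
    have e : ρ = 1 + (ρ - 1) := by ring
    by_contra hne1
    rcases lt_or_gt_of_ne hne1 with hlt | hgt
    · have : v (ρ - 1) = 1 := by
        have e2 : ρ - 1 = ρ + (-1) := by ring
        rw [e2]
        have : v ρ < v (-1 : K) := by rw [Valuation.map_neg, map_one]; exact hlt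
        rw [Valuation.map_add_eq_of_lt_right v this, Valuation.map_neg, map_one]
      rw [this] at h
      have hll : v (1 - ξ) ≤ 1 := by
        have hξ1 : v ξ = 1 := val_eq_one_of_pow_eq_one v hp.ne_zero hξ.pow_eq_one
        calc v (1 - ξ) ≤ max (v 1) (v ξ) := v.map_sub _ _
          _ = 1 := by rw [map_one, hξ1, max_self]
      exact absurd h (not_lt.mpr hll)
    · have : v (ρ - 1) = v ρ := by
        have e2 : ρ - 1 = ρ + (-1) := by ring
        rw [e2]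
        have : v (-1 : K) < v ρ := by rw [Valuation.map_neg, map_one]; exact hgt
        exact Valuation.map_add_eq_of_lt_left v this
      rw [this] at h
      have hll : v (1 - ξ) ≤ 1 := by
        have hξ1 : v ξ = 1 := val_eq_one_of_pow_eq_one v hp.ne_zero hξ.pow_eq_one
        calc v (1 - ξ) ≤ max (v 1) (v ξ) := v.map_sub _ _
          _ = 1 := by rw [map_one, hξ1, max_self]
      exact absurd (hgt.trans h) (not_lt.mpr hll)
  have hω : (ρ' / ρ) ^ p = 1 := by rw [div_pow, hρ, hρ', div_self hc]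
  have hω1 : ρ' / ρ ≠ 1 := by
    intro h1
    apply hne
    field_simp at h1
    exact h1.symm
  have hd : v (ρ' / ρ - 1) = v (1 - ξ) := val_sub_of_ne v hp hξ hω (one_pow p) hω1
  have e : ρ' / ρ - 1 = (ρ' - ρ) / ρ := by field_simp
  rw [e, map_div₀, hvρ, div_one] at hd
  have e2 : ρ' - ρ = (ρ' - 1) - (ρ - 1) := by ring
  rw [e2] at hd
  have : v ((ρ' - 1) - (ρ - 1)) < v (1 - ξ) := lt_of_le_of_lt (v.map_sub _ _) (max_lt h' h)
  rw [hd] at this
  exact lt_irrefl _ this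

end Odd

end Fermat.Agent.M1.ES.CycloVal8
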