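/-
M1 (row 38, S44), chapter ES (helper8): the **approximate character** `u = (s - α)/(s + α)` on the
model curve `Wab a b : Y² = X³ + aX² + bX` (`α² = a`, `v α = 1`, `v b < 1`), in the coordinates
`(x, s = y/x)` of `S05/Formulas`.

On `E₀ = {O} ∪ {1 ≤ v x}` the function `u` takes unit values and is a homomorphism modulo `b`:
`v (u (P + Q) - u P * u Q) ≤ v b`  (`uc_add`), `u (-P) = (u P)⁻¹` exactly (`uc_neg`), and
`v (u P - 1) < 1` iff `P` lies in the kernel of reduction `E₁` (`val_uc_sub_one_lt_one_iff`).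
No formal groups, no Tate curve.
-/
import Mathlib
import Fermat.Agent.S05.Formulas
import Fermat.Agent.S05.CompH12

set_option autoImplicit false
set_option linter.unusedSectionVars false

open WeierstrassCurve WeierstrassCurve.Affine

namespace Fermat.Agent.M1.ES.UChar8

open Fermat.Agent.S05

section Coord

variable {K : Type*} [Field K] {Γ₀ : Type*} [LinearOrderedCommGroupWithZero Γ₀]
  {v : Valuation K Γ₀} {a b α : K}

/-- On `E₀` (`1 ≤ v x`) the two factors `s ∓ α` of `x + b/x` have the same valuation `m ≥ 1`,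
`m² = v x`. -/
theorem val_sub_add (hα : α ^ 2 = a) (hαv : v α = 1) (hb : v b < 1) {x s : K} (hx : 1 ≤ v x)
    (hs : s ^ 2 = x + a + b / x) :
    v (s - α) = v (s + α) ∧ v (s - α) ^ 2 = v x ∧ 1 ≤ v (s - α) := by
  have hxpos : 0 < v x := lt_of_lt_of_le zero_lt_one hx
  have hx0 : x ≠ 0 := (Valuation.ne_zero_iff v).mp hxpos.ne'
  have hav : v a ≤ 1 := by rw [← hα, map_pow, hαv, one_pow]
  have hprod : (s - α) * (s + α) = x + b / x := by
    have : (s - α) * (s + α) = s ^ 2 - α ^ 2 := by ring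
    rw [this, hs, hα]; ring
  have hbx : v (b / x) < v x := by
    rw [map_div₀]
    calc v b / v x ≤ v b := div_le_of_le_mul₀ zero_le zero_le (by
          calc v b = v b * 1 := (mul_one _).symm
            _ ≤ v b * v x := mul_le_mul_right hx _)
      _ < 1 := hb
      _ ≤ v x := hx
  have hX : v ((s - α) * (s + α)) = v x := by
    rw [hprod]; exact Valuation.map_add_eq_of_lt_left v hbx
  have hs2 : v s ^ 2 ≤ v x := CompH12.v_s_sq_le hav hb.le hx hs
  have hmax : ∀ t : K, v t ≤ max (v s) 1 → v t ^ 2 ≤ v x := by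
    intro t ht
    rcases le_total (v s) 1 with h1 | h1
    · rw [max_eq_right h1] at ht
      calc v t ^ 2 ≤ 1 ^ 2 := pow_le_pow_left' ht 2
        _ = 1 := one_pow 2
        _ ≤ v x := hx
    · rw [max_eq_left h1] at ht
      exact (pow_le_pow_left' ht 2).trans hs2
  have hn2 : v (s - α) ^ 2 ≤ v x :=
    hmax _ (by
      have := v.map_sub s α
      rwa [hαv] at this)
  have hd2 : v (s + α) ^ 2 ≤ v x :=
    hmax _ (by
      have := v.map_add s α
      rwa [hαv] at this)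
  rw [map_mul] at hX
  set n := v (s - α) with hn
  set d := v (s + α) with hd
  have hnpos : 0 < n := by
    rcases eq_or_lt_of_le (zero_le : (0 : Γ₀) ≤ n) with h0 | h0
    · rw [← h0, zero_mul] at hX; exact absurd hX.symm hxpos.ne'
    · exact h0
  have hdpos : 0 < d := by
    rcases eq_or_lt_of_le (zero_le : (0 : Γ₀) ≤ d) with h0 | h0
    · rw [← h0, mul_zero] at hX; exact absurd hX.symm hxpos.ne'
    · exact h0
  have hnd : n ≤ d := by
    have : n * n ≤ n * d := by rw [hX, ← sq]; exact hn2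
    exact le_of_mul_le_mul_left this hnpos
  have hdn : d ≤ n := by
    have : d * d ≤ d * n := by rw [mul_comm d n, hX, ← sq]; exact hd2
    exact le_of_mul_le_mul_left this hdpos
  have hEq : n = d := le_antisymm hnd hdn
  have hsq : n ^ 2 = v x := by rw [sq, ← hX, ← hEq]
  refine ⟨hEq, hsq, ?_⟩
  by_contra hlt
  push Not at hlt
  have : n ^ 2 < 1 := pow_lt_one₀ zero_le hlt (by norm_num)
  rw [hsq] at this
  exact absurd hx (not_le.mpr this)


/-- The correction term of the addition law in `(x, s)`-coordinates. -/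
noncomputable def epsT (b x₁ s₁ x₂ s₂ : K) : K :=
  1 / x₁ + 1 / x₂ + (s₁ + s₂) ^ 2 / (x₁ * x₂ - b)

/-- `s₃ - α` for the sum, exact. -/
theorem addSs_sub (hα : α ^ 2 = a) {x₁ s₁ x₂ s₂ : K} (hx₁ : x₁ ≠ 0) (hx₂ : x₂ ≠ 0)
    (hS : s₁ + s₂ ≠ 0) (hX : x₁ * x₂ - b ≠ 0) :
    addSs a b x₁ s₁ x₂ s₂ - α =
      ((s₁ - α) * (s₂ - α) + b * epsT b x₁ s₁ x₂ s₂) / (s₁ + s₂) := by
  unfold addSs epsT
  rw [← hα]
  field_simp
  ring

/-- `s₃ + α` for the sum, exact. -/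
theorem addSs_add (hα : α ^ 2 = a) {x₁ s₁ x₂ s₂ : K} (hx₁ : x₁ ≠ 0) (hx₂ : x₂ ≠ 0)
    (hS : s₁ + s₂ ≠ 0) (hX : x₁ * x₂ - b ≠ 0) :
    addSs a b x₁ s₁ x₂ s₂ + α =
      ((s₁ + α) * (s₂ + α) + b * epsT b x₁ s₁ x₂ s₂) / (s₁ + s₂) := by
  unfold addSs epsT
  rw [← hα]
  field_simp
  ring

/-- `v s ≤ v (s - α)` on `E₀`. -/
theorem val_s_le (hα : α ^ 2 = a) (hαv : v α = 1) (hb : v b < 1) {x s : K} (hx : 1 ≤ v x)
    (hs : s ^ 2 = x + a + b / x) : v s ≤ v (s - α) := by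
  obtain ⟨-, -, h1⟩ := val_sub_add hα hαv hb hx hs
  have : s = (s - α) + α := by ring
  calc v s = v ((s - α) + α) := by rw [← this]
    _ ≤ max (v (s - α)) (v α) := v.map_add _ _
    _ = v (s - α) := by rw [hαv]; exact max_eq_left h1

/-- The correction term is integral on `E₀ × E₀`. -/
theorem val_epsT_le (hα : α ^ 2 = a) (hαv : v α = 1) (hb : v b < 1) {x₁ s₁ x₂ s₂ : K}
    (hx₁ : 1 ≤ v x₁) (hx₂ : 1 ≤ v x₂) (hs₁ : s₁ ^ 2 = x₁ + a + b / x₁)
    (hs₂ : s₂ ^ 2 = x₂ + a + b / x₂) : v (epsT b x₁ s₁ x₂ s₂) ≤ 1 := by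
  obtain ⟨-, hm₁, h1₁⟩ := val_sub_add hα hαv hb hx₁ hs₁
  obtain ⟨-, hm₂, h1₂⟩ := val_sub_add hα hαv hb hx₂ hs₂
  have hsl₁ := val_s_le hα hαv hb hx₁ hs₁
  have hsl₂ := val_s_le hα hαv hb hx₂ hs₂
  set m₁ := v (s₁ - α) with hm₁def
  set m₂ := v (s₂ - α) with hm₂def
  have hx12 : (1 : Γ₀) ≤ v x₁ * v x₂ := one_le_mul_of_one_le_of_one_le hx₁ hx₂
  have hXv : v (x₁ * x₂ - b) = v x₁ * v x₂ := by
    rw [← map_mul]
    apply Valuation.map_sub_eq_of_lt_left
    rw [map_mul]; exact lt_of_lt_of_le hb hx12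
  have h1 : v (1 / x₁) ≤ 1 := by
    rw [map_div₀, map_one]; exact div_le_one_of_le₀ hx₁ zero_le
  have h2 : v (1 / x₂) ≤ 1 := by
    rw [map_div₀, map_one]; exact div_le_one_of_le₀ hx₂ zero_le
  have hS : v (s₁ + s₂) ≤ m₁ * m₂ := by
    refine (v.map_add _ _).trans (max_le ?_ ?_)
    · calc v s₁ ≤ m₁ := hsl₁
        _ = m₁ * 1 := (mul_one _).symm
        _ ≤ m₁ * m₂ := mul_le_mul_right h1₂ _
    · calc v s₂ ≤ m₂ := hsl₂
        _ = 1 * m₂ := (one_mul _).symm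
        _ ≤ m₁ * m₂ := mul_le_mul_left h1₁ _
  have h3 : v ((s₁ + s₂) ^ 2 / (x₁ * x₂ - b)) ≤ 1 := by
    rw [map_div₀, map_pow, hXv, ← hm₁, ← hm₂]
    apply div_le_one_of_le₀ _ zero_le
    calc v (s₁ + s₂) ^ 2 ≤ (m₁ * m₂) ^ 2 := pow_le_pow_left' hS 2
      _ = m₁ ^ 2 * m₂ ^ 2 := mul_pow _ _ _
  unfold epsT
  exact (v.map_add _ _).trans (max_le ((v.map_add _ _).trans (max_le h1 h2)) h3)

end Coord

section Point

variable {K : Type*} [Field K] [DecidableEq K] {Γ₀ : Type*} [LinearOrderedCommGroupWithZero Γ₀]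
  (v : Valuation K Γ₀) {a b α : K}

/-- The approximate character `u = (s - α)/(s + α)`, `s = y/x`; `u O = 1`. -/
noncomputable def uc (α : K) : (Wab a b).toAffine.Point → K
  | .zero => 1
  | .some x y _ => (y / x - α) / (y / x + α)

@[simp] theorem uc_zero : uc α (0 : (Wab a b).toAffine.Point) = 1 := rfl

theorem uc_some {x y : K} (h : (Wab a b).toAffine.Nonsingular x y) :
    uc α (Point.some x y h) = (y / x - α) / (y / x + α) := rfl

theorem uc_xs {x s : K} (h : (Wab a b).toAffine.Nonsingular x (x * s)) (hx : x ≠ 0) :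
    uc α (Point.some x (x * s) h) = (s - α) / (s + α) := by
  rw [uc_some, mul_div_cancel_left₀ s hx]

/-- `u (-P) = (u P)⁻¹`, exactly. -/
theorem uc_neg (P : (Wab a b).toAffine.Point) : uc α (-P) = (uc α P)⁻¹ := by
  rcases P with _ | ⟨x, y, h⟩
  · show uc α (0 : (Wab a b).toAffine.Point) = (uc α (0 : (Wab a b).toAffine.Point))⁻¹
    simp
  · rw [Point.neg_some, uc_some, uc_some, Wab_negY, inv_div, neg_div]
    have h1 : -(y / x) - α = -(y / x + α) := by ring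
    have h2 : -(y / x) + α = -(y / x - α) := by ring
    rw [h1, h2, neg_div_neg_eq]

variable {v}

/-- On `E₀` the value of `u` is a unit. -/
theorem val_uc (hα : α ^ 2 = a) (hαv : v α = 1) (hb : v b < 1)
    {P : (Wab a b).toAffine.Point} (hP : InE0 v P) : v (uc α P) = 1 := by
  rcases P with _ | ⟨x, y, h⟩
  · show v (uc α (0 : (Wab a b).toAffine.Point)) = 1
    simp
  · have hx : 1 ≤ v x := hP
    have hx0 : x ≠ 0 := (Valuation.ne_zero_iff v).mp (lt_of_lt_of_le zero_lt_one hx).ne'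
    obtain ⟨h', e⟩ := some_eq_xs h hx0
    rw [e, uc_xs h' hx0]
    obtain ⟨h1, -, h3⟩ := val_sub_add hα hαv hb hx (s_sq h' hx0)
    rw [map_div₀, h1]
    exact div_self (lt_of_lt_of_le zero_lt_one (h1 ▸ h3)).ne'

/-- `u P - 1 = -2α/(s + α)`. -/
theorem uc_sub_one {x s : K} (h : (Wab a b).toAffine.Nonsingular x (x * s)) (hx : x ≠ 0)
    (hd : s + α ≠ 0) : uc α (Point.some x (x * s) h) - 1 = -(2 * α) / (s + α) := by
  rw [uc_xs h hx]
  field_simp
  ring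

/-- For a point of `E₀`: `v (u P - 1) ^ 2 * v x = 1` (so `v (u P - 1) = (v x)^(-1/2)`). -/
theorem val_uc_sub_one_sq (hα : α ^ 2 = a) (hαv : v α = 1) (h2 : v (2 : K) = 1) (hb : v b < 1)
    {x y : K} (h : (Wab a b).toAffine.Nonsingular x y) (hx : 1 ≤ v x) :
    v (uc α (Point.some x y h) - 1) ^ 2 * v x = 1 := by
  have hx0 : x ≠ 0 := (Valuation.ne_zero_iff v).mp (lt_of_lt_of_le zero_lt_one hx).ne'
  obtain ⟨h', e⟩ := some_eq_xs h hx0
  obtain ⟨h1, hsq, h3⟩ := val_sub_add hα hαv hb hx (s_sq h' hx0)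
  have hdpos : 0 < v (y / x + α) := lt_of_lt_of_le zero_lt_one (h1 ▸ h3)
  have hd : y / x + α ≠ 0 := (Valuation.ne_zero_iff v).mp hdpos.ne'
  rw [e, uc_sub_one h' hx0 hd, map_div₀, Valuation.map_neg, map_mul, h2, hαv, one_mul, ← h1,
    div_pow, one_pow, hsq]
  exact div_mul_cancel₀ _ (lt_of_lt_of_le zero_lt_one hx).ne'

/-- `v (u P - 1) < 1` iff `P ∈ E₁`, for `P ∈ E₀`. -/
theorem val_uc_sub_one_lt_one_iff (hα : α ^ 2 = a) (hαv : v α = 1) (h2 : v (2 : K) = 1)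
    (hb : v b < 1) {x y : K} (h : (Wab a b).toAffine.Nonsingular x y) (hx : 1 ≤ v x) :
    v (uc α (Point.some x y h) - 1) < 1 ↔ 1 < v x := by
  have key := val_uc_sub_one_sq hα hαv h2 hb h hx
  set t := v (uc α (Point.some x y h) - 1) with ht
  constructor
  · intro hlt
    by_contra hle
    have hx1 : v x = 1 := le_antisymm (not_lt.mp hle) hx
    rw [hx1, mul_one] at key
    have : t ^ 2 < 1 := pow_lt_one₀ zero_le hlt (by norm_num)
    rw [key] at this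
    exact lt_irrefl _ this
  · intro hlt
    by_contra hle
    have h1 : 1 ≤ t := not_lt.mp hle
    have : 1 < t ^ 2 * v x := by
      calc (1 : Γ₀) = 1 * 1 := (one_mul 1).symm
        _ ≤ t ^ 2 * 1 := mul_le_mul_left (one_le_pow₀ h1) _
        _ < t ^ 2 * v x := by
          apply mul_lt_mul_of_pos_left hlt
          exact lt_of_lt_of_le zero_lt_one (one_le_pow₀ h1)
    rw [key] at this
    exact lt_irrefl _ this

/-- **The approximate character is a homomorphism modulo `b` on `E₀`.** -/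
theorem uc_add (hα : α ^ 2 = a) (hαv : v α = 1) (hb : v b < 1) (hb0 : b ≠ 0)
    {P Q : (Wab a b).toAffine.Point} (hP : InE0 v P) (hQ : InE0 v Q) :
    v (uc α (P + Q) - uc α P * uc α Q) ≤ v b := by
  rcases P with _ | ⟨x₁, y₁, h₁⟩
  · have : (Point.zero : (Wab a b).toAffine.Point) + Q = Q := zero_add Q
    rw [this]
    show v (uc α Q - uc α (0 : (Wab a b).toAffine.Point) * uc α Q) ≤ v b
    simp
  rcases Q with _ | ⟨x₂, y₂, h₂⟩
  · have : Point.some x₁ y₁ h₁ + (Point.zero : (Wab a b).toAffine.Point) = Point.some x₁ y₁ h₁ :=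
      add_zero _
    rw [this]
    show v (uc α (Point.some x₁ y₁ h₁) - uc α (Point.some x₁ y₁ h₁) *
      uc α (0 : (Wab a b).toAffine.Point)) ≤ v b
    simp
  have hx₁ : 1 ≤ v x₁ := hP
  have hx₂ : 1 ≤ v x₂ := hQ
  have hx₁0 : x₁ ≠ 0 := (Valuation.ne_zero_iff v).mp (lt_of_lt_of_le zero_lt_one hx₁).ne'
  have hx₂0 : x₂ ≠ 0 := (Valuation.ne_zero_iff v).mp (lt_of_lt_of_le zero_lt_one hx₂).ne'
  obtain ⟨h₁', e₁⟩ := some_eq_xs h₁ hx₁0
  obtain ⟨h₂', e₂⟩ := some_eq_xs h₂ hx₂0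
  rw [e₁, e₂]
  set s₁ := y₁ / x₁ with hs₁def
  set s₂ := y₂ / x₂ with hs₂def
  have hs₁ := s_sq h₁' hx₁0
  have hs₂ := s_sq h₂' hx₂0
  obtain ⟨hnd₁, hm₁, h1₁⟩ := val_sub_add hα hαv hb hx₁ hs₁
  obtain ⟨hnd₂, hm₂, h1₂⟩ := val_sub_add hα hαv hb hx₂ hs₂
  have hN₁pos : 0 < v (s₁ - α) := lt_of_lt_of_le zero_lt_one h1₁
  have hN₂pos : 0 < v (s₂ - α) := lt_of_lt_of_le zero_lt_one h1₂
  have hN₁ : s₁ - α ≠ 0 := (Valuation.ne_zero_iff v).mp hN₁pos.ne'
  have hN₂ : s₂ - α ≠ 0 := (Valuation.ne_zero_iff v).mp hN₂pos.ne'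
  have hD₁ : s₁ + α ≠ 0 := (Valuation.ne_zero_iff v).mp (hnd₁ ▸ hN₁pos).ne'
  have hD₂ : s₂ + α ≠ 0 := (Valuation.ne_zero_iff v).mp (hnd₂ ▸ hN₂pos).ne'
  have hx12 : (1 : Γ₀) ≤ v x₁ * v x₂ := one_le_mul_of_one_le_of_one_le hx₁ hx₂
  have hXne : x₁ * x₂ ≠ b := by
    intro hEq
    have : v (x₁ * x₂) = v b := by rw [hEq]
    rw [map_mul] at this
    exact absurd (this ▸ hx12) (not_le.mpr hb)
  have hX : x₁ * x₂ - b ≠ 0 := sub_ne_zero.mpr hXne
  by_cases hS : s₁ + s₂ = 0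
  · -- `Q = -P`
    rcases add_xs_of_S_eq_zero hb0 h₁' h₂' hx₁0 hx₂0 hS with ⟨-, hsum⟩ | ⟨hbad, -⟩
    · rw [hsum, uc_zero, uc_xs h₁' hx₁0, uc_xs h₂' hx₂0]
      have hs2 : s₂ = -s₁ := by linear_combination hS
      have : (1 : K) - (s₁ - α) / (s₁ + α) * ((s₂ - α) / (s₂ + α)) = 0 := by
        rw [hs2]
        have hD₂' : -s₁ + α ≠ 0 := by
          intro h0; apply hN₁; linear_combination -h0
        field_simp
        ring
      rw [this, map_zero]
      exact zero_le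
    · exact absurd hbad hXne
  · obtain ⟨h₃, e₃⟩ := add_xs h₁' h₂' hx₁0 hx₂0 hS hXne
    have hx₃0 : addXs b x₁ s₁ x₂ s₂ ≠ 0 := by
      unfold addXs
      exact div_ne_zero (pow_ne_zero 2 hX) (mul_ne_zero (mul_ne_zero hx₁0 hx₂0) (pow_ne_zero 2 hS))
    rw [e₃, uc_xs h₃ hx₃0, uc_xs h₁' hx₁0, uc_xs h₂' hx₂0, addSs_sub hα hx₁0 hx₂0 hS hX,
      addSs_add hα hx₁0 hx₂0 hS hX]
    set E := epsT b x₁ s₁ x₂ s₂ with hE
    have hEv : v E ≤ 1 := val_epsT_le hα hαv hb hx₁ hx₂ hs₁ hs₂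
    set M := v (s₁ - α) * v (s₂ - α) with hM
    have hM1 : 1 ≤ M := one_le_mul_of_one_le_of_one_le h1₁ h1₂
    have hMpos : 0 < M := lt_of_lt_of_le zero_lt_one hM1
    have hNN : v ((s₁ - α) * (s₂ - α)) = M := by rw [map_mul]
    have hDD : v ((s₁ + α) * (s₂ + α)) = M := by rw [map_mul, ← hnd₁, ← hnd₂]
    have hbE : v (b * E) < 1 := by
      rw [map_mul]
      calc v b * v E ≤ v b * 1 := mul_le_mul_right hEv _
        _ = v b := mul_one _
        _ < 1 := hb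
    have hDDE : v ((s₁ + α) * (s₂ + α) + b * E) = M := by
      rw [← hDD]
      apply Valuation.map_add_eq_of_lt_left
      rw [hDD]; exact lt_of_lt_of_le hbE hM1
    have hDDE0 : (s₁ + α) * (s₂ + α) + b * E ≠ 0 :=
      (Valuation.ne_zero_iff v).mp (hDDE ▸ hMpos).ne'
    have hDD0 : (s₁ + α) * (s₂ + α) ≠ 0 := mul_ne_zero hD₁ hD₂
    have key : ((s₁ - α) * (s₂ - α) + b * E) / (s₁ + s₂) /
          (((s₁ + α) * (s₂ + α) + b * E) / (s₁ + s₂)) -
        (s₁ - α) / (s₁ + α) * ((s₂ - α) / (s₂ + α)) =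
        b * (E * ((s₁ + α) * (s₂ + α) - (s₁ - α) * (s₂ - α)) /
          (((s₁ + α) * (s₂ + α) + b * E) * ((s₁ + α) * (s₂ + α)))) := by
      field_simp
      ring
    rw [key, map_mul]
    have hT : v (E * ((s₁ + α) * (s₂ + α) - (s₁ - α) * (s₂ - α))) ≤ M := by
      rw [map_mul]
      calc v E * v ((s₁ + α) * (s₂ + α) - (s₁ - α) * (s₂ - α))
          ≤ 1 * M := by
            apply mul_le_mul' hEv
            exact (v.map_sub _ _).trans (max_le hDD.le hNN.le)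
        _ = M := one_mul _
    have hfrac : v (E * ((s₁ + α) * (s₂ + α) - (s₁ - α) * (s₂ - α)) /
          (((s₁ + α) * (s₂ + α) + b * E) * ((s₁ + α) * (s₂ + α)))) ≤ 1 := by
      rw [map_div₀, map_mul (f := v) ((s₁ + α) * (s₂ + α) + b * E), hDDE, hDD]
      apply div_le_one_of_le₀ _ zero_le
      calc v (E * ((s₁ + α) * (s₂ + α) - (s₁ - α) * (s₂ - α))) ≤ M := hT
        _ = M * 1 := (mul_one _).symm
        _ ≤ M * M := mul_le_mul_right hM1 _
    calc v b * v (E * ((s₁ + α) * (s₂ + α) - (s₁ - α) * (s₂ - α)) /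
          (((s₁ + α) * (s₂ + α) + b * E) * ((s₁ + α) * (s₂ + α)))) ≤ v b * 1 :=
          mul_le_mul_right hfrac _
      _ = v b := mul_one _

end Point

end Fermat.Agent.M1.ES.UChar8
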