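/-
M1 (row 38, S44), chapter ES (helper8): **`p`-torsion in the kernel of reduction** of the model curve
`Wab a b : Y² = X³ + aX² + bX` (multiplicative reduction: `α² = a`, `v α = 1`, `v b ≤ v p ^ p`),
at the residue characteristic `p` (odd), via the approximate character `u` of `UChar8`.

Main results (`H : Hyp v a b α p ξ`):
* `uc_nsmul`            : `v (u (n • P) - u P ^ n) ≤ v b` on `E₀`;
* `exists_zeta`         : a `p`-torsion point `P` of `E₀` has `u P` within `< lam = v (1 - ξ)` of a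
                          (unique) `p`-th root of unity;
* `inE1_of_torsion`     : `E₀[p] = E₁[p]`;
* `val_uc_sub_one_of_torsion` : a nonzero `p`-torsion point of `E₁` has `v (u P - 1) = lam`;
* `eq_of_near`          : `p`-torsion points `P, Q` of `E₀` with `v (u P - u Q) < lam` are equal;
* `exists_nsmul_eq`     : `E₀[p]` is cyclic: `Q = k • P` for `P ≠ 0`;
* `map_eq_nsmul`        : a valuation-preserving ring endomorphism `σ` fixing `a, b, α` and acting
                          on `μ_p` by `ζ ↦ ζ ^ c` sends a `p`-torsion point `P` of `E₀` to `c • P`.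
-/
import Mathlib
import Fermat.Agent.S05.Components
import Fermat.Agent.S05.KernelContract
import Fermat.Agent.M1.ES.UChar8
import Fermat.Agent.M1.ES.CycloVal8

set_option autoImplicit false
set_option linter.unusedSectionVars false

open WeierstrassCurve WeierstrassCurve.Affine

namespace Fermat.Agent.M1.ES.UTors8

open Fermat.Agent.S05 Fermat.Agent.M1.ES.UChar8 Fermat.Agent.M1.ES.CycloVal8

variable {K : Type*} [Field K] [DecidableEq K] {Γ₀ : Type*} [LinearOrderedCommGroupWithZero Γ₀]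
  {v : Valuation K Γ₀} {a b α : K} {p : ℕ} {ξ : K}

/-- The standing hypotheses. -/
structure Hyp (v : Valuation K Γ₀) (a b α : K) (p : ℕ) (ξ : K) : Prop where
  hα : α ^ 2 = a
  hαv : v α = 1
  h2 : v (2 : K) = 1
  hb0 : b ≠ 0
  hp : p.Prime
  hp2 : p ≠ 2
  hξ : IsPrimitiveRoot ξ p
  hvp : v (p : K) < 1
  hbp : v b ≤ v (p : K) ^ p

omit [DecidableEq K] in
/-- `v (x ^ k - y ^ k) ≤ v (x - y)` for integral `x, y`. -/
theorem val_pow_sub_pow_le {x y : K} (hx : v x ≤ 1) (hy : v y ≤ 1) (k : ℕ) :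
    v (x ^ k - y ^ k) ≤ v (x - y) := by
  have hgeom := (Commute.all x y).geom_sum₂_mul k
  rw [← hgeom, map_mul]
  have hcv : v (∑ i ∈ Finset.range k, x ^ i * y ^ (k - 1 - i)) ≤ 1 := by
    apply Valuation.map_sum_le
    intro i _
    rw [map_mul, map_pow, map_pow]
    exact mul_le_one' (pow_le_one₀ zero_le hx) (pow_le_one₀ zero_le hy)
  calc v (∑ i ∈ Finset.range k, x ^ i * y ^ (k - 1 - i)) * v (x - y)
      ≤ 1 * v (x - y) := mul_le_mul_left hcv _
    _ = v (x - y) := one_mul _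

namespace Hyp

variable (H : Hyp v a b α p ξ)
include H

theorem vp_ne_zero : v (p : K) ≠ 0 := by
  rw [← lam_pow v H.hp H.hξ]
  exact pow_ne_zero _ (lam_ne_zero v H.hp H.hξ)

theorem vp_pos : 0 < v (p : K) := zero_lt_iff.mpr H.vp_ne_zero

theorem hb : v b < 1 :=
  lt_of_le_of_lt H.hbp (pow_lt_one₀ zero_le H.hvp H.hp.ne_zero)

theorem ha : v a ≤ 1 := by rw [← H.hα, map_pow, H.hαv, one_pow]

theorem lam_lt_one : v (1 - ξ) < 1 := CycloVal8.lam_lt_one v H.hp H.hξ H.hvp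

theorem vp_lt_lam : v (p : K) < v (1 - ξ) := CycloVal8.vp_lt_lam v H.hp H.hp2 H.hξ H.hvp

theorem vb_lt_lam_pow : v b < v (1 - ξ) ^ p :=
  lt_of_le_of_lt H.hbp (pow_lt_pow_left₀ H.vp_lt_lam zero_le H.hp.ne_zero)

theorem vb_le_vp : v b ≤ v (p : K) :=
  H.hbp.trans (pow_le_of_le_one zero_le H.hvp.le H.hp.ne_zero)

theorem vb_lt_lam : v b < v (1 - ξ) := lt_of_le_of_lt H.vb_le_vp H.vp_lt_lam

/-- `v p ^ (p - 1) < v p`. -/
theorem vp_pow_lt : v (p : K) ^ (p - 1) < v (p : K) := by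
  have h3 : 1 < p - 1 := by have := H.hp.two_le; have := H.hp2; omega
  exact pow_lt_self_of_lt_one₀ H.vp_pos H.hvp h3

/-- multiples stay in `E₀` and `u (n • P) ≡ u P ^ n` modulo `b`. -/
theorem uc_nsmul {P : (Wab a b).toAffine.Point} (hP : InE0 v P) (n : ℕ) :
    InE0 v (n • P) ∧ v (uc α (n • P) - uc α P ^ n) ≤ v b := by
  induction n with
  | zero =>
    rw [zero_smul, pow_zero]
    refine ⟨InE0_zero v, ?_⟩
    simp
  | succ n ih =>
    obtain ⟨ih₁, ih₂⟩ := ih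
    rw [succ_nsmul, pow_succ]
    refine ⟨inE0_add H.hb H.hb0 H.ha ih₁ hP, ?_⟩
    have e : uc α (n • P + P) - uc α P ^ n * uc α P =
        (uc α (n • P + P) - uc α (n • P) * uc α P) + (uc α (n • P) - uc α P ^ n) * uc α P := by
      ring
    rw [e]
    refine (v.map_add _ _).trans (max_le (uc_add H.hα H.hαv H.hb H.hb0 ih₁ hP) ?_)
    rw [map_mul, val_uc H.hα H.hαv H.hb hP, mul_one]
    exact ih₂

theorem val_uc_pow_sub_one {P : (Wab a b).toAffine.Point} (hP : InE0 v P) {n : ℕ}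
    (hn : n • P = 0) : v (uc α P ^ n - 1) ≤ v b := by
  have := (H.uc_nsmul hP n).2
  rw [hn, uc_zero, ← Valuation.map_neg, neg_sub] at this
  exact this

/-- A `p`-torsion point of `E₀` has `u P` close to a `p`-th root of unity. -/
theorem exists_zeta {P : (Wab a b).toAffine.Point} (hP : InE0 v P) (hpP : p • P = 0) :
    ∃ ζ₀ : K, ζ₀ ^ p = 1 ∧ v (uc α P - ζ₀) < v (p : K) := by
  have h1 := H.val_uc_pow_sub_one hP hpP
  obtain ⟨ζ₀, hζ₀, -, heq⟩ :=
    exists_root_near v H.hp H.hξ (lt_of_le_of_lt h1 H.vb_lt_lam_pow)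
  refine ⟨ζ₀, hζ₀, ?_⟩
  rw [heq] at h1
  -- `v (u - ζ₀) * v p ≤ v p ^ p`
  have h2 : v (uc α P - ζ₀) * v (p : K) ≤ v (p : K) ^ (p - 1) * v (p : K) := by
    rw [← pow_succ, Nat.sub_add_cancel H.hp.one_le]
    exact h1.trans H.hbp
  have h3 : v (uc α P - ζ₀) ≤ v (p : K) ^ (p - 1) := by
    rw [mul_comm _ (v (p : K)), mul_comm _ (v (p : K))] at h2
    exact le_of_mul_le_mul_left h2 H.vp_pos
  exact lt_of_le_of_lt h3 H.vp_pow_lt

/-- `E₀[p] ⊆ E₁`. -/
theorem inE1_of_torsion {P : (Wab a b).toAffine.Point} (hP : InE0 v P) (hpP : p • P = 0) :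
    InE1 v P := by
  rcases P with _ | ⟨x, y, h⟩
  · trivial
  · obtain ⟨ζ₀, hζ₀, hlt⟩ := H.exists_zeta hP hpP
    have hx : 1 ≤ v x := hP
    rw [InE1_some, ← val_uc_sub_one_lt_one_iff H.hα H.hαv H.h2 H.hb h hx]
    have e : uc α (Point.some x y h) - 1 = (uc α (Point.some x y h) - ζ₀) + (ζ₀ - 1) := by ring
    rw [e]
    refine lt_of_le_of_lt (v.map_add _ _) (max_lt (hlt.trans H.hvp) ?_)
    by_cases h1 : ζ₀ = 1
    · rw [h1, sub_self, map_zero]; exact zero_lt_one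
    · rw [val_sub_of_ne v H.hp H.hξ hζ₀ (one_pow p) h1]
      exact H.lam_lt_one

/-- On `E₁`: `v (u P - 1) = v (z P)`, `z = -x/y`. -/
theorem val_uc_sub_one_eq_zc {x y : K} (h : (Wab a b).toAffine.Nonsingular x y) (hx : 1 < v x) :
    v (uc α (Point.some x y h) - 1) = v (Kernel.zc (Point.some x y h)) := by
  have hx0 : x ≠ 0 := (Valuation.ne_zero_iff v).mp (lt_trans zero_lt_one hx).ne'
  obtain ⟨h', e⟩ := some_eq_xs h hx0
  obtain ⟨h1, hsq, h3⟩ := val_sub_add H.hα H.hαv H.hb hx.le (s_sq h' hx0)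
  have hm : 1 < v (y / x - α) := by
    by_contra hle
    push Not at hle
    have : v (y / x - α) ^ 2 ≤ 1 := pow_le_one₀ zero_le hle
    rw [hsq] at this
    exact absurd hx (not_lt.mpr this)
  have hs : v (y / x) = v (y / x - α) := by
    have e2 : y / x = (y / x - α) + α := by ring
    conv_lhs => rw [e2]
    apply Valuation.map_add_eq_of_lt_left
    rw [H.hαv]; exact hm
  have hd : y / x + α ≠ 0 := (Valuation.ne_zero_iff v).mp (h1 ▸ (lt_trans zero_lt_one hm)).ne'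
  have hL : v (-(2 * α) / (y / x + α)) = (v (y / x))⁻¹ := by
    rw [map_div₀, Valuation.map_neg, map_mul, H.h2, H.hαv, one_mul, ← h1, ← hs, one_div]
  have e3 : -x / (x * (y / x)) = -(y / x)⁻¹ := by
    have hspos : 0 < v (y / x) := hs ▸ lt_trans zero_lt_one hm
    have hyx : y / x ≠ 0 := (Valuation.ne_zero_iff v).mp hspos.ne'
    field_simp
  have hR : v (-x / (x * (y / x))) = (v (y / x))⁻¹ := by
    rw [e3, Valuation.map_neg, map_inv₀]
  rw [e, uc_sub_one h' hx0 hd, Kernel.zc_some, hL, hR]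

/-- A nonzero `p`-torsion point of `E₁` has `v p ≤ v (u P - 1)`. -/
theorem vp_le_val_uc_sub_one {x y : K} (h : (Wab a b).toAffine.Nonsingular x y) (hx : 1 < v x)
    (hpP : p • Point.some x y h = 0) : v (p : K) ≤ v (uc α (Point.some x y h) - 1) := by
  rw [H.val_uc_sub_one_eq_zc h hx]
  have hW := KernelContract.integralCoeffs_Wab v H.ha H.hb.le
  have hP : Kernel.InE1 v (Point.some x y h) := (Kernel.inE1_some v h).mpr hx
  have hlt := hP.zc_lt_one hW
  have hpos := hP.zc_pos hW (Point.some_ne_zero h)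
  obtain ⟨-, h₂⟩ := Kernel.nsmul_estimate hW hlt hP le_rfl p
  rw [hpP, Kernel.zc_zero, zero_sub, Valuation.map_neg, map_mul, sq] at h₂
  rw [mul_comm] at h₂
  exact le_of_mul_le_mul_left h₂ hpos

/-- A nonzero `p`-torsion point of `E₁` has `v (u P - 1) = lam`. -/
theorem val_uc_sub_one_of_torsion {x y : K} (h : (Wab a b).toAffine.Nonsingular x y)
    (hx : 1 ≤ v x) (hpP : p • Point.some x y h = 0) :
    v (uc α (Point.some x y h) - 1) = v (1 - ξ) := by
  have hE1 : 1 < v x := H.inE1_of_torsion (P := Point.some x y h) hx hpP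
  obtain ⟨ζ₀, hζ₀, hlt⟩ := H.exists_zeta (P := Point.some x y h) hx hpP
  have hge := H.vp_le_val_uc_sub_one h hE1 hpP
  have h1 : ζ₀ ≠ 1 := by
    rintro rfl
    exact absurd hlt (not_lt.mpr hge)
  have e : uc α (Point.some x y h) - 1 = (uc α (Point.some x y h) - ζ₀) + (ζ₀ - 1) := by ring
  have hd := val_sub_of_ne v H.hp H.hξ hζ₀ (one_pow p) h1
  rw [e, ← hd]
  apply Valuation.map_add_eq_of_lt_right
  rw [hd]
  exact hlt.trans H.vp_lt_lam

theorem inE0_neg {P : (Wab a b).toAffine.Point} (hP : InE0 v P) : InE0 v (-P) := by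
  rcases P with _ | ⟨x, y, h⟩
  · exact hP
  · rw [Point.neg_some]; exact hP

/-- **Injectivity of `u` on `p`-torsion, up to `lam`.** -/
theorem eq_of_near {P Q : (Wab a b).toAffine.Point} (hP : InE0 v P) (hQ : InE0 v Q)
    (hpP : p • P = 0) (hpQ : p • Q = 0) (hne : v (uc α P - uc α Q) < v (1 - ξ)) : P = Q := by
  by_contra hPQ
  have hR0 : P + -Q ≠ 0 := by
    intro h0
    apply hPQ
    rw [← sub_eq_add_neg, sub_eq_zero] at h0
    exact h0
  have hnQ := H.inE0_neg hQ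
  have hR : InE0 v (P + -Q) := inE0_add H.hb H.hb0 H.ha hP hnQ
  have hpR : p • (P + -Q) = 0 := by rw [smul_add, smul_neg, hpP, hpQ, neg_zero, add_zero]
  have hadd := uc_add H.hα H.hαv H.hb H.hb0 hP hnQ
  rw [uc_neg] at hadd
  have hvQ : v (uc α Q) = 1 := val_uc H.hα H.hαv H.hb hQ
  have hQ0 : uc α Q ≠ 0 := (Valuation.ne_zero_iff v).mp (by rw [hvQ]; exact one_ne_zero)
  have h1 : v (uc α P * (uc α Q)⁻¹ - 1) < v (1 - ξ) := by
    have e : uc α P * (uc α Q)⁻¹ - 1 = (uc α P - uc α Q) / uc α Q := by field_simp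
    rw [e, map_div₀, hvQ, div_one]; exact hne
  have h2 : v (uc α (P + -Q) - 1) < v (1 - ξ) := by
    have e : uc α (P + -Q) - 1 =
        (uc α (P + -Q) - uc α P * (uc α Q)⁻¹) + (uc α P * (uc α Q)⁻¹ - 1) := by ring
    rw [e]
    exact lt_of_le_of_lt (v.map_add _ _) (max_lt (lt_of_le_of_lt hadd H.vb_lt_lam) h1)
  rcases hRc : P + -Q with _ | ⟨x, y, h⟩
  · exact hR0 hRc
  · rw [hRc] at hR hpR h2
    rw [H.val_uc_sub_one_of_torsion h hR hpR] at h2
    exact lt_irrefl _ h2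

/-- **`E₀[p]` is cyclic.** -/
theorem exists_nsmul_eq {P Q : (Wab a b).toAffine.Point} (hP : InE0 v P) (hQ : InE0 v Q)
    (hpP : p • P = 0) (hpQ : p • Q = 0) (hP0 : P ≠ 0) : ∃ k : ℕ, k < p ∧ Q = k • P := by
  have : Fact p.Prime := ⟨H.hp⟩
  have : NeZero p := ⟨H.hp.ne_zero⟩
  obtain ⟨ζP, hζP, hltP⟩ := H.exists_zeta hP hpP
  obtain ⟨ζQ, hζQ, hltQ⟩ := H.exists_zeta hQ hpQ
  have hζP1 : ζP ≠ 1 := by
    rintro rfl
    rcases P with _ | ⟨x, y, h⟩
    · exact hP0 rfl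
    · have := H.val_uc_sub_one_of_torsion h hP hpP
      rw [this] at hltP
      exact absurd (hltP.trans H.vp_lt_lam) (lt_irrefl _)
  have hprim : IsPrimitiveRoot ζP p :=
    IsPrimitiveRoot.iff_orderOf.mpr (orderOf_eq_prime hζP hζP1)
  obtain ⟨k, hk, hkeq⟩ := hprim.eq_pow_of_pow_eq_one hζQ
  refine ⟨k, hk, ?_⟩
  obtain ⟨hkE, hku⟩ := H.uc_nsmul hP k
  have hpk : p • (k • P) = 0 := by rw [smul_comm, hpP, smul_zero]
  apply H.eq_of_near hQ hkE hpQ hpk
  have hvP : v (uc α P) = 1 := val_uc H.hα H.hαv H.hb hP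
  have hvζ : v ζP = 1 := val_eq_one_of_pow_eq_one v H.hp.ne_zero hζP
  -- `u P ^ k ≡ ζP ^ k`
  have hpow : v (uc α P ^ k - ζP ^ k) < v (p : K) :=
    lt_of_le_of_lt (val_pow_sub_pow_le hvP.le hvζ.le k) hltP
  have e : uc α Q - uc α (k • P) =
      (uc α Q - ζQ) + (ζP ^ k - uc α P ^ k) + (uc α P ^ k - uc α (k • P)) := by
    rw [hkeq]; ring
  rw [e]
  refine lt_of_le_of_lt (v.map_add _ _) (max_lt (lt_of_le_of_lt (v.map_add _ _)
    (max_lt (hltQ.trans H.vp_lt_lam) ?_)) ?_)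
  · rw [← Valuation.map_neg, neg_sub]; exact hpow.trans H.vp_lt_lam
  · rw [← Valuation.map_neg, neg_sub]; exact lt_of_le_of_lt hku H.vb_lt_lam

omit H in
/-- `u` commutes with ring endomorphisms fixing `α`. -/
theorem uc_map (σ : K →+* K) (hσα : σ α = α) {x y : K} (h : (Wab a b).toAffine.Nonsingular x y)
    (h' : (Wab a b).toAffine.Nonsingular (σ x) (σ y)) :
    uc α (Point.some (σ x) (σ y) h') = σ (uc α (Point.some x y h)) := by
  rw [uc_some, uc_some, map_div₀, map_sub, map_add, map_div₀, hσα]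

/-- **Equivariance**: `σ` acts on `E₀[p]` through its action on `μ_p`. -/
theorem map_eq_nsmul (σ : K →+* K) (hσv : ∀ x, v (σ x) = v x) (hσα : σ α = α) {c : ℕ}
    (hc : ∀ ζ : K, ζ ^ p = 1 → σ ζ = ζ ^ c) {x y : K}
    (h : (Wab a b).toAffine.Nonsingular x y) (h' : (Wab a b).toAffine.Nonsingular (σ x) (σ y))
    (hx : 1 ≤ v x) (hpP : p • Point.some x y h = 0) (hpP' : p • Point.some (σ x) (σ y) h' = 0) :
    Point.some (σ x) (σ y) h' = c • Point.some x y h := by
  have hP : InE0 v (Point.some x y h) := hx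
  have hP' : InE0 v (Point.some (σ x) (σ y) h') := by
    show 1 ≤ v (σ x)
    rw [hσv]; exact hx
  obtain ⟨ζP, hζP, hltP⟩ := H.exists_zeta hP hpP
  obtain ⟨hcE, hcu⟩ := H.uc_nsmul hP c
  have hpc : p • (c • Point.some x y h) = 0 := by rw [smul_comm, hpP, smul_zero]
  apply H.eq_of_near hP' hcE hpP' hpc
  have hvP : v (uc α (Point.some x y h)) = 1 := val_uc H.hα H.hαv H.hb hP
  have hvζ : v ζP = 1 := val_eq_one_of_pow_eq_one v H.hp.ne_zero hζP
  have h1 : v (uc α (Point.some (σ x) (σ y) h') - ζP ^ c) < v (p : K) := by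
    rw [uc_map σ hσα h h', ← hc ζP hζP, ← map_sub, hσv]; exact hltP
  have h2 : v (uc α (Point.some x y h) ^ c - ζP ^ c) < v (p : K) :=
    lt_of_le_of_lt (val_pow_sub_pow_le hvP.le hvζ.le c) hltP
  have e : uc α (Point.some (σ x) (σ y) h') - uc α (c • Point.some x y h) =
      (uc α (Point.some (σ x) (σ y) h') - ζP ^ c) +
        (ζP ^ c - uc α (Point.some x y h) ^ c) +
        (uc α (Point.some x y h) ^ c - uc α (c • Point.some x y h)) := by ring
  rw [e]
  refine lt_of_le_of_lt (v.map_add _ _) (max_lt (lt_of_le_of_lt (v.map_add _ _)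
    (max_lt (h1.trans H.vp_lt_lam) ?_)) ?_)
  · rw [← Valuation.map_neg, neg_sub]; exact h2.trans H.vp_lt_lam
  · rw [← Valuation.map_neg, neg_sub]; exact lt_of_le_of_lt hcu H.vb_lt_lam

end Hyp

end Fermat.Agent.M1.ES.UTors8
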