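/-
M1 (row 38, S44), chapter ES (helper8): **`p`-torsion points outside the kernel of reduction lie on
a branch**, on the model curve `Wab a b : Y² = X³ + aX² + bX` (multiplicative reduction) at the
residue characteristic `p`.

* `branch_of_torsion` : a `p`-torsion point `(x, y)` with `v x ≤ 1` has `v b < v x < 1`;
* `inE0_sub_of_isAlpha` : two points of the `α`-branch with the same `v x` differ by a point
  of `E₀`;
* `exists_alpha_point` : over an algebraically closed field every abscissa `c` with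
  `v b < v c < 1` carries a point of the `α`-branch.
-/
import Mathlib
import Fermat.Agent.M1.ES.UTors8
import Fermat.Agent.M1.ES.MultTors20

set_option autoImplicit false
set_option linter.unusedSectionVars false

open WeierstrassCurve WeierstrassCurve.Affine

namespace Fermat.Agent.M1.ES.Branch8

open Fermat.Agent.S05 Fermat.Agent.S05.CompH3 Fermat.Agent.M1.ES.UChar8
  Fermat.Agent.M1.ES.CycloVal8 Fermat.Agent.M1.ES.UTors8

variable {K : Type*} [Field K] [DecidableEq K] {Γ₀ : Type*} [LinearOrderedCommGroupWithZero Γ₀]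
  {v : Valuation K Γ₀} {a b α : K} {p : ℕ} {ξ : K}

/-- odd multiples of `T0` are `T0`. -/
theorem odd_nsmul_T0 (hb0 : b ≠ 0) {n : ℕ} (hn : Odd n) :
    n • (T0 hb0 : (Wab a b).toAffine.Point) = T0 hb0 := by
  obtain ⟨m, rfl⟩ := hn
  rw [add_smul, one_smul, mul_comm, mul_smul, two_smul, T0_add_T0, smul_zero, zero_add]

theorem not_inE0_T0 (hb0 : b ≠ 0) : ¬ InE0 v (T0 hb0 : (Wab a b).toAffine.Point) := by
  intro h
  have : (1 : Γ₀) ≤ v (0 : K) := h
  simp at this

/-- **A `p`-torsion point outside `E₁` lies on a branch.** -/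
theorem branch_of_torsion (H : Hyp v a b α p ξ) {x y : K}
    (h : (Wab a b).toAffine.Nonsingular x y) (hpy : p • Point.some x y h = 0)
    (hx : v x ≤ 1) : v b < v x ∧ v x < 1 := by
  have hodd : Odd p := H.hp.odd_of_ne_two H.hp2
  have hlt : v x < 1 := by
    rcases lt_or_eq_of_le hx with h1 | h1
    · exact h1
    · exfalso
      have hE0 : InE0 v (Point.some x y h) := h1.ge
      have := H.inE1_of_torsion hE0 hpy
      rw [InE1_some, h1] at this
      exact lt_irrefl _ this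
  refine ⟨?_, hlt⟩
  by_contra hfar
  push Not at hfar
  by_cases hx0 : x = 0
  · subst hx0
    rw [eq_T0_of_x_eq_zero H.hb0 h, odd_nsmul_T0 H.hb0 hodd] at hpy
    have : (T0 H.hb0 : (Wab a b).toAffine.Point) ≠ 0 := Point.some_ne_zero _
    exact this hpy
  · obtain ⟨h', e⟩ := some_eq_xs h hx0
    obtain ⟨hQ, eQ⟩ := add_T0_xs H.hb0 h' hx0
    have hE0 : InE0 v (Point.some x y h + T0 H.hb0) := by
      rw [e, eQ]
      show 1 ≤ v (b / x)
      rw [map_div₀]
      exact (one_le_div₀ (zero_lt_iff.mpr ((Valuation.ne_zero_iff v).mpr hx0))).mpr hfar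
    have h1 := (H.uc_nsmul hE0 p).1
    rw [smul_add, hpy, zero_add, odd_nsmul_T0 H.hb0 hodd] at h1
    exact not_inE0_T0 H.hb0 h1

/-- Two points of the `α`-branch with the same `v x` differ by a point of `E₀`. -/
theorem inE0_sub_of_isAlpha (hαv : v α = 1) (h2 : v (2 : K) = 1)
    {x₁ s₁ x₂ s₂ : K} (h₁ : (Wab a b).toAffine.Nonsingular x₁ (x₁ * s₁))
    (h₂ : (Wab a b).toAffine.Nonsingular x₂ (x₂ * s₂)) (hA₁ : IsAlpha v b α x₁ s₁)
    (hA₂ : IsAlpha v b α x₂ s₂) (hv : v x₁ = v x₂) :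
    InE0 v (Point.some _ _ h₁ - Point.some _ _ h₂) := by
  have hx₁ := hA₁.x_ne_zero
  have hx₂ := hA₂.x_ne_zero
  obtain ⟨-, hvS⟩ := v_add_of_isAlpha hαv h2 hA₁ hA₂
  by_cases hxx : x₁ = x₂
  · subst hxx
    have e₁ := s_sq h₁ hx₁
    have e₂ := s_sq h₂ hx₁
    have hmul : (s₁ - s₂) * (s₁ + s₂) = 0 := by
      have : (s₁ - s₂) * (s₁ + s₂) = s₁ ^ 2 - s₂ ^ 2 := by ring
      rw [this, e₁, e₂, sub_self]
    have hss : s₁ = s₂ := by
      rcases mul_eq_zero.mp hmul with h3 | h3
      · exact sub_eq_zero.mp h3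
      · rw [h3, map_zero] at hvS; exact absurd hvS zero_ne_one
    subst hss
    rw [sub_self]
    trivial
  · obtain ⟨hN, eN⟩ := neg_xs h₂
    obtain ⟨y₃, h₃, e₃⟩ := add_xs_chord h₁ hN hx₁ hx₂ hxx
    rw [sub_eq_add_neg, eN, e₃]
    show 1 ≤ v (x₁ * x₂ * (s₁ - -s₂) ^ 2 / (x₁ - x₂) ^ 2)
    have hne : x₁ - x₂ ≠ 0 := sub_ne_zero.mpr hxx
    have hpos : 0 < v (x₁ - x₂) := by rw [Valuation.pos_iff]; exact hne
    rw [sub_neg_eq_add, map_div₀, map_mul, map_mul, map_pow, map_pow, hvS, one_pow, mul_one,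
      one_le_div₀ (pow_pos hpos 2), ← hv, ← pow_two]
    have hle : v (x₁ - x₂) ≤ v x₁ := by
      refine (v.map_sub _ _).trans (max_le le_rfl hv.ge)
    exact pow_le_pow_left₀ zero_le hle 2

/-- Over an algebraically closed field, every abscissa `c` with `v b < v c < 1` carries a point
of the `α`-branch. -/
theorem exists_alpha_point [IsAlgClosed K] (hα : α ^ 2 = a) (hαv : v α = 1)
    (h2 : v (2 : K) = 1) (hb : v b < 1) (hb0 : b ≠ 0) {c : K} (hc1 : v b < v c)
    (hc2 : v c < 1) :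
    ∃ (s₀ : K) (_ : (Wab a b).toAffine.Nonsingular c (c * s₀)), IsAlpha v b α c s₀ := by
  have hc0 : c ≠ 0 := by
    rintro rfl
    simp at hc1
  have ha : v a = 1 := by rw [← hα, map_pow, hαv, one_pow]
  obtain ⟨s, hs⟩ := IsAlgClosed.exists_pow_nat_eq (c + a + b / c) (n := 2) zero_lt_two
  have heq : ∀ s' : K, s' ^ 2 = c + a + b / c → (Wab a b).toAffine.Nonsingular c (c * s') := by
    intro s' hs'
    have heq : (Wab a b).toAffine.Equation c (c * s') := by
      rw [Wab_equation_iff, mul_pow, hs']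
      field_simp
    exact ((Wab a b).toAffine.equation_iff_nonsingular_of_Δ_ne_zero
      (MultTors20.Wab_Δ_ne_zero h2 ha hb hb0)).mp heq
  rcases isAlpha_or_isBeta hα.symm hc1 hc2 hs with hA | hB
  · exact ⟨s, heq s hs, hA⟩
  · exact ⟨-s, heq (-s) (by rw [neg_sq]; exact hs), hB.neg⟩

end Fermat.Agent.M1.ES.Branch8
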