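/-
M1 / chapter ES (helper73): valuations of cyclotomic quantities.  For a primitive `p`-th root of
unity `ζ` (`p` prime) in a field `K` with a valuation `v`:
`v ζ = 1`, `v (∑_{i<c} ζ^i - c) ≤ v (ζ - 1)`, `v (ζ^j - 1) = v (ζ - 1)` for `p ∤ j`, and
`v p = v (ζ - 1) ^ (p - 1)`.  Mathlib only.
-/
import Mathlib

set_option autoImplicit false

namespace Fermat.Agent.M1.ES.CycloVal73

open Finset

variable {K : Type*} [Field K] {Γ₀ : Type*} [LinearOrderedCommGroupWithZero Γ₀]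
  (v : Valuation K Γ₀)

/-- A root of unity has valuation `1`. -/
theorem val_eq_one_of_pow_eq_one {ζ : K} {n : ℕ} (hn : n ≠ 0) (h : ζ ^ n = 1) : v ζ = 1 := by
  have h1 : v ζ ^ n = 1 := by rw [← map_pow, h, map_one]
  exact (pow_eq_one_iff_of_nonneg zero_le hn).mp h1

/-- Powers of a root of unity are integral. -/
theorem val_pow_le_one {ζ : K} (hζ : v ζ = 1) (i : ℕ) : v (ζ ^ i) ≤ 1 := by
  rw [map_pow, hζ, one_pow]

/-- A geometric sum of a root of unity is integral. -/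
theorem val_geom_sum_le_one {ζ : K} (hζ : v ζ = 1) (c : ℕ) : v (∑ i ∈ range c, ζ ^ i) ≤ 1 :=
  v.map_sum_le fun i _ => val_pow_le_one v hζ i

/-- `v (ζ ^ i - 1) ≤ v (ζ - 1)`. -/
theorem val_pow_sub_one_le {ζ : K} (hζ : v ζ = 1) (i : ℕ) : v (ζ ^ i - 1) ≤ v (ζ - 1) := by
  rw [← geom_sum_mul, map_mul]
  exact mul_le_of_le_one_left' (val_geom_sum_le_one v hζ i)

/-- `v (∑_{i<c} ζ^i - c) ≤ v (ζ - 1)`. -/
theorem val_geom_sum_sub_le {ζ : K} (hζ : v ζ = 1) (c : ℕ) :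
    v (∑ i ∈ range c, ζ ^ i - (c : K)) ≤ v (ζ - 1) := by
  have e : ∑ i ∈ range c, ζ ^ i - (c : K) = ∑ i ∈ range c, (ζ ^ i - 1) := by
    rw [sum_sub_distrib, sum_const, card_range, nsmul_eq_mul, mul_one]
  rw [e]
  exact v.map_sum_le fun i _ => val_pow_sub_one_le v hζ i

/-- For `p ∤ j`, `v (ζ ^ j - 1) = v (ζ - 1)`. -/
theorem val_pow_sub_one_eq {p : ℕ} (hp : p.Prime) {ζ : K} (hζp : ζ ^ p = 1) {j : ℕ}
    (hj : ¬ p ∣ j) : v (ζ ^ j - 1) = v (ζ - 1) := by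
  have hζ : v ζ = 1 := val_eq_one_of_pow_eq_one v hp.ne_zero hζp
  refine le_antisymm (val_pow_sub_one_le v hζ j) ?_
  have hcop : Nat.Coprime j p := (Nat.Coprime.symm ((Nat.Prime.coprime_iff_not_dvd hp).mpr hj))
  obtain ⟨m, -, hm⟩ := Nat.exists_mul_mod_eq_one_of_coprime hcop hp.one_lt
  have e : (ζ ^ j) ^ m = ζ := by
    rw [← pow_mul, ← Nat.mod_add_div (j * m) p, hm, pow_add, pow_mul, hζp, one_pow, mul_one,
      pow_one]
  have hζj : v (ζ ^ j) = 1 := by rw [map_pow, hζ, one_pow]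
  have := val_pow_sub_one_le v hζj m
  rwa [e] at this

/-- `v p = v (ζ - 1) ^ (p - 1)` for a primitive `p`-th root of unity `ζ`. -/
theorem val_prime_eq {p : ℕ} (hp : p.Prime) {ζ : K} (hζ : IsPrimitiveRoot ζ p) :
    v (p : K) = v (ζ - 1) ^ (p - 1) := by
  obtain ⟨n, rfl⟩ : ∃ n, p = n + 1 := ⟨p - 1, (Nat.succ_pred_eq_of_pos hp.pos).symm⟩
  have h := hζ.prod_one_sub_pow_eq_order
  have hp' : ((n + 1 : ℕ) : K) = (n : K) + 1 := by push_cast; ring
  rw [hp', ← h, map_prod, Nat.add_sub_cancel]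
  have : ∀ k ∈ range n, v (1 - ζ ^ (k + 1)) = v (ζ - 1) := by
    intro k hk
    rw [mem_range] at hk
    have hnd : ¬ (n + 1) ∣ (k + 1) := by
      intro hd
      have := Nat.le_of_dvd (Nat.succ_pos k) hd
      omega
    rw [← Valuation.map_neg, neg_sub]
    exact val_pow_sub_one_eq v hp hζ.pow_eq_one hnd
  rw [prod_congr rfl this, prod_const, card_range]

/-- `v (ζ - 1) < 1` when `v p < 1`. -/
theorem val_sub_one_lt_one {p : ℕ} (hp : p.Prime) {ζ : K} (hζ : IsPrimitiveRoot ζ p)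
    (hvp : v (p : K) < 1) : v (ζ - 1) < 1 := by
  by_contra hge
  have hge' : 1 ≤ v (ζ - 1) := not_lt.mp hge
  have := val_prime_eq v hp hζ
  rw [this] at hvp
  exact absurd (one_le_pow₀ hge') (not_le.mpr hvp)

end Fermat.Agent.M1.ES.CycloVal73
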