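/-
M1 / chapter ES (helper73): PACKAGING of local ramification facts into `PeuRamData`
(`M1/Ram/PeuRamDef20`).

Let `A` be a valuation subring of `ℚ̄` over `p`, `L ⊂ ℚ̄` finite normal over `ℚ`, `G` the image of
the inertia group `I_A` in `Gal(L/ℚ)`.  If `|G| ≤ N`, `ϖ ∈ A ∩ L` with `v ϖ ^ N = v p`, then
`|G| = N`, `ϖ` is a uniformiser of `A ∩ L`, `L / L^G` is totally ramified with power basis
`1, ϖ, …, ϖ^(N-1)` and (Serre IV §1 Lemma 1) `v (τ a - a) ≤ v (τ ϖ - ϖ)` for all integral `a`.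
No Dedekind-domain ramification theory is used: only norms from `L` to `L^G`, the fact that
`I_A`-fixed non-units are divisible by `p` (`ES/P36/UnrFixed1`), and the abstract theory
`TW/Ram/TotRam73`, `Depth73`.
-/
import Mathlib
import Fermat.Agent.M1.Ram.PeuRamDef20
import Fermat.Agent.ES.P36.UnrFixed1
import Fermat.Agent.S05.Inertia
import Fermat.Agent.TW.Ram.Depth73

set_option autoImplicit false
set_option linter.unusedSectionVars false

namespace Fermat.Agent.M1.ES.Pack73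

open Fermat.Agent.RED.Interface4 Fermat.Agent.RED.DESC Fermat.Agent.ES.N34.GalBase21
open Fermat.Agent.M1.Ram.PeuRamDef20

section IntVal

variable {F : Type*} [Field F] {Γ : Type*} [LinearOrderedCommGroupWithZero Γ]
  (u : Valuation F Γ) (γ : Γ)

open Classical in
/-- The integer exponent of `u x` with respect to `γ` (`⊤` if `u x` is not a power of `γ`). -/
noncomputable def expFun (x : F) : WithTop ℤ :=
  if h : ∃ n : ℤ, u x = γ ^ n then ((Classical.choose h : ℤ) : WithTop ℤ) else ⊤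

variable {u γ}

theorem expFun_eq (hγ0 : 0 < γ) (hγ1 : γ < 1) {x : F} {n : ℤ} (hn : u x = γ ^ n) :
    expFun u γ x = (n : WithTop ℤ) := by
  have h : ∃ n : ℤ, u x = γ ^ n := ⟨n, hn⟩
  rw [expFun, dif_pos h]
  have h2 := Classical.choose_spec h
  have h3 : γ ^ Classical.choose h = γ ^ n := h2.symm.trans hn
  have := zpow_right_injective₀ hγ0 hγ1.ne h3
  rw [this]

theorem expFun_zero (hγ0 : 0 < γ) : expFun u γ (0 : F) = ⊤ := by
  rw [expFun, dif_neg]
  rintro ⟨n, hn⟩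
  rw [map_zero] at hn
  exact (zpow_ne_zero n hγ0.ne') hn.symm

/-- The integer valued additive valuation attached to a generator `γ` of the value group. -/
noncomputable def intVal (hγ0 : 0 < γ) (hγ1 : γ < 1)
    (hgen : ∀ x : F, x ≠ 0 → ∃ n : ℤ, u x = γ ^ n) : AddValuation F (WithTop ℤ) :=
  AddValuation.of (expFun u γ) (expFun_zero hγ0)
    (by
      have : u (1 : F) = γ ^ (0 : ℤ) := by rw [map_one, zpow_zero]
      rw [expFun_eq hγ0 hγ1 this]; rfl)
    (by
      intro x y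
      by_cases hx : x = 0
      · subst hx; rw [zero_add]; exact min_le_right _ _
      by_cases hy : y = 0
      · subst hy; rw [add_zero]; exact min_le_left _ _
      by_cases hxy : x + y = 0
      · rw [hxy, expFun_zero hγ0]; exact le_top
      obtain ⟨n, hn⟩ := hgen x hx
      obtain ⟨m, hm⟩ := hgen y hy
      obtain ⟨k, hk⟩ := hgen (x + y) hxy
      rw [expFun_eq hγ0 hγ1 hn, expFun_eq hγ0 hγ1 hm, expFun_eq hγ0 hγ1 hk]
      have h := u.map_add x y
      rw [hn, hm, hk] at h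
      rcases le_max_iff.mp h with h1 | h1
      · rw [zpow_le_zpow_iff_right_of_lt_one₀ hγ0 hγ1] at h1
        exact (min_le_left _ _).trans (by exact_mod_cast h1)
      · rw [zpow_le_zpow_iff_right_of_lt_one₀ hγ0 hγ1] at h1
        exact (min_le_right _ _).trans (by exact_mod_cast h1))
    (by
      intro x y
      by_cases hx : x = 0
      · subst hx; rw [zero_mul, expFun_zero hγ0, top_add]
      by_cases hy : y = 0
      · subst hy; rw [mul_zero, expFun_zero hγ0, add_top]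
      obtain ⟨n, hn⟩ := hgen x hx
      obtain ⟨m, hm⟩ := hgen y hy
      have hk : u (x * y) = γ ^ (n + m) := by rw [map_mul, hn, hm, zpow_add₀ hγ0.ne']
      rw [expFun_eq hγ0 hγ1 hn, expFun_eq hγ0 hγ1 hm, expFun_eq hγ0 hγ1 hk]
      rfl)

theorem intVal_eq (hγ0 : 0 < γ) (hγ1 : γ < 1) (hgen : ∀ x : F, x ≠ 0 → ∃ n : ℤ, u x = γ ^ n)
    {x : F} {n : ℤ} (hn : u x = γ ^ n) : intVal hγ0 hγ1 hgen x = (n : WithTop ℤ) :=
  expFun_eq hγ0 hγ1 hn

/-- `0 ≤ intVal x ↔ u x ≤ 1`. -/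
theorem intVal_nonneg_iff (hγ0 : 0 < γ) (hγ1 : γ < 1)
    (hgen : ∀ x : F, x ≠ 0 → ∃ n : ℤ, u x = γ ^ n) (x : F) :
    0 ≤ intVal hγ0 hγ1 hgen x ↔ u x ≤ 1 := by
  by_cases hx : x = 0
  · subst hx
    simp
  · obtain ⟨n, hn⟩ := hgen x hx
    rw [intVal_eq hγ0 hγ1 hgen hn, hn, ← zpow_zero γ, zpow_le_zpow_iff_right_of_lt_one₀ hγ0 hγ1]
    exact_mod_cast Iff.rfl

/-- `(k : ℤ) ≤ intVal x ↔ u x ≤ γ ^ k`. -/
theorem le_intVal_iff (hγ0 : 0 < γ) (hγ1 : γ < 1)
    (hgen : ∀ x : F, x ≠ 0 → ∃ n : ℤ, u x = γ ^ n) (x : F) (k : ℤ) :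
    (k : WithTop ℤ) ≤ intVal hγ0 hγ1 hgen x ↔ u x ≤ γ ^ k := by
  by_cases hx : x = 0
  · subst hx
    simp
  · obtain ⟨n, hn⟩ := hgen x hx
    rw [intVal_eq hγ0 hγ1 hgen hn, hn, zpow_le_zpow_iff_right_of_lt_one₀ hγ0 hγ1]
    exact_mod_cast Iff.rfl

end IntVal

section ValueGroup

variable (A : ValuationSubring Qbar) (L : IntermediateField ℚ Qbar)

/-- The restriction of the valuation of `A` to `L`. -/
noncomputable def vL : Valuation L A.ValueGroup := A.valuation.comap (algebraMap L Qbar)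

theorem vL_apply (x : L) : vL A L x = A.valuation (x : Qbar) := rfl

theorem mem_AK_iff_vL (x : L) : x ∈ AK A L ↔ vL A L x ≤ 1 := by
  rw [NumberFieldDVR27.mem_AK_iff, vL_apply, ValuationSubring.valuation_le_one_iff]

variable [FiniteDimensional ℚ L] {ℓ : ℕ}

/-- The value group of `L` is generated by the valuation of a uniformiser of `A ∩ L`. -/
theorem exists_gen (hℓ : ℓ ≠ 0) (hA : A.LiesOverPrime ℓ) :
    ∃ π : L, vL A L π < 1 ∧ vL A L π ≠ 0 ∧
      ∀ x : L, x ≠ 0 → ∃ n : ℤ, vL A L x = vL A L π ^ n := by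
  have := NumberFieldDVR27.isDiscreteValuationRing_AK A L hℓ hA
  obtain ⟨ϖ, hirr⟩ := IsDiscreteValuationRing.exists_irreducible (AK A L)
  have hϖ1 : vL A L (ϖ : L) < 1 := by
    have : ϖ ∈ IsLocalRing.maximalIdeal (AK A L) := hirr.not_isUnit
    rw [NumberFieldDVR27.mem_maximalIdeal_iff, ValuationSubring.valuation_lt_one_iff] at this
    exact this
  have hϖ0 : vL A L (ϖ : L) ≠ 0 := by
    rw [Valuation.ne_zero_iff]
    intro h0
    exact hirr.ne_zero (Subtype.ext h0)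
  have hunit : ∀ u : (AK A L)ˣ, vL A L ((u : AK A L) : L) = 1 := by
    intro u
    have h1 : vL A L ((u : AK A L) : L) ≤ 1 := (mem_AK_iff_vL A L _).mp (u : AK A L).2
    have h2 : vL A L (((u⁻¹ : (AK A L)ˣ) : AK A L) : L) ≤ 1 :=
      (mem_AK_iff_vL A L _).mp ((u⁻¹ : (AK A L)ˣ) : AK A L).2
    have h3 : ((u : AK A L) : L) * (((u⁻¹ : (AK A L)ˣ) : AK A L) : L) = 1 := by
      rw [← MulMemClass.coe_mul, Units.mul_inv, OneMemClass.coe_one]
    have h4 : vL A L ((u : AK A L) : L) * vL A L (((u⁻¹ : (AK A L)ˣ) : AK A L) : L) = 1 := by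
      rw [← map_mul, h3, map_one]
    refine le_antisymm h1 ?_
    by_contra hlt
    have hlt' : vL A L ((u : AK A L) : L) < 1 := not_le.mp hlt
    have : vL A L ((u : AK A L) : L) * vL A L (((u⁻¹ : (AK A L)ˣ) : AK A L) : L) < 1 :=
      mul_lt_one_of_nonneg_of_lt_one_left zero_le hlt' h2
    rw [h4] at this
    exact lt_irrefl _ this
  have hint : ∀ x : AK A L, x ≠ 0 → ∃ n : ℕ, vL A L (x : L) = vL A L (ϖ : L) ^ n := by
    intro x hx
    obtain ⟨n, u, hu⟩ := IsDiscreteValuationRing.eq_unit_mul_pow_irreducible hx hirr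
    refine ⟨n, ?_⟩
    have : (x : L) = ((u : AK A L) : L) * (ϖ : L) ^ n := by
      have := congrArg Subtype.val hu
      simpa using this
    rw [this, map_mul, hunit, one_mul, map_pow]
  refine ⟨(ϖ : L), hϖ1, hϖ0, fun x hx => ?_⟩
  rcases (AK A L).mem_or_inv_mem x with h | h
  · obtain ⟨n, hn⟩ := hint ⟨x, h⟩ (fun h0 => hx (congrArg Subtype.val h0))
    exact ⟨n, by rw [zpow_natCast]; exact hn⟩
  · obtain ⟨n, hn⟩ := hint ⟨x⁻¹, h⟩ (fun h0 => inv_ne_zero hx (congrArg Subtype.val h0))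
    refine ⟨-n, ?_⟩
    rw [zpow_neg, zpow_natCast, ← hn]
    show vL A L x = (vL A L x⁻¹)⁻¹
    rw [map_inv₀, inv_inv]

end ValueGroup

section Inertia

variable (A : ValuationSubring Qbar) (L : IntermediateField ℚ Qbar) [Normal ℚ L]

/-- The image of the inertia group of `A` in `Gal(L/ℚ)`. -/
noncomputable def IL : Subgroup (L ≃ₐ[ℚ] L) := (A.inertiaSubgroupIn ℚ).map (resKHom L)

theorem resK_mem_IL {τ : Qbar ≃ₐ[ℚ] Qbar} (hτ : τ ∈ A.inertiaSubgroupIn ℚ) :
    resK L τ ∈ IL A L := ⟨τ, hτ, rfl⟩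

theorem smul_IL_def (g : IL A L) (x : L) : g • x = (g : L ≃ₐ[ℚ] L) x := rfl

/-- Every element of `IL` is the restriction of an inertia element. -/
theorem exists_of_mem_IL (g : IL A L) :
    ∃ τ ∈ A.inertiaSubgroupIn ℚ, ∀ x : L, ((g • x : L) : Qbar) = τ (x : Qbar) := by
  obtain ⟨τ, hτ, hg⟩ := g.2
  refine ⟨τ, hτ, fun x => ?_⟩
  rw [smul_IL_def, ← hg]
  exact coe_resK L τ x

/-- `IL` preserves the valuation. -/
theorem vL_smul (g : IL A L) (x : L) : vL A L (g • x) = vL A L x := by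
  obtain ⟨τ, hτ, h⟩ := exists_of_mem_IL A L g
  rw [vL_apply, h, vL_apply]
  exact Fermat.Agent.S05.Inertia.valuation_apply_rat hτ _

/-- An `IL`-fixed element of `L` is fixed by the inertia group of `A`. -/
theorem apply_eq_of_fixed {x : L} (hfix : ∀ g : IL A L, g • x = x)
    {τ : Qbar ≃ₐ[ℚ] Qbar} (hτ : τ ∈ A.inertiaSubgroupIn ℚ) : τ (x : Qbar) = (x : Qbar) := by
  have h := hfix ⟨resK L τ, resK_mem_IL A L hτ⟩
  rw [smul_IL_def] at h
  have h2 := coe_resK L τ x
  rw [← h2]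
  exact congrArg (fun y : L => (y : Qbar)) h

variable [FiniteDimensional ℚ L]

/-- The norm from `L` to the fixed field of `IL`. -/
noncomputable def Nm (x : L) : L := ∏ᶠ g : IL A L, g • x

theorem smul_Nm (g : IL A L) (x : L) : g • Nm A L x = Nm A L x := smul_finprod_perm x g

theorem vL_Nm (x : L) : vL A L (Nm A L x) = vL A L x ^ Nat.card (IL A L) := by
  cases nonempty_fintype (IL A L)
  rw [Nm, finprod_eq_prod_of_fintype, map_prod, Finset.prod_congr rfl (fun g _ => vL_smul A L g x),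
    Finset.prod_const, Finset.card_univ, Nat.card_eq_fintype_card]

theorem Nm_ne_zero {x : L} (hx : x ≠ 0) : Nm A L x ≠ 0 := by
  rw [← Valuation.ne_zero_iff (vL A L), vL_Nm]
  exact pow_ne_zero _ ((Valuation.ne_zero_iff _).mpr hx)

end Inertia

section Structure

variable (A : ValuationSubring Qbar) (L : IntermediateField ℚ Qbar) [Normal ℚ L]
  [FiniteDimensional ℚ L] {p : ℕ}

theorem vL_natCast (n : ℕ) : vL A L (n : L) = A.valuation (n : Qbar) := by
  rw [vL_apply]; congr 1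

theorem smul_natCast (g : IL A L) (n : ℕ) : g • (n : L) = (n : L) := by
  rw [smul_IL_def, map_natCast]

/-- `IL`-fixed non-units are divisible by `p`: the fixed field of inertia is unramified. -/
theorem vL_le_of_fixed (hp : p.Prime) (hA : A.LiesOverPrime p) {x : L}
    (hfix : ∀ g : IL A L, g • x = x) (hx : vL A L x < 1) : vL A L x ≤ vL A L (p : L) := by
  have hmem : (x : Qbar) ∈ A.nonunits := (ValuationSubring.mem_nonunits_iff (A := A)).mpr hx
  have hdiv := Fermat.Agent.ES.P36.UnrFixed1.div_natCast_mem_of_fixed A hp hA (x : Qbar)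
    (fun τ hτ => apply_eq_of_fixed A L hfix hτ) hmem
  have hle : A.valuation ((x : Qbar) / (p : Qbar)) ≤ 1 :=
    (ValuationSubring.valuation_le_one_iff A _).mpr hdiv
  have hp0 : A.valuation (p : Qbar) ≠ 0 :=
    (Valuation.ne_zero_iff _).mpr (by exact_mod_cast hp.ne_zero)
  rw [map_div₀, div_le_iff₀ (zero_lt_iff.mpr hp0), one_mul] at hle
  rw [vL_natCast, vL_apply]
  exact hle

/-- Auxiliary: a fixed element of valuation `γ ^ n` has `e ∣ n` when `v p = γ ^ e`. -/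
theorem dvd_of_fixed (hp : p.Prime) (hA : A.LiesOverPrime p) {γ : A.ValueGroup} (hγ0 : γ ≠ 0)
    (hγ1 : γ < 1) {e : ℕ} (he : 0 < e) (hpe : vL A L (p : L) = γ ^ e) :
    ∀ n : ℕ, ∀ x : L, (∀ g : IL A L, g • x = x) → vL A L x = γ ^ n → e ∣ n := by
  have hγpos : 0 < γ := zero_lt_iff.mpr hγ0
  intro n
  induction n using Nat.strong_induction_on with
  | _ n ih =>
    intro x hfix hx
    rcases Nat.eq_zero_or_pos n with rfl | hn
    · exact dvd_zero e
    · have hx1 : vL A L x < 1 := by rw [hx]; exact pow_lt_one₀ zero_le hγ1 hn.ne'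
      have hle := vL_le_of_fixed A L hp hA hfix hx1
      rw [hx, hpe, pow_le_pow_iff_right_of_lt_one₀ hγpos hγ1] at hle
      have hp0 : (p : L) ≠ 0 := by exact_mod_cast hp.ne_zero
      have hfix' : ∀ g : IL A L, g • (x / (p : L)) = x / (p : L) := by
        intro g
        rw [smul_div₀', hfix g, smul_natCast]
      have hx' : vL A L (x / (p : L)) = γ ^ (n - e) := by
        rw [map_div₀, hx, hpe, pow_sub₀ γ hγ0 hle, div_eq_mul_inv]
      have := ih (n - e) (by omega) (x / (p : L)) hfix' hx'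
      have h2 := Nat.dvd_add this (dvd_refl e)
      rwa [Nat.sub_add_cancel hle] at h2

/-- **Structure theorem.**  If inertia acts on `L` through at most `N` elements and `ϖ ∈ L` has
`v ϖ ^ N = v p`, then `|IL| = N`, the value group of `L` is generated by `v ϖ`, and `IL`-fixed
elements have valuation in `v ϖ ^ (N ℤ)`. -/
theorem structure_thm (hp : p.Prime) (hA : A.LiesOverPrime p) {N : ℕ} (hN : 0 < N)
    (hcard : Nat.card (IL A L) ≤ N) {ϖ : L} (hϖ : vL A L ϖ ^ N = vL A L (p : L)) :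
    Nat.card (IL A L) = N ∧ (∀ x : L, x ≠ 0 → ∃ n : ℤ, vL A L x = vL A L ϖ ^ n) ∧
      (∀ x : L, x ≠ 0 → (∀ g : IL A L, g • x = x) →
        ∃ m : ℤ, vL A L x = vL A L ϖ ^ ((N : ℤ) * m)) := by
  obtain ⟨π, hπ1, hπ0, hgen⟩ := exists_gen A L hp.ne_zero hA
  set γ := vL A L π with hγ
  have hγpos : 0 < γ := zero_lt_iff.mpr hπ0
  have hvp1 : vL A L (p : L) < 1 := by
    rw [vL_natCast]; exact Fermat.Agent.S05.Inertia.valuation_prime_lt_one hA
  have hp0 : (p : L) ≠ 0 := by exact_mod_cast hp.ne_zero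
  -- integral nonzero elements have natural exponents
  have hnat : ∀ x : L, x ≠ 0 → vL A L x ≤ 1 → ∃ n : ℕ, vL A L x = γ ^ n := by
    intro x hx hx1
    obtain ⟨n, hn⟩ := hgen x hx
    have h0 : 0 ≤ n := by
      rw [hn, ← zpow_zero γ, zpow_le_zpow_iff_right_of_lt_one₀ hγpos hπ1] at hx1
      exact hx1
    refine ⟨n.toNat, ?_⟩
    rw [hn, ← zpow_natCast, Int.toNat_of_nonneg h0]
  obtain ⟨e, he⟩ := hnat (p : L) hp0 hvp1.le
  have he0 : 0 < e := by
    rcases Nat.eq_zero_or_pos e with rfl | h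
    · rw [he, pow_zero] at hvp1; exact absurd hvp1 (lt_irrefl _)
    · exact h
  have hϖ0 : ϖ ≠ 0 := by
    rintro rfl
    rw [map_zero, zero_pow hN.ne'] at hϖ
    exact hp0 ((Valuation.zero_iff _).mp hϖ.symm)
  have hϖ1 : vL A L ϖ ≤ 1 := by
    by_contra hcon
    have : 1 < vL A L ϖ ^ N := one_lt_pow₀ (not_le.mp hcon) hN.ne'
    rw [hϖ] at this
    exact absurd hvp1 (not_lt.mpr this.le)
  obtain ⟨k, hk⟩ := hnat ϖ hϖ0 hϖ1
  have hkN : k * N = e := by
    have : γ ^ (k * N) = γ ^ e := by rw [pow_mul, ← hk, hϖ, he]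
    exact pow_right_injective₀ hγpos hπ1.ne this
  -- the norm of `π`
  have hcard0 : 0 < Nat.card (IL A L) := Nat.card_pos
  have hNm : vL A L (Nm A L π) = γ ^ Nat.card (IL A L) := vL_Nm A L π
  have hNm1 : vL A L (Nm A L π) < 1 := by rw [hNm]; exact pow_lt_one₀ zero_le hπ1 hcard0.ne'
  have hle := vL_le_of_fixed A L hp hA (fun g => smul_Nm A L g π) hNm1
  rw [hNm, he, pow_le_pow_iff_right_of_lt_one₀ hγpos hπ1] at hle
  have hk1 : k = 1 := by
    have h1 : k * N ≤ N := by rw [hkN]; exact hle.trans hcard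
    have hk0 : 0 < k := by
      rcases Nat.eq_zero_or_pos k with rfl | h
      · rw [zero_mul] at hkN; omega
      · exact h
    nlinarith
  subst hk1
  rw [one_mul] at hkN
  subst hkN
  rw [pow_one] at hk
  refine ⟨le_antisymm hcard hle, ?_, ?_⟩
  · intro x hx
    rw [hk]; exact hgen x hx
  · intro x hx hfix
    have key : ∀ y : L, y ≠ 0 → vL A L y ≤ 1 → (∀ g : IL A L, g • y = y) →
        ∃ m : ℕ, vL A L y = vL A L ϖ ^ (N * m) := by
      intro y hy hy1 hfy
      obtain ⟨n, hn⟩ := hnat y hy hy1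
      obtain ⟨m, rfl⟩ := dvd_of_fixed A L hp hA hπ0 hπ1 he0 he n y hfy hn
      exact ⟨m, by rw [hn, hk]⟩
    rcases le_total (vL A L x) 1 with h1 | h1
    · obtain ⟨m, hm⟩ := key x hx h1 hfix
      exact ⟨m, by rw [hm, ← zpow_natCast]; push_cast; rfl⟩
    · have hinv1 : vL A L x⁻¹ ≤ 1 := by
        rw [map_inv₀]; exact inv_le_one_of_one_le₀ h1
      have hfinv : ∀ g : IL A L, g • x⁻¹ = x⁻¹ := fun g => by rw [smul_inv'', hfix g]
      obtain ⟨m, hm⟩ := key x⁻¹ (inv_ne_zero hx) hinv1 hfinv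
      refine ⟨-m, ?_⟩
      rw [map_inv₀] at hm
      rw [mul_neg, zpow_neg, ← inv_eq_iff_eq_inv, hm, ← zpow_natCast]
      push_cast; rfl

end Structure

section Pack

open Fermat.Agent.TW.Ram.TotRam73 Fermat.Agent.TW.Ram.Depth73

variable (A : ValuationSubring Qbar) (L : IntermediateField ℚ Qbar) [Normal ℚ L]
  [FiniteDimensional ℚ L] {p : ℕ}

/-- **Serre IV §1 Lemma 1 in our setting**: under the hypotheses of the structure theorem,
`v (g a - a) ≤ v (g ϖ - ϖ)` for every `g` in the inertia image and every integral `a ∈ L`. -/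
theorem vL_sub_le (hp : p.Prime) (hA : A.LiesOverPrime p) {N : ℕ} (hN : 0 < N)
    (hcard : Nat.card (IL A L) ≤ N) {ϖ : L} (hϖ : vL A L ϖ ^ N = vL A L (p : L))
    (g : IL A L) (a : L) (ha : vL A L a ≤ 1) :
    vL A L (g • a - a) ≤ vL A L (g • ϖ - ϖ) := by
  obtain ⟨hc, hgen, hfix⟩ := structure_thm A L hp hA hN hcard hϖ
  have hvp1 : vL A L (p : L) < 1 := by
    rw [vL_natCast]; exact Fermat.Agent.S05.Inertia.valuation_prime_lt_one hA
  have hp0 : (p : L) ≠ 0 := by exact_mod_cast hp.ne_zero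
  have hϖ0 : ϖ ≠ 0 := by
    rintro rfl
    rw [map_zero, zero_pow hN.ne'] at hϖ
    exact hp0 ((Valuation.zero_iff _).mp hϖ.symm)
  have hγ0 : 0 < vL A L ϖ := zero_lt_iff.mpr ((Valuation.ne_zero_iff _).mpr hϖ0)
  have hγ1 : vL A L ϖ < 1 := by
    by_contra hcon
    have : 1 ≤ vL A L ϖ ^ N := one_le_pow₀ (not_lt.mp hcon)
    rw [hϖ] at this
    exact absurd hvp1 (not_lt.mpr this)
  let D : TRData (IL A L) L :=
    { w := intVal hγ0 hγ1 hgen
      w_smul := by
        intro σ x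
        by_cases hx : x = 0
        · subst hx; rw [smul_zero]
        · obtain ⟨n, hn⟩ := hgen x hx
          have hn' : vL A L (σ • x) = vL A L ϖ ^ n := by rw [vL_smul]; exact hn
          rw [intVal_eq hγ0 hγ1 hgen hn, intVal_eq hγ0 hγ1 hgen hn']
      π := ϖ
      w_π := intVal_eq hγ0 hγ1 hgen (by rw [zpow_one])
      w_fixed := by
        intro x hx hx0
        obtain ⟨m, hm⟩ := hfix x hx0 hx
        exact ⟨m, by rw [intVal_eq hγ0 hγ1 hgen hm, hc]⟩ }
  have hza : 0 ≤ D.w a := (intVal_nonneg_iff hγ0 hγ1 hgen a).mpr ha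
  have hdep := TRDepth.depth_le D g a hza
  rw [TRDepth.depth_def] at hdep
  by_cases h0 : g • ϖ - ϖ = 0
  · have htop : D.w (g • D.π - D.π) = ⊤ := by
      show D.w (g • ϖ - ϖ) = ⊤
      rw [h0]; exact AddValuation.map_zero _
    rw [htop, top_le_iff] at hdep
    have : g • a - a = 0 := (AddValuation.top_iff _).mp hdep
    rw [this, map_zero]; exact zero_le
  · obtain ⟨k, hk⟩ := hgen _ h0
    have hwk : D.w (g • D.π - D.π) = (k : WithTop ℤ) := intVal_eq hγ0 hγ1 hgen hk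
    rw [hwk] at hdep
    rw [hk]
    exact (le_intVal_iff hγ0 hγ1 hgen _ k).mp hdep

end Pack

section Final

variable (A : ValuationSubring Qbar) (L : IntermediateField ℚ Qbar) [Normal ℚ L]
  [FiniteDimensional ℚ L] {p : ℕ}

theorem not_isUnit_iff_vL (x : AK A L) : ¬ IsUnit x ↔ vL A L (x : L) < 1 := by
  rw [← mem_nonunits_iff, ← IsLocalRing.mem_maximalIdeal, NumberFieldDVR27.mem_maximalIdeal_iff,
    ValuationSubring.valuation_lt_one_iff]
  rfl

theorem dvd_iff_vL (ϖ x : AK A L) (hϖ0 : (ϖ : L) ≠ 0) :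
    ϖ ∣ x ↔ vL A L (x : L) ≤ vL A L (ϖ : L) := by
  have hv0 : vL A L (ϖ : L) ≠ 0 := (Valuation.ne_zero_iff _).mpr hϖ0
  constructor
  · rintro ⟨c, rfl⟩
    have hc : vL A L (c : L) ≤ 1 := (mem_AK_iff_vL A L _).mp c.2
    rw [MulMemClass.coe_mul, map_mul]
    exact mul_le_of_le_one_right' hc
  · intro h
    have hc : (x : L) / (ϖ : L) ∈ AK A L := by
      rw [mem_AK_iff_vL, map_div₀]
      exact (div_le_one₀ (zero_lt_iff.mpr hv0)).mpr h
    refine ⟨⟨_, hc⟩, Subtype.ext ?_⟩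
    rw [MulMemClass.coe_mul]
    show (x : L) = (ϖ : L) * ((x : L) / (ϖ : L))
    field_simp

theorem associated_of_vL_eq (a b : AK A L) (ha : (a : L) ≠ 0) (hb : (b : L) ≠ 0)
    (h : vL A L (a : L) = vL A L (b : L)) : Associated a b :=
  associated_of_dvd_dvd ((dvd_iff_vL A L a b ha).mpr h.symm.le)
    ((dvd_iff_vL A L b a hb).mpr h.le)

/-- **PACKAGING THEOREM.**  Local facts ⟹ `PeuRamData`. -/
theorem peuRamData_of (hp : p.Prime) (hA : A.LiesOverPrime p)
    (hmu : ∀ ζ : Qbar, ζ ^ p = 1 → ζ ∈ L) {N : ℕ} (hN : N = p * (p - 1) ∨ N = p - 1)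
    (hcard : Nat.card (IL A L) ≤ N) (ϖ : AK A L)
    (hϖ : A.valuation ((ϖ : L) : Qbar) ^ N = A.valuation (p : Qbar))
    (hbr : ∀ τ ∈ A.inertiaSubgroupIn ℚ, FixesMu p τ → resK L τ ≠ 1 →
      A.valuation (τ ((ϖ : L) : Qbar) - ((ϖ : L) : Qbar)) = A.valuation ((ϖ : L) : Qbar) ^ 2) :
    PeuRamData p A L ϖ := by
  have hN0 : 0 < N := by
    have := hp.two_le
    rcases hN with rfl | rfl
    · exact Nat.mul_pos (by omega) (by omega)
    · omega
  have hϖ' : vL A L (ϖ : L) ^ N = vL A L (p : L) := by rw [vL_natCast]; exact hϖ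
  obtain ⟨hc, hgen, -⟩ := structure_thm A L hp hA hN0 hcard hϖ'
  have hvp1 : vL A L (p : L) < 1 := by
    rw [vL_natCast]; exact Fermat.Agent.S05.Inertia.valuation_prime_lt_one hA
  have hp0 : (p : L) ≠ 0 := by exact_mod_cast hp.ne_zero
  have hϖ0 : (ϖ : L) ≠ 0 := by
    intro h0
    rw [h0, map_zero, zero_pow hN0.ne'] at hϖ'
    exact hp0 ((Valuation.zero_iff _).mp hϖ'.symm)
  have hγ0 : 0 < vL A L (ϖ : L) := zero_lt_iff.mpr ((Valuation.ne_zero_iff _).mpr hϖ0)
  have hγ1 : vL A L (ϖ : L) < 1 := by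
    by_contra hcon
    have : 1 ≤ vL A L (ϖ : L) ^ N := one_le_pow₀ (not_lt.mp hcon)
    rw [hϖ'] at this
    exact absurd hvp1 (not_lt.mpr this)
  refine ⟨inferInstance, hmu, ?_, ?_, ?_, ?_⟩
  · -- unif
    intro x
    rw [not_isUnit_iff_vL, dvd_iff_vL A L ϖ x hϖ0]
    constructor
    · intro hx
      by_cases hx0 : (x : L) = 0
      · rw [hx0, map_zero]; exact zero_le
      · obtain ⟨n, hn⟩ := hgen _ hx0
        rw [hn, ← zpow_zero (vL A L (ϖ : L)), zpow_lt_zpow_iff_right_of_lt_one₀ hγ0 hγ1] at hx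
        rw [hn]
        conv_rhs => rw [← zpow_one (vL A L (ϖ : L))]
        rw [zpow_le_zpow_iff_right_of_lt_one₀ hγ0 hγ1]
        omega
    · intro hx; exact lt_of_le_of_lt hx hγ1
  · -- ram
    have hpAK : (((p : ℕ) : AK A L) : L) = (p : L) := by push_cast; rfl
    have hassoc : Associated (ϖ ^ N) ((p : ℕ) : AK A L) := by
      apply associated_of_vL_eq A L
      · rw [SubmonoidClass.coe_pow]; exact pow_ne_zero _ hϖ0
      · rw [hpAK]; exact hp0
      · rw [SubmonoidClass.coe_pow, map_pow, hϖ', hpAK]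
    rcases hN with rfl | rfl
    · exact Or.inl hassoc
    · exact Or.inr hassoc
  · -- depth
    intro τ hτ hfix a
    by_cases h1 : resK L τ = 1
    · refine ⟨0, ?_⟩
      rw [h1, mul_zero]
      simp
    · have hb := hbr τ hτ hfix h1
      have hg : resK L τ ∈ IL A L := resK_mem_IL A L hτ
      have hle := vL_sub_le A L hp hA hN0 hcard hϖ' ⟨resK L τ, hg⟩ (a : L)
        ((mem_AK_iff_vL A L _).mp a.2)
      rw [smul_IL_def, smul_IL_def] at hle
      have hb' : vL A L (resK L τ (ϖ : L) - (ϖ : L)) = vL A L (ϖ : L) ^ 2 := by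
        rw [vL_apply, vL_apply]
        have : (((resK L τ (ϖ : L) - (ϖ : L) : L)) : Qbar) =
            τ ((ϖ : L) : Qbar) - ((ϖ : L) : Qbar) := by
          push_cast; rw [coe_resK]
        rw [this]; exact hb
      have hle' : vL A L (resK L τ (a : L) - (a : L)) ≤ vL A L (ϖ : L) ^ 2 := by
        rw [← hb']; exact hle
      have hmem : (resK L τ (a : L) - (a : L)) / (ϖ : L) ^ 2 ∈ AK A L := by
        rw [mem_AK_iff_vL, map_div₀, map_pow]
        exact (div_le_one₀ (pow_pos hγ0 2)).mpr hle'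
      refine ⟨⟨_, hmem⟩, ?_⟩
      rw [MulMemClass.coe_mul, SubmonoidClass.coe_pow]
      show _ = (ϖ : L) ^ 2 * ((resK L τ (a : L) - (a : L)) / (ϖ : L) ^ 2)
      field_simp
  · -- break1
    intro τ hτ hfix h1
    rintro ⟨b, hb⟩
    have hbv := hbr τ hτ hfix h1
    have hb' : vL A L (resK L τ (ϖ : L) - (ϖ : L)) = vL A L (ϖ : L) ^ 2 := by
      rw [vL_apply, vL_apply]
      have : (((resK L τ (ϖ : L) - (ϖ : L) : L)) : Qbar) =
          τ ((ϖ : L) : Qbar) - ((ϖ : L) : Qbar) := by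
        push_cast; rw [coe_resK]
      rw [this]; exact hbv
    rw [hb, MulMemClass.coe_mul, SubmonoidClass.coe_pow, map_mul, map_pow] at hb'
    have hbb : vL A L (b : L) ≤ 1 := (mem_AK_iff_vL A L _).mp b.2
    have h3 : vL A L (ϖ : L) ^ 3 * vL A L (b : L) ≤ vL A L (ϖ : L) ^ 3 :=
      mul_le_of_le_one_right' hbb
    rw [hb'] at h3
    have h4 : vL A L (ϖ : L) ^ 3 < vL A L (ϖ : L) ^ 2 :=
      pow_lt_pow_right_of_lt_one₀ hγ0 hγ1 (by norm_num)
    exact absurd h3 (not_le.mpr h4)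

end Final

end Fermat.Agent.M1.ES.Pack73
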