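/-
M1 (row 38, S44), chapter ES (helper20): **`V1` is a line when `p ∣ abc`**.

`P` a Frey package, `A` a valuation subring of `ℚ̄` over `p = P.p`, `V1 P A ⊆ E[p]` the `p`-torsion in
the kernel of reduction (`S13/FreyE1`).  If `p ∣ abc` (multiplicative reduction at `p`), then
`V1 ≠ ⊤`, `V1 ≠ ⊥`, hence `finrank V1 = 1`; with `FreyE1.close_at_p`
(`σ • x - x ∈ V1` for `σ` in the inertia group of `A`) this is the "line with unramified quotient"
of the E-side of M1.
-/
import Mathlib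
import Fermat.Agent.S13.FreyE1
import Fermat.Agent.S13.Supersingular
import Fermat.Agent.DivPoly.CardEq29
import Fermat.Agent.M1.ES.MultTors20

set_option autoImplicit false
set_option linter.unusedSectionVars false

open WeierstrassCurve WeierstrassCurve.Affine WeierstrassCurve.Affine.Point

namespace Fermat.Agent.M1.ES.V1Line20

open Fermat.Agent.S05 Fermat.Agent.S05.FreyTransport Fermat.Agent.S13 Fermat.Agent.S13.FreyE1

local notation "Qbar" => AlgebraicClosure ℚ

variable (P : FreyPackage)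

/-- transport of a `p`-torsion point of a model `Wab a b` to `E[p]` of the Frey curve. -/
theorem exists_of_model {A : ValuationSubring Qbar} {t a b : Qbar}
    (ht : t * (t - cA P) * (t + cB P) = 0) (ha : a = 3 * t + cB P - cA P)
    (hb : b = 3 * t ^ 2 + 2 * (cB P - cA P) * t - cA P * cB P)
    (h2 : A.valuation (2 : Qbar) = 1) (hvt : A.valuation t ≤ 1)
    (Q : (Wab a b).toAffine.Point) (hQ : P.p • Q = 0) :
    ∃ x : Submodule.torsionBy ℤ (P.freyCurve⁄Qbar).Point P.p,
      (x ∈ V1 P A ↔ S05.InE1 A.valuation Q) ∧ (x = 0 ↔ Q = 0) := by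
  set R : (P.freyCurve⁄Qbar).Point := (freyEquiv P ht ha hb).symm Q with hR
  have hRQ : freyEquiv P ht ha hb R = Q := AddEquiv.apply_symm_apply _ _
  have hpR : P.p • R = 0 := by
    rw [hR, ← map_nsmul, hQ, _root_.map_zero]
  have hmem : R ∈ Submodule.torsionBy ℤ (P.freyCurve⁄Qbar).Point P.p := by
    rw [Submodule.mem_torsionBy_iff, natCast_zsmul]; exact hpR
  refine ⟨⟨R, hmem⟩, ?_, ?_⟩
  · rw [mem_V1, inE1_freyEquiv_iff P A.valuation h2 ht ha hb hvt R, hRQ]
  · constructor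
    · intro h
      have : R = 0 := congrArg Subtype.val h
      rw [← hRQ, this, _root_.map_zero]
    · intro h
      apply Subtype.ext
      show R = 0
      rw [hR, h, _root_.map_zero]

/-- the two torsion points of the model, in the two multiplicative cases. -/
theorem exists_points {A : ValuationSubring Qbar} (hA : A.LiesOverPrime P.p)
    (hmult : (P.p : ℤ) ∣ P.a * P.b * P.c) :
    (∃ x : Submodule.torsionBy ℤ (P.freyCurve⁄Qbar).Point P.p, x ∉ V1 P A) ∧
      ∃ x : Submodule.torsionBy ℤ (P.freyCurve⁄Qbar).Point P.p, x ≠ 0 ∧ x ∈ V1 P A := by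
  have hq := P.pp
  have hq2 : P.p ≠ 2 := by have := P.hp5; omega
  have hodd : Odd P.p := hq.odd_of_ne_two hq2
  have h3 : 3 ≤ P.p := by have := P.hp5; omega
  have hv : FreyArith.LiesOver A.valuation P.p :=
    ⟨Inertia.valuation_intCast_le_one, Inertia.valuation_intCast_lt_one_iff hq hA⟩
  have h2 : A.valuation (2 : Qbar) = 1 := Inertia.valuation_two_eq_one hq hA hq2
  have hp0 : ((P.p : ℕ) : Qbar) ≠ 0 := Nat.cast_ne_zero.mpr hq.ne_zero
  have hvp : A.valuation ((P.p : ℕ) : Qbar) < 1 := by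
    have := (Inertia.valuation_intCast_lt_one_iff (A := A) hq hA (P.p : ℤ)).mpr dvd_rfl
    simpa using this
  have hcA : (cA P : Qbar) = (P.a : Qbar) ^ P.p := rfl
  have hcB : (cB P : Qbar) = (P.b : Qbar) ^ P.p := rfl
  -- the common argument, for a model `Wab a b`
  have main : ∀ {t a b h₀ : Qbar} (ht : t * (t - cA P) * (t + cB P) = 0)
      (ha : a = 3 * t + cB P - cA P)
      (hb : b = 3 * t ^ 2 + 2 * (cB P - cA P) * t - cA P * cB P)
      (hvt : A.valuation t ≤ 1) (hva : A.valuation a = 1)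
      (hbh : A.valuation b = A.valuation h₀ ^ P.p) (hlt : A.valuation h₀ < 1) (hb0 : b ≠ 0),
      (∃ x : Submodule.torsionBy ℤ (P.freyCurve⁄Qbar).Point P.p, x ∉ V1 P A) ∧
        ∃ x : Submodule.torsionBy ℤ (P.freyCurve⁄Qbar).Point P.p, x ≠ 0 ∧ x ∈ V1 P A := by
    intro t a b h₀ ht ha hb hvt hva hbh hlt hb0
    have hvb : A.valuation b < 1 := by
      rw [hbh]; exact pow_lt_one₀ zero_le hlt P.hp0
    constructor
    · obtain ⟨X, Y, h, hn, hX⟩ :=
        MultTors20.exists_torsion_node (v := A.valuation) h2 hva hvb hb0 hodd h3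
      obtain ⟨x, hx1, -⟩ := exists_of_model P (A := A) ht ha hb h2 hvt _ hn
      refine ⟨x, fun hmem => ?_⟩
      have := hx1.mp hmem
      rw [S05.InE1_some] at this
      exact absurd (lt_trans hX this) (lt_irrefl _)
    · obtain ⟨X, Y, h, hn, hX⟩ :=
        MultTors20.exists_torsion_E1 (v := A.valuation) h2 hva hvb hb0 hodd h3 hp0 hvp
      obtain ⟨x, hx1, hx0⟩ := exists_of_model P (A := A) ht ha hb h2 hvt _ hn
      refine ⟨x, fun h0 => ?_, hx1.mpr ((S05.InE1_some (v := A.valuation) h).mpr hX)⟩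
      exact Point.some_ne_zero h (hx0.mp h0)
  -- the two cases
  have hcases : (P.p : ℤ) ∣ P.a * P.b ∨ (P.p : ℤ) ∣ P.c :=
    (Nat.prime_iff_prime_int.mp hq).dvd_or_dvd hmult
  rcases hcases with hab | hc
  · obtain ⟨g1, g2, g3⟩ := FreyArith.mult_ab_val P hv hq hab
    have hb0 : -((P.a : Qbar) ^ P.p * (P.b : Qbar) ^ P.p) ≠ 0 := by
      rw [← mul_pow]
      exact neg_ne_zero.mpr (pow_ne_zero _ (FreyArith.ab_ne_zero P))
    exact main (t := 0) (a := (P.b : Qbar) ^ P.p - (P.a : Qbar) ^ P.p)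
      (b := -((P.a : Qbar) ^ P.p * (P.b : Qbar) ^ P.p)) (by ring) (by rw [hcA, hcB]; ring)
      (by rw [hcA, hcB]; ring) (by simp) g1 g2 g3 hb0
  · have hcc : (P.c : Qbar) ^ P.p = (P.a : Qbar) ^ P.p + (P.b : Qbar) ^ P.p :=
      FreyArith.c_pow_eq_cast P
    have hvt : A.valuation ((P.a : Qbar) ^ P.p) ≤ 1 := by
      have := Inertia.valuation_intCast_le_one (A := A) (P.a ^ P.p)
      simpa using this
    obtain ⟨g1, g2, g3⟩ := FreyArith.mult_c_val P hv hq hc
    have hb0 : (P.a : Qbar) ^ P.p * (P.c : Qbar) ^ P.p ≠ 0 := by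
      rw [← mul_pow]
      exact pow_ne_zero _ (FreyArith.ac_ne_zero P)
    exact main (t := (P.a : Qbar) ^ P.p) (a := (P.a : Qbar) ^ P.p + (P.c : Qbar) ^ P.p)
      (b := (P.a : Qbar) ^ P.p * (P.c : Qbar) ^ P.p) (by rw [hcA]; ring)
      (by rw [hcA, hcB, hcc]; ring) (by rw [hcA, hcB, hcc]; ring) hvt g1 g2 g3 hb0

/-- **`V1 ≠ ⊤` at a prime of multiplicative reduction**: some `p`-torsion point reduces to the
node. -/
theorem V1_ne_top {A : ValuationSubring Qbar} (hA : A.LiesOverPrime P.p)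
    (hmult : (P.p : ℤ) ∣ P.a * P.b * P.c) : V1 P A ≠ ⊤ := by
  obtain ⟨⟨x, hx⟩, -⟩ := exists_points P hA hmult
  intro h
  exact hx (h ▸ Submodule.mem_top)

/-- **`V1 ≠ ⊥` at a prime of multiplicative reduction**: the kernel of reduction contains a
nonzero `p`-torsion point. -/
theorem V1_ne_bot {A : ValuationSubring Qbar} (hA : A.LiesOverPrime P.p)
    (hmult : (P.p : ℤ) ∣ P.a * P.b * P.c) : V1 P A ≠ ⊥ := by
  obtain ⟨-, x, hx0, hx⟩ := exists_points P hA hmult
  intro h
  rw [h, Submodule.mem_bot] at hx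
  exact hx0 hx

/-- `E[p]` of the Frey curve is two-dimensional. -/
theorem finrank_torsion :
    haveI : Fact P.p.Prime := ⟨P.pp⟩
    Module.finrank (ZMod P.p) (Submodule.torsionBy ℤ (P.freyCurve⁄Qbar).Point P.p) = 2 := by
  haveI : Fact P.p.Prime := ⟨P.pp⟩
  have hq2 : P.p ≠ 2 := by have := P.hp5; omega
  exact Fermat.Agent.DivPoly.CardEq29.finrank_torsionBy_eq_two
    (Supersingular.freyCurve_baseChange_Δ_ne_zero P) hq2

/-- **`V1` is a line** at a prime of multiplicative reduction. -/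
theorem finrank_V1 {A : ValuationSubring Qbar} (hA : A.LiesOverPrime P.p)
    (hmult : (P.p : ℤ) ∣ P.a * P.b * P.c) :
    haveI : Fact P.p.Prime := ⟨P.pp⟩
    Module.finrank (ZMod P.p) (V1 P A) = 1 := by
  haveI : Fact P.p.Prime := ⟨P.pp⟩
  have h2 := finrank_torsion P
  haveI : Module.Finite (ZMod P.p) (Submodule.torsionBy ℤ (P.freyCurve⁄Qbar).Point P.p) :=
    Module.finite_of_finrank_pos (by rw [h2]; norm_num)
  have hlt : Module.finrank (ZMod P.p) (V1 P A) < 2 := by
    rw [← h2]; exact Submodule.finrank_lt (V1_ne_top P hA hmult)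
  have hpos : 0 < Module.finrank (ZMod P.p) (V1 P A) := by
    rw [Module.finrank_pos_iff_exists_ne_zero]
    obtain ⟨v, hvN, hv0⟩ := (Submodule.ne_bot_iff (V1 P A)).mp (V1_ne_bot P hA hmult)
    exact ⟨⟨v, hvN⟩, fun h => hv0 (congrArg Subtype.val h)⟩
  omega

/-- the inertia group of `A` preserves `V1`. -/
theorem smul_mem_V1 {A : ValuationSubring Qbar} (hA : A.LiesOverPrime P.p)
    {σ : Qbar ≃ₐ[ℚ] Qbar} (hσ : σ ∈ A.inertiaSubgroupIn ℚ)
    {x : Submodule.torsionBy ℤ (P.freyCurve⁄Qbar).Point P.p} (hx : x ∈ V1 P A) :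
    σ • x ∈ V1 P A := by
  have h := close_at_p P hA hσ x
  have : σ • x = (σ • x - x) + x := by abel
  rw [this]
  exact (V1 P A).add_mem h hx

/-- **The E-side line** (existence half of (E1)): at a prime `p ∣ abc` there is a line `L ⊆ E[p]`,
stable under the inertia group `I_A`, on whose quotient `I_A` acts trivially. -/
theorem exists_line {A : ValuationSubring Qbar} (hA : A.LiesOverPrime P.p)
    (hmult : (P.p : ℤ) ∣ P.a * P.b * P.c) :
    haveI : Fact P.p.Prime := ⟨P.pp⟩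
    ∃ L : Submodule (ZMod P.p) (Submodule.torsionBy ℤ (P.freyCurve⁄Qbar).Point P.p),
      Module.finrank (ZMod P.p) L = 1 ∧
      (∀ σ ∈ A.inertiaSubgroupIn ℚ,
        ∀ x : Submodule.torsionBy ℤ (P.freyCurve⁄Qbar).Point P.p, σ • x - x ∈ L) ∧
      (∀ σ ∈ A.inertiaSubgroupIn ℚ, ∀ x ∈ L, σ • x ∈ L) :=
  ⟨V1 P A, finrank_V1 P hA hmult, fun _ hσ x => close_at_p P hA hσ x,
    fun _ hσ _ hx => smul_mem_V1 P hA hσ hx⟩

end Fermat.Agent.M1.ES.V1Line20
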