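/-
M1 / chapter ES (helper73): FINAL ASSEMBLY of the E-side:  `LocFrey P A → PeuRam P.p A H`.

`LocFrey P A` is the local Kummer dichotomy for the Frey curve at `A ∣ p` (helper8, `PeuLocal8` +
transport): for a `p`-torsion point `y` outside the kernel of reduction there are `α, s₀` (square
roots of rational numbers, fixed by inertia) and `ϖ ∈ ℚ(α, s₀, μ_p, y)` such that either inertia
elements trivial on `μ_p` fix `y`, or `ϖ` is a uniformiser-like element with lower break `1`.
We build the finite normal field `L = ℚ(E[p], μ_p, ±α, ±s₀)`, show that inertia acts on it through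
at most `p (p - 1)` (resp. `p - 1`) elements, and apply the packaging theorem `Pack73.peuRamData_of`.
-/
import Mathlib
import Fermat.Agent.M1.ES.Pack73
import Fermat.Agent.M1.ES.V1Line20
import Fermat.Agent.M1.ES.CycloVal73
import Fermat.Agent.S13.FreyE1

set_option autoImplicit false
set_option linter.unusedSectionVars false

open WeierstrassCurve WeierstrassCurve.Affine WeierstrassCurve.Affine.Point

namespace Fermat.Agent.M1.ES.Final73

open Fermat.Agent.RED.Interface4 Fermat.Agent.RED.DESC Fermat.Agent.ES.N34.GalBase21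
open Fermat.Agent.M1.Ram.PeuRamDef20 Fermat.Agent.M1.ES.Pack73 Fermat.Agent.S13.FreyE1

local notation "GQ" => Qbar ≃ₐ[ℚ] Qbar

/-! ### Generic field theory: adjoining a Galois-stable finite set -/

section Generic

variable (S : Set Qbar)

/-- The field generated by a set stable under `Gal(ℚ̄/ℚ)` is normal. -/
theorem normal_adjoin_of_stable (hS : ∀ σ : GQ, ∀ s ∈ S, σ s ∈ S) :
    Normal ℚ (IntermediateField.adjoin ℚ S) := by
  have h : @Normal ℚ ↥(IntermediateField.adjoin ℚ S) _ _ (IntermediateField.algebra' _) := by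
    rw [IntermediateField.normal_iff_forall_map_le']
    intro σ
    rw [IntermediateField.adjoin_map, IntermediateField.adjoin_le_iff]
    rintro _ ⟨s, hs, rfl⟩
    exact IntermediateField.subset_adjoin ℚ S (hS σ s hs)
  convert h
  exact Subsingleton.elim _ _

/-- The field generated by a finite set is finite-dimensional. -/
theorem finiteDimensional_adjoin_of_finite (hS : S.Finite) :
    FiniteDimensional ℚ (IntermediateField.adjoin ℚ S) := by
  have : Finite S := hS
  exact IntermediateField.finiteDimensional_adjoin fun x _ =>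
    Algebra.IsIntegral.isIntegral x

/-- An automorphism fixing the generators fixes the generated field. -/
theorem apply_eq_of_mem_adjoin {σ : GQ} (hσ : ∀ s ∈ S, σ s = s) {x : Qbar}
    (hx : x ∈ IntermediateField.adjoin ℚ S) : σ x = x := by
  have hle : IntermediateField.adjoin ℚ S ≤
      IntermediateField.fixedField (Subgroup.zpowers σ) := by
    rw [IntermediateField.adjoin_le_iff]
    intro s hs
    rw [SetLike.mem_coe, IntermediateField.mem_fixedField_iff]
    rintro g ⟨k, rfl⟩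
    change (σ ^ k) s = s
    have h1 : ∀ n : ℕ, (σ ^ n) s = s := by
      intro n
      induction n with
      | zero => simp
      | succ n ih => rw [pow_succ, AlgEquiv.mul_apply, hσ s hs, ih]
    rcases Int.eq_nat_or_neg k with ⟨n, rfl | rfl⟩
    · rw [zpow_natCast]; exact h1 n
    · rw [zpow_neg, zpow_natCast]
      have := h1 n
      calc (σ ^ n)⁻¹ s = (σ ^ n)⁻¹ ((σ ^ n) s) := by rw [this]
        _ = s := by
          rw [← AlgEquiv.mul_apply, inv_mul_cancel, AlgEquiv.one_apply]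
  have := hle hx
  rw [IntermediateField.mem_fixedField_iff] at this
  exact this σ (Subgroup.mem_zpowers σ)

/-- An element fixed by everything that fixes a field lies in the field. -/
theorem mem_of_forall_fixing (L : IntermediateField ℚ Qbar) {x : Qbar}
    (hx : ∀ σ : GQ, (∀ a ∈ L, σ a = a) → σ x = x) : x ∈ L := by
  rw [← InfiniteGalois.fixedField_fixingSubgroup L, IntermediateField.mem_fixedField_iff]
  intro σ hσ
  exact hx σ fun a ha => (IntermediateField.mem_fixingSubgroup_iff L σ).mp hσ a ha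

end Generic

/-! ### The field of `p`-division points of the Frey curve -/

section Field

variable (P : FreyPackage)

/-- `E[p]` of the Frey curve. -/
abbrev Tors : Type := Submodule.torsionBy ℤ (P.freyCurve⁄Qbar).Point P.p

/-- `x`-coordinate of a point (`0` at infinity). -/
noncomputable def xc : (P.freyCurve⁄Qbar).Point → Qbar
  | .zero => 0
  | .some x _ _ => x

/-- `y`-coordinate of a point (`0` at infinity). -/
noncomputable def yc : (P.freyCurve⁄Qbar).Point → Qbar
  | .zero => 0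
  | .some _ y _ => y

/-- The coordinates of the `p`-torsion points. -/
def coordSet : Set Qbar :=
  Set.range (fun t : Tors P => xc P t.1) ∪ Set.range (fun t : Tors P => yc P t.1)

/-- The `p`-th roots of unity. -/
def muSet (p : ℕ) : Set Qbar := {ζ | ζ ^ p = 1}

theorem finite_tors : Finite (Tors P) := by
  have : Fact P.p.Prime := ⟨P.pp⟩
  have h2 := V1Line20.finrank_torsion P
  have : Module.Finite (ZMod P.p) (Tors P) :=
    Module.finite_of_finrank_pos (by rw [h2]; norm_num)
  exact Module.finite_of_finite (ZMod P.p)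

theorem coordSet_finite : (coordSet P).Finite := by
  have := finite_tors P
  exact (Set.finite_range _).union (Set.finite_range _)

theorem muSet_finite {p : ℕ} (hp : 0 < p) : (muSet p).Finite := by
  have : muSet p = ↑(Polynomial.nthRootsFinset p (1 : Qbar)) := by
    ext ζ
    simp [muSet, Polynomial.mem_nthRootsFinset hp]
  rw [this]
  exact Finset.finite_toSet _

theorem smul_some (σ : GQ) {x y : Qbar} (h : (P.freyCurve⁄Qbar).Nonsingular x y) :
    ∃ h' : (P.freyCurve⁄Qbar).Nonsingular (σ x) (σ y),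
      σ • (Point.some x y h : (P.freyCurve⁄Qbar).Point) = Point.some (σ x) (σ y) h' :=
  ⟨(Affine.baseChange_nonsingular (W := P.freyCurve) (f := σ.toAlgHom)
      σ.toAlgHom.injective x y).mpr h, rfl⟩

theorem xc_smul (σ : GQ) (R : (P.freyCurve⁄Qbar).Point) : xc P (σ • R) = σ (xc P R) := by
  rcases R with _ | ⟨x, y, h⟩
  · show (0 : Qbar) = σ 0
    rw [_root_.map_zero]
  · obtain ⟨h', e⟩ := smul_some P σ h
    rw [e]; rfl

theorem yc_smul (σ : GQ) (R : (P.freyCurve⁄Qbar).Point) : yc P (σ • R) = σ (yc P R) := by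
  rcases R with _ | ⟨x, y, h⟩
  · show (0 : Qbar) = σ 0
    rw [_root_.map_zero]
  · obtain ⟨h', e⟩ := smul_some P σ h
    rw [e]; rfl

theorem coordSet_stable (σ : GQ) {z : Qbar} (hz : z ∈ coordSet P) : σ z ∈ coordSet P := by
  rcases hz with ⟨t, rfl⟩ | ⟨t, rfl⟩
  · exact Or.inl ⟨σ • t, xc_smul P σ t.1⟩
  · exact Or.inr ⟨σ • t, yc_smul P σ t.1⟩

theorem muSet_stable {p : ℕ} (σ : GQ) {z : Qbar} (hz : z ∈ muSet p) : σ z ∈ muSet p := by
  show (σ z) ^ p = 1
  rw [← map_pow, show z ^ p = 1 from hz, map_one]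

/-- A point is determined by its two coordinates. -/
theorem eq_of_coords {R R' : (P.freyCurve⁄Qbar).Point} (hx : xc P R = xc P R')
    (hy : yc P R = yc P R') (h0 : R = 0 ↔ R' = 0) : R = R' := by
  rcases R with _ | ⟨x, y, h⟩
  · exact ((h0.mp rfl)).symm
  · rcases R' with _ | ⟨x', y', h'⟩
    · exact h0.mpr rfl
    · have e1 : x = x' := hx
      have e2 : y = y' := hy
      subst e1 e2
      rfl

/-- `σ` fixes all coordinates of `E[p]` iff it fixes `E[p]` pointwise. -/
theorem fixes_coords_iff (σ : GQ) :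
    (∀ z ∈ coordSet P, σ z = z) ↔ ∀ t : Tors P, σ • t = t := by
  constructor
  · intro h t
    apply Subtype.ext
    show σ • (t : (P.freyCurve⁄Qbar).Point) = t
    apply eq_of_coords P
    · rw [xc_smul]; exact h _ (Or.inl ⟨t, rfl⟩)
    · rw [yc_smul]; exact h _ (Or.inr ⟨t, rfl⟩)
    · constructor
      · intro h0
        have h1 : σ⁻¹ • (σ • (t : (P.freyCurve⁄Qbar).Point)) = σ⁻¹ • 0 := by rw [h0]
        rw [inv_smul_smul] at h1
        exact h1.trans rfl
      · intro h0; rw [h0]; rfl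
  · intro h z hz
    rcases hz with ⟨t, rfl⟩ | ⟨t, rfl⟩
    · show σ (xc P t.1) = xc P t.1
      rw [← xc_smul]
      have := congrArg Subtype.val (h t)
      exact congrArg (xc P) this
    · show σ (yc P t.1) = yc P t.1
      rw [← yc_smul]
      have := congrArg Subtype.val (h t)
      exact congrArg (yc P) this

end Field

/-! ### The field `L` and what determines the action of inertia on it -/

section Determination

variable (P : FreyPackage) (T : Set Qbar)

/-- Generators of `L`: coordinates of `E[p]`, the `p`-th roots of unity and an auxiliary set. -/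
def genSet : Set Qbar := coordSet P ∪ muSet P.p ∪ T

/-- `L = ℚ(E[p], μ_p, T)`. -/
noncomputable def Lf : IntermediateField ℚ Qbar := IntermediateField.adjoin ℚ (genSet P T)

theorem normal_Lf (hT : ∀ σ : GQ, ∀ t ∈ T, σ t ∈ T) : Normal ℚ (Lf P T) := by
  apply normal_adjoin_of_stable
  rintro σ z ((hz | hz) | hz)
  · exact Or.inl (Or.inl (coordSet_stable P σ hz))
  · exact Or.inl (Or.inr (muSet_stable σ hz))
  · exact Or.inr (hT σ z hz)

theorem finite_Lf (hT : T.Finite) : FiniteDimensional ℚ (Lf P T) :=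
  finiteDimensional_adjoin_of_finite _
    (((coordSet_finite P).union (muSet_finite P.pp.pos)).union hT)

theorem mu_mem_Lf {ζ : Qbar} (hζ : ζ ^ P.p = 1) : ζ ∈ Lf P T :=
  IntermediateField.subset_adjoin ℚ _ (Or.inl (Or.inr hζ))

theorem mem_Lf_of_mem {t : Qbar} (ht : t ∈ T) : t ∈ Lf P T :=
  IntermediateField.subset_adjoin ℚ _ (Or.inr ht)

/-- `σ` fixes `L` pointwise iff it fixes `E[p]`, `μ_p` and `T` pointwise. -/
theorem fixes_Lf_iff (σ : GQ) :
    (∀ a ∈ Lf P T, σ a = a) ↔
      (∀ t : Tors P, σ • t = t) ∧ FixesMu P.p σ ∧ ∀ t ∈ T, σ t = t := by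
  constructor
  · intro h
    refine ⟨(fixes_coords_iff P σ).mp fun z hz => h z ?_, fun ζ hζ => h ζ (mu_mem_Lf P T hζ),
      fun t ht => h t (mem_Lf_of_mem P T ht)⟩
    exact IntermediateField.subset_adjoin ℚ _ (Or.inl (Or.inl hz))
  · rintro ⟨h1, h2, h3⟩ a ha
    refine apply_eq_of_mem_adjoin (genSet P T) ?_ ha
    rintro z ((hz | hz) | hz)
    · exact (fixes_coords_iff P σ).mpr h1 z hz
    · exact h2 z hz
    · exact h3 z hz

/-- The points of `E[p]` fixed by `σ`, as a `ZMod p`-submodule. -/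
noncomputable def fixSub (σ : GQ) : Submodule (ZMod P.p) (Tors P) :=
  AddSubgroup.toZModSubmodule P.p
    { carrier := {t | σ • t = t}
      zero_mem' := smul_zero σ
      add_mem' := by
        intro a b ha hb
        show σ • (a + b) = a + b
        rw [smul_add, ha, hb]
      neg_mem' := by
        intro a ha
        show σ • (-a) = -a
        rw [smul_neg, ha] }

theorem mem_fixSub {σ : GQ} {t : Tors P} : t ∈ fixSub P σ ↔ σ • t = t := Iff.rfl

variable {A : ValuationSubring Qbar}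

/-- If `σ` fixes the line `V1` pointwise and one point outside it, it fixes `E[p]` pointwise. -/
theorem fixes_all
    (hV1 : haveI : Fact P.p.Prime := ⟨P.pp⟩; Module.finrank (ZMod P.p) (V1 P A) = 1)
    {σ : GQ} (hσV : ∀ x ∈ V1 P A, σ • x = x) {y₀ : Tors P} (hy₀ : y₀ ∉ V1 P A)
    (hσy : σ • y₀ = y₀) (t : Tors P) : σ • t = t := by
  have : Fact P.p.Prime := ⟨P.pp⟩
  have h2 := V1Line20.finrank_torsion P
  have : Module.Finite (ZMod P.p) (Tors P) :=
    Module.finite_of_finrank_pos (by rw [h2]; norm_num)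
  have hle : V1 P A ≤ fixSub P σ := fun x hx => hσV x hx
  have hlt : V1 P A < fixSub P σ := by
    refine lt_of_le_of_ne hle fun heq => hy₀ ?_
    rw [heq]; exact hσy
  have h3 := Submodule.finrank_lt_finrank_of_lt hlt
  rw [hV1] at h3
  have h4 : Module.finrank (ZMod P.p) (fixSub P σ) ≤ 2 := by
    rw [← h2]; exact Submodule.finrank_le _
  have h45 : Module.finrank (ZMod P.p) (fixSub P σ) = 2 := le_antisymm h4 h3
  have h5 : fixSub P σ = ⊤ := Submodule.eq_top_of_finrank_eq (h45.trans h2.symm)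
  have : t ∈ fixSub P σ := by rw [h5]; exact Submodule.mem_top
  exact this

/-- **Determination**: an inertia element that is trivial on `μ_p`, on `T` and on one point
outside `V1` is trivial on `L`. -/
theorem resK_eq_one [Normal ℚ (Lf P T)]
    (hχ : ∀ σ ∈ A.inertiaSubgroupIn ℚ, ∀ c : ℕ, (∀ ζ : Qbar, ζ ^ P.p = 1 → σ ζ = ζ ^ c) →
      ∀ x ∈ V1 P A, σ • x = c • x)
    (hV1 : haveI : Fact P.p.Prime := ⟨P.pp⟩; Module.finrank (ZMod P.p) (V1 P A) = 1)
    (hTfix : ∀ τ ∈ A.inertiaSubgroupIn ℚ, ∀ t ∈ T, τ t = t)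
    {y₀ : Tors P} (hy₀ : y₀ ∉ V1 P A) {σ : GQ} (hσ : σ ∈ A.inertiaSubgroupIn ℚ)
    (hmu : FixesMu P.p σ) (hσy : σ • y₀ = y₀) : resK (Lf P T) σ = 1 := by
  have hσV : ∀ x ∈ V1 P A, σ • x = x := by
    intro x hx
    rw [hχ σ hσ 1 (fun ζ hζ => by rw [hmu ζ hζ, pow_one]) x hx, one_smul]
  have hall := fixes_all P hV1 hσV hy₀ hσy
  have hfix := (fixes_Lf_iff P T σ).mpr ⟨hall, hmu, hTfix σ hσ⟩
  apply AlgEquiv.ext
  intro a
  apply Subtype.ext
  rw [coe_resK, AlgEquiv.one_apply]
  exact hfix a a.2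

end Determination

/-! ### Counting the inertia image -/

section Counting

variable (A : ValuationSubring Qbar) (L : IntermediateField ℚ Qbar) [Normal ℚ L]
  [FiniteDimensional ℚ L]

/-- If the restriction to `L` of an inertia element is determined by an invariant with values in a
finite set `X`, then the inertia image in `Gal(L/ℚ)` has at most `|X|` elements. -/
theorem card_IL_le {X : Type*} [Finite X] (f : A.inertiaSubgroupIn ℚ → X)
    (hf : ∀ τ τ' : A.inertiaSubgroupIn ℚ, f τ = f τ' →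
      resK L (τ : GQ) = resK L (τ' : GQ)) :
    Nat.card (IL A L) ≤ Nat.card X := by
  have hex : ∀ g : IL A L, ∃ τ : A.inertiaSubgroupIn ℚ,
      resK L (τ : GQ) = (g : L ≃ₐ[ℚ] L) := by
    intro g
    obtain ⟨τ, hτ, hg⟩ := g.2
    exact ⟨⟨τ, hτ⟩, hg⟩
  choose τ hτ using hex
  apply Nat.card_le_card_of_injective (fun g => f (τ g))
  intro g g' h
  have := hf _ _ h
  rw [hτ, hτ] at this
  exact Subtype.ext this

/-- `resK L τ = resK L τ'` as soon as `resK L (τ⁻¹ τ') = 1`. -/
theorem resK_eq_of_inv_mul {τ τ' : GQ} (h : resK L (τ⁻¹ * τ') = 1) : resK L τ = resK L τ' := by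
  rw [resK_mul, resK_inv] at h
  exact (inv_mul_eq_one.mp h)

end Counting

/-! ### The final assembly -/

section Assembly

variable (P : FreyPackage)

/-- **The local Kummer dichotomy for the Frey curve at `A`** (the target of chapter ES, part
(E2s-LOC); proved by helper8 from `PeuLocal8.peu_local`). -/
def LocFrey (A : ValuationSubring Qbar) : Prop :=
  ∀ y : Tors P, y ∉ V1 P A → ∃ α s₀ ϖ : Qbar,
    (∀ σ : GQ, σ (α ^ 2) = α ^ 2) ∧ (∀ σ : GQ, σ (s₀ ^ 2) = s₀ ^ 2) ∧
    (∀ τ ∈ A.inertiaSubgroupIn ℚ, τ α = α) ∧ (∀ τ ∈ A.inertiaSubgroupIn ℚ, τ s₀ = s₀) ∧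
    (∀ σ : GQ, σ α = α → σ s₀ = s₀ → FixesMu P.p σ → σ • y = y → σ ϖ = ϖ) ∧
    ((∀ τ ∈ A.inertiaSubgroupIn ℚ, FixesMu P.p τ → τ • y = y) ∨
      (A.valuation ϖ ^ (P.p * (P.p - 1)) = A.valuation (P.p : Qbar) ∧ A.valuation ϖ < 1 ∧
        ∀ τ ∈ A.inertiaSubgroupIn ℚ, FixesMu P.p τ → τ • y ≠ y →
          A.valuation (τ ϖ - ϖ) = A.valuation ϖ ^ 2))

variable {A : ValuationSubring Qbar}

/-- `σ (z²) = z²` implies `σ z = ± z`. -/
theorem apply_eq_or_neg {σ : GQ} {z : Qbar} (h : σ (z ^ 2) = z ^ 2) : σ z = z ∨ σ z = -z := by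
  rw [map_pow] at h
  exact sq_eq_sq_iff_eq_or_eq_neg.mp h

/-- Two inertia elements agreeing on a primitive `p`-th root of unity: the quotient fixes `μ_p`. -/
theorem fixesMu_inv_mul {p : ℕ} [NeZero p] {ξ : Qbar} (hξ : IsPrimitiveRoot ξ p) {τ τ' : GQ}
    (h : τ ξ = τ' ξ) : FixesMu p (τ⁻¹ * τ') := by
  intro ζ hζ
  obtain ⟨k, -, rfl⟩ := hξ.eq_pow_of_pow_eq_one hζ
  rw [AlgEquiv.mul_apply, map_pow, ← h, ← map_pow]
  show τ⁻¹ (τ (ξ ^ k)) = ξ ^ k
  rw [← AlgEquiv.mul_apply, inv_mul_cancel, AlgEquiv.one_apply]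

/-- **FINAL THEOREM of chapter ES**: the Frey curve at `p ∣ abc` is peu ramifiée at every `A ∣ p`,
in the sense of `PeuRamDef20.PeuRam`, for every subgroup `H` containing the pointwise stabiliser
of `E[p] ∪ μ_p`. -/
theorem peuRam_of_locFrey (hA : A.LiesOverPrime P.p) (hmult : (P.p : ℤ) ∣ P.a * P.b * P.c)
    (hχ : ∀ σ ∈ A.inertiaSubgroupIn ℚ, ∀ c : ℕ, (∀ ζ : Qbar, ζ ^ P.p = 1 → σ ζ = ζ ^ c) →
      ∀ x ∈ V1 P A, σ • x = c • x)
    (hloc : LocFrey P A) (H : Subgroup GQ)
    (hH : ∀ σ : GQ, (∀ t : Tors P, σ • t = t) → FixesMu P.p σ → σ ∈ H) :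
    PeuRam P.p A H := by
  have hq := P.pp
  have : Fact P.p.Prime := ⟨hq⟩
  have hV1 := V1Line20.finrank_V1 P hA hmult
  have hne : NeZero P.p := ⟨hq.ne_zero⟩
  obtain ⟨ξ, hξ⟩ := HasEnoughRootsOfUnity.exists_primitiveRoot Qbar P.p
  have hvp : A.valuation (P.p : Qbar) < 1 := Fermat.Agent.S05.Inertia.valuation_prime_lt_one hA
  -- a point outside `V1`
  obtain ⟨y₀, hy₀⟩ : ∃ y₀ : Tors P, y₀ ∉ V1 P A := by
    by_contra hcon
    have hcon' : ∀ y : Tors P, y ∈ V1 P A := fun y => by
      by_contra hy; exact hcon ⟨y, hy⟩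
    exact V1Line20.V1_ne_top P hA hmult (Submodule.eq_top_iff'.mpr hcon')
  obtain ⟨α, s₀, ϖ, hα2, hs2, hαI, hsI, hfixϖ, hdich⟩ := hloc y₀ hy₀
  -- the invariant `τ ↦ τ ξ`
  have hprim : ∀ τ : GQ, τ ξ ∈ primitiveRoots P.p Qbar := fun τ =>
    (mem_primitiveRoots hq.pos).mpr (hξ.map_of_injective τ.injective)
  rcases hdich with htame | ⟨hval, hlt1, hbrk⟩
  · -- the tame case
    have hN : Normal ℚ (Lf P ∅) := normal_Lf P ∅ (fun _ _ h => absurd h (Set.notMem_empty _))
    have hF : FiniteDimensional ℚ (Lf P ∅) := finite_Lf P ∅ Set.finite_empty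
    have hTfix : ∀ τ ∈ A.inertiaSubgroupIn ℚ, ∀ t ∈ (∅ : Set Qbar), τ t = t :=
      fun _ _ _ h => absurd h (Set.notMem_empty _)
    have hmemL : ξ - 1 ∈ Lf P ∅ := sub_mem (mu_mem_Lf P ∅ hξ.pow_eq_one) (one_mem _)
    have hv1 : A.valuation (ξ - 1) < 1 := CycloVal73.val_sub_one_lt_one A.valuation hq hξ hvp
    have hmemA : (⟨ξ - 1, hmemL⟩ : Lf P ∅) ∈ AK A (Lf P ∅) := by
      rw [NumberFieldDVR27.mem_AK_iff]
      exact (ValuationSubring.valuation_le_one_iff A _).mp hv1.le
    refine ⟨Lf P ∅, hN, ⟨⟨ξ - 1, hmemL⟩, hmemA⟩, ?_, ?_⟩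
    · refine peuRamData_of A (Lf P ∅) hq hA (fun ζ hζ => mu_mem_Lf P ∅ hζ) (N := P.p - 1)
        (Or.inr rfl) ?_ _ ?_ ?_
      · -- counting
        have hc := card_IL_le A (Lf P ∅)
          (fun τ : A.inertiaSubgroupIn ℚ =>
            (⟨(τ : GQ) ξ, hprim τ⟩ : ↥(primitiveRoots P.p Qbar))) ?_
        · rw [Nat.card_eq_finsetCard, hξ.card_primitiveRoots, Nat.totient_prime hq] at hc
          exact hc
        · intro τ τ' h
          have h' : (τ : GQ) ξ = (τ' : GQ) ξ := congrArg Subtype.val h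
          apply resK_eq_of_inv_mul
          have hmem : (τ : GQ)⁻¹ * (τ' : GQ) ∈ A.inertiaSubgroupIn ℚ :=
            mul_mem (inv_mem τ.2) τ'.2
          have hmu := fixesMu_inv_mul hξ h'
          exact resK_eq_one P ∅ hχ hV1 hTfix hy₀ hmem hmu (htame _ hmem hmu)
      · exact (CycloVal73.val_prime_eq A.valuation hq hξ).symm
      · intro τ hτ hmu hne1
        exact absurd (resK_eq_one P ∅ hχ hV1 hTfix hy₀ hτ hmu (htame τ hτ hmu)) hne1
    · intro σ hσ
      have h1 := (IntermediateField.mem_fixingSubgroup_iff _ σ).mp hσ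
      obtain ⟨h2, h3, -⟩ := (fixes_Lf_iff P ∅ σ).mp h1
      exact hH σ h2 h3
  · -- the wild case
    set T : Set Qbar := {α, -α, s₀, -s₀} with hT
    have hTstab : ∀ σ : GQ, ∀ t ∈ T, σ t ∈ T := by
      intro σ t ht
      simp only [hT, Set.mem_insert_iff, Set.mem_singleton_iff] at ht ⊢
      rcases ht with rfl | rfl | rfl | rfl
      · rcases apply_eq_or_neg (hα2 σ) with h | h <;> simp [h]
      · rcases apply_eq_or_neg (hα2 σ) with h | h <;> simp [h]
      · rcases apply_eq_or_neg (hs2 σ) with h | h <;> simp [h]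
      · rcases apply_eq_or_neg (hs2 σ) with h | h <;> simp [h]
    have hTfin : T.Finite := by
      rw [hT]; exact Set.toFinite _
    have hTfix : ∀ τ ∈ A.inertiaSubgroupIn ℚ, ∀ t ∈ T, τ t = t := by
      intro τ hτ t ht
      simp only [hT, Set.mem_insert_iff, Set.mem_singleton_iff] at ht
      rcases ht with rfl | rfl | rfl | rfl
      · exact hαI τ hτ
      · rw [map_neg, hαI τ hτ]
      · exact hsI τ hτ
      · rw [map_neg, hsI τ hτ]
    have hN : Normal ℚ (Lf P T) := normal_Lf P T hTstab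
    have hF : FiniteDimensional ℚ (Lf P T) := finite_Lf P T hTfin
    have hmemL : ϖ ∈ Lf P T := by
      apply mem_of_forall_fixing
      intro σ hσ
      obtain ⟨h1, h2, h3⟩ := (fixes_Lf_iff P T σ).mp hσ
      refine hfixϖ σ (h3 α ?_) (h3 s₀ ?_) h2 (h1 y₀)
      · simp [hT]
      · simp [hT]
    have hmemA : (⟨ϖ, hmemL⟩ : Lf P T) ∈ AK A (Lf P T) := by
      rw [NumberFieldDVR27.mem_AK_iff]
      exact (ValuationSubring.valuation_le_one_iff A _).mp hlt1.le
    have : Module.Finite (ZMod P.p) (Tors P) :=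
      Module.finite_of_finrank_pos (by rw [V1Line20.finrank_torsion P]; norm_num)
    have hfinT : Finite (Tors P) := finite_tors P
    have hfinV : Finite ↥(V1 P A) := Subtype.finite
    refine ⟨Lf P T, hN, ⟨⟨ϖ, hmemL⟩, hmemA⟩, ?_, ?_⟩
    · refine peuRamData_of A (Lf P T) hq hA (fun ζ hζ => mu_mem_Lf P T hζ)
        (N := P.p * (P.p - 1)) (Or.inl rfl) ?_ _ hval ?_
      · -- counting
        have hc := card_IL_le A (Lf P T)
          (fun τ : A.inertiaSubgroupIn ℚ =>
            ((⟨(τ : GQ) ξ, hprim τ⟩ : ↥(primitiveRoots P.p Qbar)),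
              (⟨(τ : GQ) • y₀ - y₀, close_at_p P hA τ.2 y₀⟩ : ↥(V1 P A)))) ?_
        · have hcV : Nat.card ↥(V1 P A) = P.p := by
            rw [Module.natCard_eq_pow_finrank (K := ZMod P.p), hV1, pow_one, Nat.card_zmod]
          rw [Nat.card_prod, Nat.card_eq_finsetCard, hξ.card_primitiveRoots,
            Nat.totient_prime hq, hcV, mul_comm] at hc
          exact hc
        · intro τ τ' h
          have h' : (τ : GQ) ξ = (τ' : GQ) ξ := congrArg Subtype.val (congrArg Prod.fst h)
          have h'' : (τ : GQ) • y₀ - y₀ = (τ' : GQ) • y₀ - y₀ :=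
            congrArg Subtype.val (congrArg Prod.snd h)
          have h3 : (τ : GQ) • y₀ = (τ' : GQ) • y₀ := sub_left_injective h''
          apply resK_eq_of_inv_mul
          have hmem : (τ : GQ)⁻¹ * (τ' : GQ) ∈ A.inertiaSubgroupIn ℚ :=
            mul_mem (inv_mem τ.2) τ'.2
          have hmu := fixesMu_inv_mul hξ h'
          refine resK_eq_one P T hχ hV1 hTfix hy₀ hmem hmu ?_
          rw [mul_smul, ← h3, inv_smul_smul]
      · intro τ hτ hmu hne1
        apply hbrk τ hτ hmu
        intro hfix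
        exact hne1 (resK_eq_one P T hχ hV1 hTfix hy₀ hτ hmu hfix)
    · intro σ hσ
      have h1 := (IntermediateField.mem_fixingSubgroup_iff _ σ).mp hσ
      obtain ⟨h2, h3, -⟩ := (fixes_Lf_iff P T σ).mp h1
      exact hH σ h2 h3

end Assembly

end Fermat.Agent.M1.ES.Final73
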