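/-
M1 (row 38, S44), chapter ES (helper8): **the Galois action on the model curve of the Frey curve**,
transported through `FreyTransport.freyEquiv`; it acts on coordinates (`act_some`).
-/
import Mathlib
import Fermat.Agent.S05.FreyTransport

set_option autoImplicit false
set_option linter.unusedSectionVars false

open WeierstrassCurve WeierstrassCurve.Affine

namespace Fermat.Agent.M1.ES.FreyAct8

open Fermat.Agent.S05 Fermat.Agent.S05.FreyTransport

local notation "Qbar" => AlgebraicClosure ℚ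

variable (P : FreyPackage) {t a b : Qbar} (ht : t * (t - cA P) * (t + cB P) = 0)
  (ha : a = 3 * t + cB P - cA P)
  (hb : b = 3 * t ^ 2 + 2 * (cB P - cA P) * t - cA P * cB P)

/-- The Galois action on the points of the model curve, transported from the Frey curve. -/
noncomputable def act (σ : Qbar ≃ₐ[ℚ] Qbar) :
    (Wab a b).toAffine.Point →+ (Wab a b).toAffine.Point :=
  ((freyEquiv P ht ha hb).toAddMonoidHom.comp
    (DistribSMul.toAddMonoidHom (P.freyCurve⁄Qbar).Point σ)).comp
      (freyEquiv P ht ha hb).symm.toAddMonoidHom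

theorem act_freyEquiv (σ : Qbar ≃ₐ[ℚ] Qbar) (R : (P.freyCurve⁄Qbar).Point) :
    act P ht ha hb σ (freyEquiv P ht ha hb R) = freyEquiv P ht ha hb (σ • R) := by
  simp [act]

theorem act_eq_iff (σ : Qbar ≃ₐ[ℚ] Qbar) (R : (P.freyCurve⁄Qbar).Point) :
    act P ht ha hb σ (freyEquiv P ht ha hb R) = freyEquiv P ht ha hb R ↔ σ • R = R := by
  rw [act_freyEquiv]
  exact (freyEquiv P ht ha hb).injective.eq_iff

/-- The transported action acts on coordinates. -/
theorem act_some (σ : Qbar ≃ₐ[ℚ] Qbar) (hσt : σ t = t) (X Y : Qbar)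
    (h : (Wab a b).toAffine.Nonsingular X Y) :
    ∃ h' : (Wab a b).toAffine.Nonsingular (σ X) (σ Y),
      act P ht ha hb σ (Point.some X Y h) = Point.some (σ X) (σ Y) h' := by
  obtain ⟨R, hR⟩ := (freyEquiv P ht ha hb).surjective (Point.some X Y h)
  rw [← hR, act_freyEquiv]
  rcases R with _ | ⟨x₀, y₀, h₀⟩
  · exfalso
    have h0 : freyEquiv P ht ha hb (Point.zero : (P.freyCurve⁄Qbar).Point) = 0 :=
      map_zero (freyEquiv P ht ha hb)
    rw [h0] at hR
    exact Point.some_ne_zero h hR.symm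
  · have h₀' : (P.freyCurve⁄Qbar).Nonsingular (σ x₀) (σ y₀) :=
      (Affine.baseChange_nonsingular (W := P.freyCurve) (f := σ.toAlgHom)
        σ.toAlgHom.injective x₀ y₀).mpr h₀
    have hs : σ • (Point.some x₀ y₀ h₀ : (P.freyCurve⁄Qbar).Point) =
        Point.some (σ x₀) (σ y₀) h₀' := rfl
    rw [hs]
    obtain ⟨h1, e1⟩ := freyEquiv_some P ht ha hb h₀
    obtain ⟨h2, e2⟩ := freyEquiv_some P ht ha hb h₀'
    rw [e1] at hR
    simp only [Point.some.injEq] at hR
    obtain ⟨hX, hY⟩ := hR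
    have hX' : 4 * σ x₀ - t = σ X := by
      rw [← hX, map_sub, map_mul, hσt, map_ofNat]
    have hY' : 8 * σ y₀ + 4 * σ x₀ = σ Y := by
      rw [← hY, map_add, map_mul, map_mul, map_ofNat, map_ofNat]
    have key : ∀ (X' Y' : Qbar) (_ : 4 * σ x₀ - t = X') (_ : 8 * σ y₀ + 4 * σ x₀ = Y')
        (h' : (Wab a b).toAffine.Nonsingular (4 * σ x₀ - t) (8 * σ y₀ + 4 * σ x₀)),
        ∃ h'' : (Wab a b).toAffine.Nonsingular X' Y',
          (Point.some _ _ h' : (Wab a b).toAffine.Point) = Point.some X' Y' h'' := by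
      rintro X' Y' rfl rfl h'
      exact ⟨h', rfl⟩
    obtain ⟨h3, e3⟩ := key _ _ hX' hY' h2
    exact ⟨h3, e2.trans e3⟩

end Fermat.Agent.M1.ES.FreyAct8
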