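/-
M1 (row 38, S44), chapter ES (helper8): **the residue field of a valuation subring of `ℚ̄` over `q`
is algebraic over `𝔽_q`**, in valuation form: every integral `x` satisfies
`v (x ^ (q ^ N) - x) < 1` for some `N ≥ 1`.
-/
import Mathlib
import Fermat.Agent.RED.DESC.NumberFieldDVR27

set_option autoImplicit false

namespace Fermat.Agent.M1.ES.FrobPeriod8

open Fermat.Agent.RED.Interface4 Fermat.Agent.RED.DESC.NumberFieldDVR27

/-- **Frobenius periodicity** modulo the maximal ideal. -/
theorem exists_pow_sub_lt_one {A : ValuationSubring Qbar} {q : ℕ} (hq : q.Prime)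
    (hA : A.LiesOverPrime q) {x : Qbar} (hx : A.valuation x ≤ 1) :
    ∃ N : ℕ, 0 < N ∧ A.valuation (x ^ (q ^ N) - x) < 1 := by
  classical
  set K : IntermediateField ℚ Qbar := IntermediateField.adjoin ℚ {x} with hK
  have hfin : FiniteDimensional ℚ K :=
    IntermediateField.adjoin.finiteDimensional
      ((isAlgebraic_Qbar).isAlgebraic x).isIntegral
  have hxK : x ∈ K := IntermediateField.mem_adjoin_simple_self ℚ x
  have hxA : (⟨x, hxK⟩ : K) ∈ AK A K := by
    rw [mem_AK_iff]
    exact (ValuationSubring.valuation_le_one_iff A x).mp hx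
  set x' : AK A K := ⟨⟨x, hxK⟩, hxA⟩ with hx'
  have hfinres : Finite (IsLocalRing.ResidueField (AK A K)) :=
    finite_residueField_AK A K hq.ne_zero hA
  have hchar : CharP (IsLocalRing.ResidueField (AK A K)) q := charP_residueField_AK A K hq hA
  let _ : Fintype (IsLocalRing.ResidueField (AK A K)) := Fintype.ofFinite _
  obtain ⟨n, -, hcard⟩ := FiniteField.card (IsLocalRing.ResidueField (AK A K)) q
  refine ⟨n, n.pos, ?_⟩
  have h1 : IsLocalRing.residue (AK A K) (x' ^ (q ^ (n : ℕ)) - x') = 0 := by
    rw [map_sub, map_pow, ← hcard, FiniteField.pow_card, sub_self]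
  rw [IsLocalRing.residue_eq_zero_iff, mem_maximalIdeal_iff,
    ValuationSubring.valuation_lt_one_iff] at h1
  exact h1

end Fermat.Agent.M1.ES.FrobPeriod8
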