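/-
M1 (row 38, S44), chapter ES (helper8): **the Kummer dichotomy over `ℚ̄`** for a model curve
`Wab a b : Y² = X³ + aX² + bX` with rational coefficients and multiplicative reduction at `A ∣ p`
(`v a = 1`, `v b = v h₀ ^ p`, `p ∣ h₀`), for the inertia group `I_A`.

The Galois action on points is an abstract family `act σ` of additive maps acting on coordinates
(`hact`); for the Frey curve it is the transport of the Prelude action (`FreyAct8`).

Main result `peu_local`: for a `p`-torsion point `y` outside the kernel of reduction there are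
`s₀` (a square root of a rational number, fixed by `I_A`) and `ϖ` such that
* every `σ` fixing `α, s₀, ξ` and `y` fixes `ϖ`;
* EITHER every `τ ∈ I_A` trivial on `μ_p` fixes `y` (split / "inertially rational" case),
  OR `v ϖ ^ (p (p - 1)) = v p` and every `τ ∈ I_A` trivial on `μ_p` moving `y` has
  `v (τ ϖ - ϖ) = v ϖ ^ 2` (lower break exactly `1`).
-/
import Mathlib
import Fermat.Agent.S05.Inertia
import Fermat.Agent.S13.MultClose
import Fermat.Agent.ES.P36.UnrFixed1
import Fermat.Agent.M1.ES.Kummer8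
import Fermat.Agent.M1.ES.Branch8
import Fermat.Agent.M1.ES.FrobPeriod8

set_option autoImplicit false
set_option linter.unusedSectionVars false

open WeierstrassCurve WeierstrassCurve.Affine

namespace Fermat.Agent.M1.ES.PeuLocal8

open Fermat.Agent.S05 Fermat.Agent.S05.CompH3 Fermat.Agent.M1.ES.UChar8
  Fermat.Agent.M1.ES.CycloVal8 Fermat.Agent.M1.ES.UTors8 Fermat.Agent.M1.ES.Kummer8
  Fermat.Agent.M1.ES.Branch8

local notation "Qbar" => AlgebraicClosure ℚ
local notation "GQ" => (AlgebraicClosure ℚ) ≃ₐ[ℚ] (AlgebraicClosure ℚ)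

/-- The standing data. -/
structure Setting (A : ValuationSubring Qbar) (p : ℕ) (a b α h₀ ξ : Qbar) : Prop where
  hp : p.Prime
  hp2 : p ≠ 2
  hA : A.LiesOverPrime p
  hα : α ^ 2 = a
  hva : A.valuation a = 1
  hb0 : b ≠ 0
  hbh : A.valuation b = A.valuation h₀ ^ p
  hh₀ : A.valuation h₀ ≤ A.valuation (p : Qbar)
  hξ : IsPrimitiveRoot ξ p
  ha_fix : ∀ σ : GQ, σ a = a
  hb_fix : ∀ σ : GQ, σ b = b
  hh_fix : ∀ σ : GQ, σ h₀ = h₀

variable {A : ValuationSubring Qbar} {p : ℕ} {a b α h₀ ξ : Qbar}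

namespace Setting

variable (S : Setting A p a b α h₀ ξ)
include S

theorem hvp : A.valuation (p : Qbar) < 1 := Inertia.valuation_prime_lt_one S.hA

theorem h2 : A.valuation (2 : Qbar) = 1 := Inertia.valuation_two_eq_one S.hp S.hA S.hp2

theorem hαv : A.valuation α = 1 := Mult.val_eq_one_of_sq (by rw [S.hα]; exact S.hva)

theorem hyp : Hyp A.valuation a b α p ξ where
  hα := S.hα
  hαv := S.hαv
  h2 := S.h2
  hb0 := S.hb0
  hp := S.hp
  hp2 := S.hp2
  hξ := S.hξ
  hvp := S.hvp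
  hbp := by rw [S.hbh]; exact pow_le_pow_left₀ zero_le S.hh₀ p

theorem hb : A.valuation b < 1 := S.hyp.hb

theorem hh₀_lt : A.valuation h₀ < 1 := lt_of_le_of_lt S.hh₀ S.hvp

omit S in
/-- An element of the inertia group fixes a unit whose square it fixes. -/
theorem fix_of_sq_fixed (h2 : A.valuation (2 : Qbar) = 1) {τ : GQ}
    (hτ : τ ∈ A.inertiaSubgroupIn ℚ) {s : Qbar}
    (hs : A.valuation s = 1) (hsq : τ (s ^ 2) = s ^ 2) : τ s = s := by
  have hmul : (τ s - s) * (τ s + s) = 0 := by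
    have : (τ s - s) * (τ s + s) = τ (s ^ 2) - s ^ 2 := by rw [map_pow]; ring
    rw [this, hsq, sub_self]
  rcases mul_eq_zero.mp hmul with h | h
  · exact sub_eq_zero.mp h
  · exfalso
    have h1 : τ s - s = -(2 * s) := by linear_combination h
    have h3 := Inertia.valuation_sub_lt_one_rat hτ hs.le
    rw [h1, Valuation.map_neg, map_mul, h2, hs, mul_one] at h3
    exact lt_irrefl _ h3

theorem inertia_fix_alpha {τ : GQ} (hτ : τ ∈ A.inertiaSubgroupIn ℚ) : τ α = α :=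
  fix_of_sq_fixed S.h2 hτ S.hαv (by rw [S.hα]; exact S.ha_fix τ)

end Setting

/-! ### The action on points -/

section Act

variable (act : GQ → (Wab a b).toAffine.Point →+ (Wab a b).toAffine.Point)
  (hact : ∀ (σ : GQ) (X Y : Qbar) (h : (Wab a b).toAffine.Nonsingular X Y),
    ∃ h' : (Wab a b).toAffine.Nonsingular (σ X) (σ Y),
      act σ (Point.some X Y h) = Point.some (σ X) (σ Y) h')
include hact

theorem act_fixed (σ : GQ) {X Y : Qbar} (h : (Wab a b).toAffine.Nonsingular X Y)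
    (hX : σ X = X) (hY : σ Y = Y) : act σ (Point.some X Y h) = Point.some X Y h := by
  obtain ⟨h', e⟩ := hact σ X Y h
  rw [e]
  simp only [hX, hY]

theorem uc_act (σ : GQ) (hσα : σ α = α) (P : (Wab a b).toAffine.Point) :
    uc α (act σ P) = σ (uc α P) := by
  rcases P with _ | ⟨X, Y, h⟩
  · have h0 : act σ (Point.zero : (Wab a b).toAffine.Point) = 0 := map_zero (act σ)
    rw [h0]
    show uc α (0 : (Wab a b).toAffine.Point) = σ (uc α (0 : (Wab a b).toAffine.Point))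
    rw [uc_zero, map_one]
  · obtain ⟨h', e⟩ := hact σ X Y h
    rw [e]
    exact Hyp.uc_map (σ : Qbar →+* Qbar) hσα h h'

/-- coordinates of a point fixed by `act σ` are fixed by `σ`. -/
theorem coord_fixed (σ : GQ) {X Y : Qbar} (h : (Wab a b).toAffine.Nonsingular X Y)
    (hfix : act σ (Point.some X Y h) = Point.some X Y h) : σ X = X ∧ σ Y = Y := by
  obtain ⟨h', e⟩ := hact σ X Y h
  rw [e] at hfix
  simp only [Point.some.injEq] at hfix
  exact hfix

end Act

/-! ### The decomposition `y' = P₀ + Q` -/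

section Decomp

variable (S : Setting A p a b α h₀ ξ)
include S

/-- A `p`-torsion point outside `E₁`, up to sign, is `P₀ + Q` with `P₀ = (c, c s₀)` having
rational abscissa `c` and `Q ∈ E₀`. -/
theorem exists_decomp {x yy : Qbar} (h : (Wab a b).toAffine.Nonsingular x yy)
    (hpy : p • Point.some x yy h = 0) (hx : A.valuation x ≤ 1) :
    ∃ (y' : (Wab a b).toAffine.Point) (c s₀ : Qbar)
      (hP₀ : (Wab a b).toAffine.Nonsingular c (c * s₀)),
      (y' = Point.some x yy h ∨ y' = -Point.some x yy h) ∧ (∀ σ : GQ, σ c = c) ∧ c ≠ 0 ∧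
        s₀ ^ 2 = c + a + b / c ∧ A.valuation s₀ = 1 ∧
        InE0 A.valuation (y' - Point.some c (c * s₀) hP₀) := by
  have H := S.hyp
  obtain ⟨hxb, hx1⟩ := branch_of_torsion H h hpy hx
  have hx0 : x ≠ 0 := by
    rintro rfl
    simp at hxb
  obtain ⟨k, hk⟩ := comp_torsion A.valuation S.h2 S.hb S.hb0 α S.hα S.hαv h hx1 hxb hpy
  have hh0 : h₀ ≠ 0 := by
    intro h0
    have := S.hbh
    rw [h0, map_zero, zero_pow S.hp.ne_zero] at this
    exact S.hb0 ((Valuation.zero_iff A.valuation).mp this)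
  set c : Qbar := h₀ ^ (2 * k) with hc
  have hc0 : c ≠ 0 := zpow_ne_zero _ hh0
  have hσc : ∀ σ : GQ, σ c = c := by
    intro σ
    rw [hc, map_zpow₀, S.hh_fix]
  have hvc : A.valuation x = A.valuation c := by
    have e1 : A.valuation x ^ p = A.valuation c ^ p := by
      rw [hk, S.hbh, hc, map_zpow₀, ← zpow_natCast (A.valuation h₀) p, ← zpow_mul,
        ← zpow_natCast, ← zpow_mul, mul_comm]
    exact (pow_left_inj₀ zero_le zero_le S.hp.ne_zero).mp e1
  obtain ⟨s₀, hP₀, hA₀⟩ := exists_alpha_point S.hα S.hαv S.h2 S.hb S.hb0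
    (c := c) (by rw [← hvc]; exact hxb) (by rw [← hvc]; exact hx1)
  obtain ⟨h', e⟩ := some_eq_xs h hx0
  have hsq := s_sq hP₀ hc0
  have hvs₀ : A.valuation s₀ = 1 := hA₀.v_s S.hαv
  rcases isAlpha_or_isBeta_of_nonsingular S.hα h' hxb hx1 with hAl | hBe
  · refine ⟨Point.some x yy h, c, s₀, hP₀, Or.inl rfl, hσc, hc0, hsq, hvs₀, ?_⟩
    rw [e]
    exact inE0_sub_of_isAlpha S.hαv S.h2 h' hP₀ hAl hA₀ hvc
  · obtain ⟨hN, eN⟩ := neg_xs h'
    refine ⟨-Point.some x yy h, c, s₀, hP₀, Or.inr rfl, hσc, hc0, hsq, hvs₀, ?_⟩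
    rw [e, eN]
    exact inE0_sub_of_isAlpha S.hαv S.h2 hN hP₀ hBe.neg hA₀ hvc

end Decomp

/-! ### The core dichotomy -/

section Core

variable (S : Setting A p a b α h₀ ξ)
  (act : GQ → (Wab a b).toAffine.Point →+ (Wab a b).toAffine.Point)
  (hact : ∀ (σ : GQ) (X Y : Qbar) (h : (Wab a b).toAffine.Nonsingular X Y),
    ∃ h' : (Wab a b).toAffine.Nonsingular (σ X) (σ Y),
      act σ (Point.some X Y h) = Point.some (σ X) (σ Y) h')
  {y' : (Wab a b).toAffine.Point} (hpy' : p • y' = 0) {c s₀ : Qbar}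
  (hP₀ : (Wab a b).toAffine.Nonsingular c (c * s₀)) (hσc : ∀ σ : GQ, σ c = c)
  (hsq : s₀ ^ 2 = c + a + b / c) (hvs₀ : A.valuation s₀ = 1)
  (hQ : InE0 A.valuation (y' - Point.some c (c * s₀) hP₀))

include S hact hσc

theorem act_P₀ (σ : GQ) (hσs : σ s₀ = s₀) :
    act σ (Point.some c (c * s₀) hP₀) = Point.some c (c * s₀) hP₀ :=
  act_fixed act hact σ hP₀ (hσc σ) (by rw [map_mul, hσc σ, hσs])

include hsq hvs₀ in
theorem inertia_fix_s₀ {τ : GQ} (hτ : τ ∈ A.inertiaSubgroupIn ℚ) : τ s₀ = s₀ := by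
  refine Setting.fix_of_sq_fixed S.h2 hτ hvs₀ ?_
  rw [hsq, map_add, map_add, map_div₀, hσc τ, S.ha_fix τ, S.hb_fix τ]

include hpy'

/-- `p • Q = -(p • P₀)` is fixed by every `σ` fixing `s₀`. -/
theorem act_nsmul_Q (σ : GQ) (hσs : σ s₀ = s₀) :
    act σ (p • (y' - Point.some c (c * s₀) hP₀)) = p • (y' - Point.some c (c * s₀) hP₀) := by
  rw [map_nsmul, map_sub, act_P₀ S act hact hP₀ hσc σ hσs, nsmul_sub, nsmul_sub, ← map_nsmul,
    hpy', map_zero]

theorem map_R (σ : GQ) (hσα : σ α = α) (hσs : σ s₀ = s₀) :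
    σ (uc α (p • (y' - Point.some c (c * s₀) hP₀))) =
      uc α (p • (y' - Point.some c (c * s₀) hP₀)) := by
  rw [← uc_act act hact σ hσα, act_nsmul_Q S act hact hpy' hP₀ hσc σ hσs]

theorem map_U (σ : GQ) (hσα : σ α = α) (hσs : σ s₀ = s₀) (hσy : act σ y' = y') :
    σ (uc α (y' - Point.some c (c * s₀) hP₀)) = uc α (y' - Point.some c (c * s₀) hP₀) := by
  rw [← uc_act act hact σ hσα, map_sub, act_P₀ S act hact hP₀ hσc σ hσs, hσy]

/-- the translation `T = τ y' - y'` by an element of the inertia group. -/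
theorem inE1_act_sub {τ : GQ} (hτ : τ ∈ A.inertiaSubgroupIn ℚ) :
    InE1 A.valuation (act τ y' - y') := by
  rcases y' with _ | ⟨x1, y1, h1⟩
  · have h0 : act τ (Point.zero : (Wab a b).toAffine.Point) = 0 := map_zero (act τ)
    rw [h0]
    show InE1 A.valuation ((0 : (Wab a b).toAffine.Point) - 0)
    rw [sub_zero]
    trivial
  · obtain ⟨h', e⟩ := hact τ x1 y1 h1
    rw [e]
    exact Fermat.Agent.S13.MultClose.mult_close A.valuation S.h2 S.hva S.hb S.hb0 α S.hα
      (τ : Qbar →+* Qbar) (fun x => Inertia.valuation_apply_rat hτ x)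
      (fun _ hx => Inertia.valuation_sub_lt_one_rat hτ hx) (S.hb_fix τ) h₀ (S.hh_fix τ)
      S.hp.ne_zero S.hbh h1 h' hpy'

include hsq hvs₀ hQ

/-- **The core dichotomy.** -/
theorem peu_core :
    ∃ ϖ : Qbar,
      (∀ σ : GQ, σ α = α → σ s₀ = s₀ → σ ξ = ξ → act σ y' = y' → σ ϖ = ϖ) ∧
      ((∀ τ ∈ A.inertiaSubgroupIn ℚ, τ ξ = ξ → act τ y' = y') ∨
        (A.valuation ϖ ^ (p * (p - 1)) = A.valuation (p : Qbar) ∧ A.valuation ϖ < 1 ∧
          ∀ τ ∈ A.inertiaSubgroupIn ℚ, τ ξ = ξ → act τ y' ≠ y' →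
            A.valuation (τ ϖ - ϖ) = A.valuation ϖ ^ 2)) := by
  have H := S.hyp
  set P₀ : (Wab a b).toAffine.Point := Point.some c (c * s₀) hP₀ with hP₀def
  set Q : (Wab a b).toAffine.Point := y' - P₀ with hQdef
  set U : Qbar := uc α Q with hUdef
  set R : Qbar := uc α (p • Q) with hRdef
  have hpQ : InE0 A.valuation (p • Q) := (H.uc_nsmul hQ p).1
  have hUR : A.valuation (R - U ^ p) ≤ A.valuation b := (H.uc_nsmul hQ p).2
  have hvR : A.valuation R = 1 := val_uc H.hα H.hαv H.hb hpQ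
  have hvU : A.valuation U = 1 := val_uc H.hα H.hαv H.hb hQ
  -- the Teichmüller-like approximation
  obtain ⟨N, hN, hper⟩ := FrobPeriod8.exists_pow_sub_lt_one S.hp S.hA hvR.le
  set ω : Qbar := R ^ (p ^ (N - 1)) with hωdef
  have hvω : A.valuation ω = 1 := by rw [hωdef, map_pow, hvR, one_pow]
  have hωp : ω ^ p = R ^ (p ^ N) := by
    rw [hωdef, ← pow_mul, ← pow_succ, Nat.sub_add_cancel hN]
  have hω0 : ω ≠ 0 := (Valuation.ne_zero_iff A.valuation).mp (by rw [hvω]; exact one_ne_zero)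
  have hωp0 : ω ^ p ≠ 0 := pow_ne_zero _ hω0
  have hvωp : A.valuation (ω ^ p) = 1 := by rw [map_pow, hvω, one_pow]
  have hσR : ∀ σ : GQ, σ α = α → σ s₀ = s₀ → σ R = R := fun σ hσα hσs =>
    map_R S act hact hpy' hP₀ hσc σ hσα hσs
  have hσω : ∀ σ : GQ, σ α = α → σ s₀ = s₀ → σ ω = ω := fun σ hσα hσs => by
    rw [hωdef, map_pow, hσR σ hσα hσs]
  -- the fixed non-unit `r`
  set r : Qbar := R / ω ^ p - 1 with hrdef
  have hr_eq : r = (R - R ^ (p ^ N)) / ω ^ p := by
    rw [hrdef, ← hωp]; field_simp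
  have hvr : A.valuation r < 1 := by
    rw [hr_eq, map_div₀, hvωp, div_one, ← Valuation.map_neg, neg_sub]
    exact hper
  have hr_fix : ∀ τ ∈ A.inertiaSubgroupIn ℚ, τ r = r := fun τ hτ => by
    have h1 := S.inertia_fix_alpha hτ
    have h2 := inertia_fix_s₀ S act hact hσc hsq hvs₀ hτ
    rw [hrdef, map_sub, map_div₀, map_pow, hσR τ h1 h2, hσω τ h1 h2, map_one]
  have hp0 : (p : Qbar) ≠ 0 := Nat.cast_ne_zero.mpr S.hp.ne_zero
  have hvp0 : A.valuation (p : Qbar) ≠ 0 := (Valuation.ne_zero_iff _).mpr hp0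
  have hr1 : r / (p : Qbar) ∈ A :=
    Fermat.Agent.ES.P36.UnrFixed1.div_natCast_mem_of_fixed A S.hp S.hA r hr_fix
      ((ValuationSubring.mem_nonunits_iff (A := A)).mpr hvr)
  have hr1' : A.valuation r ≤ A.valuation (p : Qbar) := by
    have := (ValuationSubring.valuation_le_one_iff A _).mpr hr1
    rw [map_div₀, div_le_one₀ (zero_lt_iff.mpr hvp0)] at this
    exact this
  -- `X ^ p - 1 = r + small`
  have hXp : (U / ω) ^ p - 1 = r + -((R - U ^ p) / ω ^ p) := by
    rw [hrdef, div_pow]; field_simp; ring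
  have hsmall : A.valuation (-((R - U ^ p) / ω ^ p)) ≤ A.valuation b := by
    rw [Valuation.map_neg, map_div₀, hvωp, div_one]; exact hUR
  have hϖfix : ∀ σ : GQ, σ α = α → σ s₀ = s₀ → σ ξ = ξ → act σ y' = y' →
      σ ((1 - ξ) / (U / ω - 1)) = (1 - ξ) / (U / ω - 1) := by
    intro σ hσα hσs hσξ hσy
    have hU : σ U = U := map_U S act hact hpy' hP₀ hσc σ hσα hσs hσy
    rw [map_div₀, map_sub, map_sub, map_div₀, map_one, hσξ, hU, hσω σ hσα hσs]
  -- the translation data for `τ`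
  have hτdata : ∀ τ ∈ A.inertiaSubgroupIn ℚ,
      InE0 A.valuation (act τ y' - y') ∧ p • (act τ y' - y') = 0 ∧
        τ U = uc α (Q + (act τ y' - y')) := by
    intro τ hτ
    have hα' := S.inertia_fix_alpha hτ
    have hs' := inertia_fix_s₀ S act hact hσc hsq hvs₀ hτ
    refine ⟨(inE1_act_sub S act hact hpy' hσc hτ).inE0, ?_, ?_⟩
    · rw [nsmul_sub, ← map_nsmul, hpy', map_zero, sub_zero]
    · rw [hUdef, ← uc_act act hact τ hα', hQdef, map_sub,
        act_P₀ S act hact hP₀ hσc τ hs']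
      congr 1
      abel
  refine ⟨(1 - ξ) / (U / ω - 1), hϖfix, ?_⟩
  by_cases hcase : A.valuation r = A.valuation (p : Qbar)
  · -- non-split
    right
    have hX : A.valuation ((U / ω) ^ p - 1) = A.valuation (p : Qbar) := by
      rw [hXp, ← hcase]
      apply Valuation.map_add_eq_of_lt_left
      rw [hcase]
      exact lt_of_le_of_lt hsmall (vb_lt_vp H)
    obtain ⟨-, h2, h3⟩ := val_varpi H hQ hvω hX
    refine ⟨h2, h3, ?_⟩
    intro τ hτ hτξ hτy
    obtain ⟨hT, hpT, hτU⟩ := hτdata τ hτ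
    exact nonsplit H hQ hT hpT (τ : Qbar →+* Qbar)
      (fun x => Inertia.valuation_apply_rat hτ x) hτξ hτU hvω
      (hσω τ (S.inertia_fix_alpha hτ) (inertia_fix_s₀ S act hact hσc hsq hvs₀ hτ)) hX
      (sub_ne_zero.mpr hτy)
  · -- split
    left
    have hlt : A.valuation (r / (p : Qbar)) < 1 := by
      rw [map_div₀, div_lt_one₀ (zero_lt_iff.mpr hvp0)]
      exact lt_of_le_of_ne hr1' hcase
    have hr2 : r / (p : Qbar) / (p : Qbar) ∈ A := by
      refine Fermat.Agent.ES.P36.UnrFixed1.div_natCast_mem_of_fixed A S.hp S.hA _ ?_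
        ((ValuationSubring.mem_nonunits_iff (A := A)).mpr hlt)
      intro τ hτ
      rw [map_div₀, hr_fix τ hτ, map_natCast]
    have hr2' : A.valuation r ≤ A.valuation (p : Qbar) ^ 2 := by
      have := (ValuationSubring.valuation_le_one_iff A _).mpr hr2
      rw [map_div₀, map_div₀, div_div, div_le_one₀ (mul_pos (zero_lt_iff.mpr hvp0)
        (zero_lt_iff.mpr hvp0)), ← pow_two] at this
      exact this
    have hbp2 : A.valuation b ≤ A.valuation (p : Qbar) ^ 2 :=
      H.hbp.trans (pow_le_pow_right_of_le_one' H.hvp.le S.hp.two_le)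
    have hX : A.valuation ((U / ω) ^ p - 1) < A.valuation (1 - ξ) ^ p := by
      rw [hXp, lam_pow_p A.valuation H.hp H.hξ]
      refine lt_of_le_of_lt ((A.valuation.map_add _ _).trans (max_le hr2' (hsmall.trans hbp2))) ?_
      rw [pow_two]
      exact mul_lt_mul_of_pos_right H.vp_lt_lam H.vp_pos
    intro τ hτ hτξ
    obtain ⟨hT, hpT, hτU⟩ := hτdata τ hτ
    have := split H hQ hT hpT (τ : Qbar →+* Qbar)
      (fun x => Inertia.valuation_apply_rat hτ x) hτξ hτU hvω
      (hσω τ (S.inertia_fix_alpha hτ) (inertia_fix_s₀ S act hact hσc hsq hvs₀ hτ)) hX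
    exact sub_eq_zero.mp this

end Core

/-! ### The local theorem -/

section Local

variable (S : Setting A p a b α h₀ ξ)
  (act : GQ → (Wab a b).toAffine.Point →+ (Wab a b).toAffine.Point)
  (hact : ∀ (σ : GQ) (X Y : Qbar) (h : (Wab a b).toAffine.Nonsingular X Y),
    ∃ h' : (Wab a b).toAffine.Nonsingular (σ X) (σ Y),
      act σ (Point.some X Y h) = Point.some (σ X) (σ Y) h')

include S hact

/-- **The Kummer dichotomy over `ℚ̄`** for a `p`-torsion point outside the kernel of reduction. -/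
theorem peu_local {x yy : Qbar} (h : (Wab a b).toAffine.Nonsingular x yy)
    (hpy : p • Point.some x yy h = 0) (hx : A.valuation x ≤ 1) :
    ∃ s₀ ϖ : Qbar,
      (∃ c : Qbar, (∀ σ : GQ, σ c = c) ∧ c ≠ 0 ∧ s₀ ^ 2 = c + a + b / c) ∧
      A.valuation s₀ = 1 ∧ (∀ τ ∈ A.inertiaSubgroupIn ℚ, τ s₀ = s₀) ∧
      (∀ σ : GQ, σ α = α → σ s₀ = s₀ → σ ξ = ξ →
        act σ (Point.some x yy h) = Point.some x yy h → σ ϖ = ϖ) ∧
      ((∀ τ ∈ A.inertiaSubgroupIn ℚ, τ ξ = ξ →
          act τ (Point.some x yy h) = Point.some x yy h) ∨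
        (A.valuation ϖ ^ (p * (p - 1)) = A.valuation (p : Qbar) ∧ A.valuation ϖ < 1 ∧
          ∀ τ ∈ A.inertiaSubgroupIn ℚ, τ ξ = ξ →
            act τ (Point.some x yy h) ≠ Point.some x yy h →
              A.valuation (τ ϖ - ϖ) = A.valuation ϖ ^ 2)) := by
  obtain ⟨y', c, s₀, hP₀, hy', hσc, hc0, hsq, hvs₀, hQ⟩ := exists_decomp S h hpy hx
  have hpy' : p • y' = 0 := by
    rcases hy' with rfl | rfl
    · exact hpy
    · rw [neg_nsmul, hpy, neg_zero]
  have hiff : ∀ σ : GQ, act σ y' = y' ↔ act σ (Point.some x yy h) = Point.some x yy h := by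
    intro σ
    rcases hy' with rfl | rfl
    · exact Iff.rfl
    · rw [map_neg, neg_inj]
  obtain ⟨ϖ, hfix, hdich⟩ := peu_core S act hact hpy' hP₀ hσc hsq hvs₀ hQ
  refine ⟨s₀, ϖ, ⟨c, hσc, hc0, hsq⟩, hvs₀,
    fun τ hτ => inertia_fix_s₀ S act hact hσc hsq hvs₀ hτ,
    fun σ h1 h2 h3 h4 => hfix σ h1 h2 h3 ((hiff σ).mpr h4), ?_⟩
  rcases hdich with hs | ⟨h1, h2, h3⟩
  · exact Or.inl fun τ hτ hτξ => (hiff τ).mp (hs τ hτ hτξ)
  · exact Or.inr ⟨h1, h2, fun τ hτ hτξ hne => h3 τ hτ hτξ fun he => hne ((hiff τ).mp he)⟩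

end Local

end Fermat.Agent.M1.ES.PeuLocal8
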