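/-
M1 (row 38, S44), chapter ES (helper8): **(E2s-LOC): the Kummer dichotomy for the Frey curve at
`p ∣ abc`**, and the cyclotomic action of inertia on the kernel of reduction.

`P` a Frey package, `A` a valuation subring of `ℚ̄` over `p = P.p`, `p ∣ abc`, `ξ` a primitive `p`-th
root of unity, `y ∈ E[p]` outside the kernel of reduction `V1 = FreyE1.V1 P A`.

* `frey_peu_loc` : there are `α, s₀` (square roots of rational numbers, fixed by `I_A`) and `ϖ`,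
  fixed by every `σ` fixing `α, s₀, ξ` and `y`, such that EITHER every `τ ∈ I_A` trivial on `μ_p`
  fixes `y`, OR `v ϖ ^ (p (p - 1)) = v p` and every `τ ∈ I_A` trivial on `μ_p` moving `y` has
  `v (τ ϖ - ϖ) = v ϖ ^ 2`.
* `frey_chi_V1`  : `τ ∈ I_A` acting on `μ_p` by `ζ ↦ ζ ^ c` acts on `V1` by `c`.
-/
import Mathlib
import Fermat.Agent.S13.FreyE1
import Fermat.Agent.M1.ES.FreyAct8
import Fermat.Agent.M1.ES.PeuLocal8

set_option autoImplicit false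
set_option linter.unusedSectionVars false

open WeierstrassCurve WeierstrassCurve.Affine WeierstrassCurve.Affine.Point

namespace Fermat.Agent.M1.ES.PeuFrey8

open Fermat.Agent.S05 Fermat.Agent.S05.FreyTransport Fermat.Agent.S13 Fermat.Agent.S13.FreyE1
  Fermat.Agent.M1.ES.FreyAct8 Fermat.Agent.M1.ES.PeuLocal8 Fermat.Agent.M1.ES.UTors8

local notation "Qbar" => AlgebraicClosure ℚ
local notation "GQ" => (AlgebraicClosure ℚ) ≃ₐ[ℚ] (AlgebraicClosure ℚ)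

variable (P : FreyPackage)

/-- The conclusion of the dichotomy, for a `p`-torsion point `y` and `α, s₀, ϖ`. -/
def PeuConcl (A : ValuationSubring Qbar) (ξ : Qbar)
    (y : Submodule.torsionBy ℤ (P.freyCurve⁄Qbar).Point P.p) (α s₀ ϖ : Qbar) : Prop :=
  (∀ σ : GQ, σ α = α ∨ σ α = -α) ∧ (∀ σ : GQ, σ s₀ = s₀ ∨ σ s₀ = -s₀) ∧
  (∀ τ ∈ A.inertiaSubgroupIn ℚ, τ α = α ∧ τ s₀ = s₀) ∧
  (∀ σ : GQ, σ α = α → σ s₀ = s₀ → σ ξ = ξ → σ • y = y → σ ϖ = ϖ) ∧
  ((∀ τ ∈ A.inertiaSubgroupIn ℚ, τ ξ = ξ → τ • y = y) ∨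
    (A.valuation ϖ ^ (P.p * (P.p - 1)) = A.valuation (P.p : Qbar) ∧ A.valuation ϖ < 1 ∧
      ∀ τ ∈ A.inertiaSubgroupIn ℚ, τ ξ = ξ → τ • y ≠ y →
        A.valuation (τ ϖ - ϖ) = A.valuation ϖ ^ 2))

theorem smul_eq_iff (σ : GQ) (y : Submodule.torsionBy ℤ (P.freyCurve⁄Qbar).Point P.p) :
    σ • y = y ↔ σ • (y : (P.freyCurve⁄Qbar).Point) = y :=
  ⟨fun h => congrArg Subtype.val h, fun h => Subtype.ext h⟩

omit P in
theorem eq_or_eq_neg_of_sq_fixed {σ : GQ} {s : Qbar} (h : σ (s ^ 2) = s ^ 2) :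
    σ s = s ∨ σ s = -s := by
  rw [map_pow] at h
  exact sq_eq_sq_iff_eq_or_eq_neg.mp h

/-- The dichotomy through a model `Wab a b`. -/
theorem peu_of_model {A : ValuationSubring Qbar} {t a b α h₀ ξ : Qbar}
    (ht : t * (t - cA P) * (t + cB P) = 0) (ha : a = 3 * t + cB P - cA P)
    (hb : b = 3 * t ^ 2 + 2 * (cB P - cA P) * t - cA P * cB P)
    (hσt : ∀ σ : GQ, σ t = t) (hvt : A.valuation t ≤ 1)
    (S : Setting A P.p a b α h₀ ξ)
    (y : Submodule.torsionBy ℤ (P.freyCurve⁄Qbar).Point P.p) (hy : y ∉ V1 P A) :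
    ∃ s₀ ϖ : Qbar, PeuConcl P A ξ y α s₀ ϖ := by
  have hyW : ¬ S05.InE1 A.valuation (freyEquiv P ht ha hb y.1) := by
    rw [← inE1_freyEquiv_iff P A.valuation S.h2 ht ha hb hvt, ← mem_V1]
    exact hy
  have hpyW : P.p • freyEquiv P ht ha hb y.1 = 0 := by
    rw [← map_nsmul, nsmul_eq_zero_of_mem P y, _root_.map_zero]
  rcases hyWeq : freyEquiv P ht ha hb y.1 with _ | ⟨x, yy, h⟩
  · rw [hyWeq] at hyW
    exact absurd trivial hyW
  · rw [hyWeq] at hyW hpyW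
    have hx : A.valuation x ≤ 1 := not_lt.mp hyW
    obtain ⟨s₀, ϖ, ⟨c, hσc, hc0, hsq⟩, hvs₀, hτs₀, hfix, hdich⟩ :=
      peu_local S (act P ht ha hb) (fun σ X Y h => act_some P ht ha hb σ (hσt σ) X Y h) h hpyW hx
    have hiff : ∀ σ : GQ, act P ht ha hb σ (Point.some x yy h) = Point.some x yy h ↔
        σ • y = y := by
      intro σ
      rw [← hyWeq, act_eq_iff, smul_eq_iff]
    refine ⟨s₀, ϖ, ?_, ?_, ?_, ?_, ?_⟩
    · intro σ
      exact eq_or_eq_neg_of_sq_fixed (by rw [S.hα]; exact S.ha_fix σ)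
    · intro σ
      refine eq_or_eq_neg_of_sq_fixed ?_
      rw [hsq, map_add, map_add, map_div₀, hσc σ, S.ha_fix σ, S.hb_fix σ]
    · exact fun τ hτ => ⟨S.inertia_fix_alpha hτ, hτs₀ τ hτ⟩
    · exact fun σ h1 h2 h3 h4 => hfix σ h1 h2 h3 ((hiff σ).mpr h4)
    · rcases hdich with hs | ⟨h1, h2, h3⟩
      · exact Or.inl fun τ hτ hτξ => (hiff τ).mp (hs τ hτ hτξ)
      · exact Or.inr ⟨h1, h2, fun τ hτ hτξ hne =>
          h3 τ hτ hτξ fun he => hne ((hiff τ).mp he)⟩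

/-- The cyclotomic action on `V1` through a model `Wab a b`. -/
theorem chi_of_model {A : ValuationSubring Qbar} {t a b α h₀ ξ : Qbar}
    (ht : t * (t - cA P) * (t + cB P) = 0) (ha : a = 3 * t + cB P - cA P)
    (hb : b = 3 * t ^ 2 + 2 * (cB P - cA P) * t - cA P * cB P)
    (hσt : ∀ σ : GQ, σ t = t) (hvt : A.valuation t ≤ 1)
    (S : Setting A P.p a b α h₀ ξ) {τ : GQ} (hτ : τ ∈ A.inertiaSubgroupIn ℚ) {c : ℕ}
    (hc : ∀ ζ : Qbar, ζ ^ P.p = 1 → τ ζ = ζ ^ c)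
    (x : Submodule.torsionBy ℤ (P.freyCurve⁄Qbar).Point P.p) (hx : x ∈ V1 P A) :
    τ • x = c • x := by
  have hxW : S05.InE1 A.valuation (freyEquiv P ht ha hb x.1) := by
    rw [← inE1_freyEquiv_iff P A.valuation S.h2 ht ha hb hvt, ← mem_V1]
    exact hx
  have hpxW : P.p • freyEquiv P ht ha hb x.1 = 0 := by
    rw [← map_nsmul, nsmul_eq_zero_of_mem P x, _root_.map_zero]
  apply Subtype.ext
  show τ • (x : (P.freyCurve⁄Qbar).Point) = ((c • x : _) : (P.freyCurve⁄Qbar).Point)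
  rw [Submodule.coe_smul_of_tower]
  apply (freyEquiv P ht ha hb).injective
  rw [← act_freyEquiv, map_nsmul]
  rcases hxWeq : freyEquiv P ht ha hb x.1 with _ | ⟨X, Y, h⟩
  · have h0 : act P ht ha hb τ (Point.zero : (Wab a b).toAffine.Point) = 0 :=
      _root_.map_zero (act P ht ha hb τ)
    rw [h0]
    exact (smul_zero c).symm
  · rw [hxWeq] at hxW hpxW
    obtain ⟨h', e⟩ := act_some P ht ha hb τ (hσt τ) X Y h
    rw [e]
    have hp' : P.p • (Point.some (τ X) (τ Y) h' : (Wab a b).toAffine.Point) = 0 := by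
      rw [← e, ← map_nsmul, hpxW, _root_.map_zero]
    exact S.hyp.map_eq_nsmul (τ : Qbar →+* Qbar) (fun z => Inertia.valuation_apply_rat hτ z)
      (S.inertia_fix_alpha hτ) hc h h' (le_of_lt hxW) hpxW hp'

/-! ### The two multiplicative cases -/

section Cases

variable {A : ValuationSubring Qbar}

omit P in
theorem val_le_of_dvd {p : ℕ} {n : ℤ} (h : (p : ℤ) ∣ n) :
    A.valuation (n : Qbar) ≤ A.valuation (p : Qbar) := by
  obtain ⟨m, rfl⟩ := h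
  have e : (((p : ℤ) * m : ℤ) : Qbar) = (p : Qbar) * (m : Qbar) := by push_cast; ring
  rw [e, map_mul]
  exact mul_le_of_le_one_right' (Inertia.valuation_intCast_le_one m)

/-- The model data in the two multiplicative cases: a `Setting` for every primitive root `ξ`. -/
theorem exists_setting (hA : A.LiesOverPrime P.p) (hmult : (P.p : ℤ) ∣ P.a * P.b * P.c)
    {ξ : Qbar} (hξ : IsPrimitiveRoot ξ P.p) :
    ∃ t a b α h₀ : Qbar, t * (t - cA P) * (t + cB P) = 0 ∧ a = 3 * t + cB P - cA P ∧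
      b = 3 * t ^ 2 + 2 * (cB P - cA P) * t - cA P * cB P ∧ (∀ σ : GQ, σ t = t) ∧
      A.valuation t ≤ 1 ∧ Setting A P.p a b α h₀ ξ := by
  have hq := P.pp
  have hq2 : P.p ≠ 2 := by have := P.hp5; omega
  have hv : FreyArith.LiesOver A.valuation P.p :=
    ⟨Inertia.valuation_intCast_le_one, Inertia.valuation_intCast_lt_one_iff hq hA⟩
  have hcA : (cA P : Qbar) = (P.a : Qbar) ^ P.p := rfl
  have hcB : (cB P : Qbar) = (P.b : Qbar) ^ P.p := rfl
  have hcases : (P.p : ℤ) ∣ P.a * P.b ∨ (P.p : ℤ) ∣ P.c :=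
    (Nat.prime_iff_prime_int.mp hq).dvd_or_dvd hmult
  rcases hcases with hab | hc
  · obtain ⟨g1, g2, g3⟩ := FreyArith.mult_ab_val P hv hq hab
    have hb0 : -((P.a : Qbar) ^ P.p * (P.b : Qbar) ^ P.p) ≠ 0 := by
      rw [← mul_pow]
      exact neg_ne_zero.mpr (pow_ne_zero _ (FreyArith.ab_ne_zero P))
    obtain ⟨α, hα⟩ := IsAlgClosed.exists_pow_nat_eq
      ((P.b : Qbar) ^ P.p - (P.a : Qbar) ^ P.p) (n := 2) zero_lt_two
    refine ⟨0, (P.b : Qbar) ^ P.p - (P.a : Qbar) ^ P.p,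
      -((P.a : Qbar) ^ P.p * (P.b : Qbar) ^ P.p), α, (P.a : Qbar) * (P.b : Qbar),
      by ring, by rw [hcA, hcB]; ring, by rw [hcA, hcB]; ring, fun σ => map_zero σ, by simp, ?_⟩
    refine ⟨hq, hq2, hA, hα, g1, hb0, g2, ?_, hξ, ?_, ?_, ?_⟩
    · have := val_le_of_dvd (A := A) hab
      simpa using this
    · intro σ; simp
    · intro σ; simp
    · intro σ; simp
  · have hcc : (P.c : Qbar) ^ P.p = (P.a : Qbar) ^ P.p + (P.b : Qbar) ^ P.p :=
      FreyArith.c_pow_eq_cast P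
    have hvt : A.valuation ((P.a : Qbar) ^ P.p) ≤ 1 := by
      have := Inertia.valuation_intCast_le_one (A := A) (P.a ^ P.p)
      simpa using this
    obtain ⟨g1, g2, g3⟩ := FreyArith.mult_c_val P hv hq hc
    have hb0 : (P.a : Qbar) ^ P.p * (P.c : Qbar) ^ P.p ≠ 0 := by
      rw [← mul_pow]
      exact pow_ne_zero _ (FreyArith.ac_ne_zero P)
    obtain ⟨α, hα⟩ := IsAlgClosed.exists_pow_nat_eq
      ((P.a : Qbar) ^ P.p + (P.c : Qbar) ^ P.p) (n := 2) zero_lt_two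
    refine ⟨(P.a : Qbar) ^ P.p, (P.a : Qbar) ^ P.p + (P.c : Qbar) ^ P.p,
      (P.a : Qbar) ^ P.p * (P.c : Qbar) ^ P.p, α, (P.a : Qbar) * (P.c : Qbar),
      by rw [hcA]; ring, by rw [hcA, hcB, hcc]; ring, by rw [hcA, hcB, hcc]; ring,
      fun σ => by simp, hvt, ?_⟩
    refine ⟨hq, hq2, hA, hα, g1, hb0, g2, ?_, hξ, ?_, ?_, ?_⟩
    · have hac : (P.p : ℤ) ∣ P.a * P.c := Dvd.dvd.mul_left hc P.a
      have := val_le_of_dvd (A := A) hac
      simpa using this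
    · intro σ; simp
    · intro σ; simp
    · intro σ; simp

/-- **(E2s-LOC)**: the Kummer dichotomy for the Frey curve at `p ∣ abc`. -/
theorem frey_peu_loc (hA : A.LiesOverPrime P.p) (hmult : (P.p : ℤ) ∣ P.a * P.b * P.c)
    {ξ : Qbar} (hξ : IsPrimitiveRoot ξ P.p)
    (y : Submodule.torsionBy ℤ (P.freyCurve⁄Qbar).Point P.p) (hy : y ∉ V1 P A) :
    ∃ α s₀ ϖ : Qbar, PeuConcl P A ξ y α s₀ ϖ := by
  obtain ⟨t, a, b, α, h₀, ht, ha, hb, hσt, hvt, S⟩ := exists_setting P hA hmult hξ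
  obtain ⟨s₀, ϖ, h⟩ := peu_of_model P ht ha hb hσt hvt S y hy
  exact ⟨α, s₀, ϖ, h⟩

/-- **Inertia acts on the kernel of reduction through the cyclotomic character** (no determinant,
no irreducibility needed). -/
theorem frey_chi_V1 (hA : A.LiesOverPrime P.p) (hmult : (P.p : ℤ) ∣ P.a * P.b * P.c)
    {τ : GQ} (hτ : τ ∈ A.inertiaSubgroupIn ℚ) {c : ℕ}
    (hc : ∀ ζ : Qbar, ζ ^ P.p = 1 → τ ζ = ζ ^ c)
    (x : Submodule.torsionBy ℤ (P.freyCurve⁄Qbar).Point P.p) (hx : x ∈ V1 P A) :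
    τ • x = c • x := by
  have : NeZero P.p := ⟨P.pp.ne_zero⟩
  obtain ⟨ξ, hξ⟩ : ∃ ξ : Qbar, IsPrimitiveRoot ξ P.p :=
    HasEnoughRootsOfUnity.exists_primitiveRoot Qbar P.p
  obtain ⟨t, a, b, α, h₀, ht, ha, hb, hσt, hvt, S⟩ := exists_setting P hA hmult hξ
  exact chi_of_model P ht ha hb hσt hvt S hτ hc x hx

end Cases

end Fermat.Agent.M1.ES.PeuFrey8
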