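/-
M1 (row 38, S44), chapter ES (helper8): **(E2s-LOC) in the literal shape `LocFrey` requested by
the packaging brick (`Final73`, report #908).**
-/
import Mathlib
import Fermat.Agent.M1.Ram.PeuRamDef20
import Fermat.Agent.M1.ES.PeuFrey8

set_option autoImplicit false

open WeierstrassCurve WeierstrassCurve.Affine WeierstrassCurve.Affine.Point

namespace Fermat.Agent.M1.ES.LocFrey8

open Fermat.Agent.S13 Fermat.Agent.S13.FreyE1 Fermat.Agent.M1.Ram.PeuRamDef20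
  Fermat.Agent.M1.ES.PeuFrey8

local notation "Qbar" => AlgebraicClosure ℚ
local notation "GQ" => (AlgebraicClosure ℚ) ≃ₐ[ℚ] (AlgebraicClosure ℚ)

/-- The local statement (E2s-LOC), verbatim as in report #908. -/
def LocFrey (P : FreyPackage) (A : ValuationSubring Qbar) : Prop :=
  ∀ y : Submodule.torsionBy ℤ (P.freyCurve⁄Qbar).Point P.p, y ∉ V1 P A →
    ∃ α s0 ϖ : Qbar,
      (∀ σ : GQ, σ (α ^ 2) = α ^ 2) ∧ (∀ σ : GQ, σ (s0 ^ 2) = s0 ^ 2) ∧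
      (∀ τ ∈ A.inertiaSubgroupIn ℚ, τ α = α) ∧ (∀ τ ∈ A.inertiaSubgroupIn ℚ, τ s0 = s0) ∧
      (∀ σ : GQ, σ α = α → σ s0 = s0 → FixesMu P.p σ → σ • y = y → σ ϖ = ϖ) ∧
      ((∀ τ ∈ A.inertiaSubgroupIn ℚ, FixesMu P.p τ → τ • y = y) ∨
        (A.valuation ϖ ^ (P.p * (P.p - 1)) = A.valuation (P.p : Qbar) ∧ A.valuation ϖ < 1 ∧
          ∀ τ ∈ A.inertiaSubgroupIn ℚ, FixesMu P.p τ → τ • y ≠ y →
            A.valuation (τ ϖ - ϖ) = A.valuation ϖ ^ 2))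

/-- **(E2s-LOC)** for the Frey curve at `p ∣ abc`. -/
theorem locFrey (P : FreyPackage) {A : ValuationSubring Qbar}
    (hmult : (P.p : ℤ) ∣ P.a * P.b * P.c) (hA : A.LiesOverPrime P.p) : LocFrey P A := by
  intro y hy
  have : NeZero P.p := ⟨P.pp.ne_zero⟩
  obtain ⟨ξ, hξ⟩ : ∃ ξ : Qbar, IsPrimitiveRoot ξ P.p :=
    HasEnoughRootsOfUnity.exists_primitiveRoot Qbar P.p
  obtain ⟨α, s₀, ϖ, h1, h2, h3, h4, h5⟩ := frey_peu_loc P hA hmult hξ y hy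
  have hsq : ∀ {s : Qbar} {σ : GQ}, (σ s = s ∨ σ s = -s) → σ (s ^ 2) = s ^ 2 := by
    intro s σ h
    rw [map_pow]
    rcases h with h | h <;> rw [h]
    ring
  have hfix : ∀ {σ : GQ}, FixesMu P.p σ → σ ξ = ξ := fun h => h ξ hξ.pow_eq_one
  refine ⟨α, s₀, ϖ, fun σ => hsq (h1 σ), fun σ => hsq (h2 σ), fun τ hτ => (h3 τ hτ).1,
    fun τ hτ => (h3 τ hτ).2, fun σ ha hs hμ hy' => h4 σ ha hs (hfix hμ) hy', ?_⟩
  rcases h5 with h | ⟨h6, h7, h8⟩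
  · exact Or.inl fun τ hτ hμ => h τ hτ (hfix hμ)
  · exact Or.inr ⟨h6, h7, fun τ hτ hμ hne => h8 τ hτ (hfix hμ) hne⟩

end Fermat.Agent.M1.ES.LocFrey8
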