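/-
M1 / chapter ES (helper73): **CLOSING THEOREM of the E-side** (unconditional).

For a Frey package `P` with `p ∣ abc`, every valuation subring `A` of `ℚ̄` over `p`, and every
subgroup `H ≤ Gal(ℚ̄/ℚ)` containing the pointwise stabiliser of `E[p] ∪ μ_p`, the pair `(A, H)` is
peu ramifié in the sense of `PeuRamDef20.PeuRam` (Serre's peu ramifié condition, stated through a
finite Galois model `L` with totally ramified depth data and lower break exactly `1`).

Inputs: `Final73.peuRam_of_locFrey` (assembly, helper73), `LocFrey8.locFrey` (the local Kummer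
dichotomy for the Frey curve, helper8), `PeuFrey8.frey_chi_V1` (inertia acts on the kernel of
reduction through the cyclotomic character, helper8).
-/
import Mathlib
import Fermat.Agent.M1.ES.Final73
import Fermat.Agent.M1.ES.LocFrey8

set_option autoImplicit false

open WeierstrassCurve WeierstrassCurve.Affine WeierstrassCurve.Affine.Point

namespace Fermat.Agent.M1.ES.FreyPeuRam73

open Fermat.Agent.RED.Interface4 Fermat.Agent.M1.Ram.PeuRamDef20 Fermat.Agent.S13.FreyE1

local notation "GQ" => Qbar ≃ₐ[ℚ] Qbar

/-- **(E2) for the Frey curve, unconditional.**  If `p ∣ abc` and `A` is a valuation subring of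
`ℚ̄` above `p`, then `ρ̄_{E,p}` is peu ramifié at `A`: for every subgroup `H` containing all `σ`
acting trivially on `E[p]` and on `μ_p`, `PeuRam p A H` holds. -/
theorem frey_peuRam (P : FreyPackage) {A : ValuationSubring Qbar} (hA : A.LiesOverPrime P.p)
    (hmult : (P.p : ℤ) ∣ P.a * P.b * P.c) (H : Subgroup GQ)
    (hH : ∀ σ : GQ,
      (∀ t : Submodule.torsionBy ℤ (P.freyCurve⁄Qbar).Point P.p, σ • t = t) →
      FixesMu P.p σ → σ ∈ H) :
    PeuRam P.p A H :=
  Final73.peuRam_of_locFrey P hA hmult
    (fun _ hσ _ hc x hx => PeuFrey8.frey_chi_V1 P hA hmult hσ hc x hx)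
    (LocFrey8.locFrey P hmult hA) H hH

end Fermat.Agent.M1.ES.FreyPeuRam73
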