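/-
M1 (row 38, S44), chapter ES (helper8): **the Kummer dichotomy** on the model curve
`Wab a b : Y² = X³ + aX² + bX` (multiplicative reduction) at the residue characteristic `p`.

Setting (`H : Hyp v a b α p ξ` of `UTors8`): `Q, T` points of `E₀`, `p • T = 0`, `σ` a
valuation-preserving ring endomorphism fixing `ξ` (hence `μ_p`) with `σ (u Q) = u (Q + T)`
(in the application `σ` is in the inertia group, trivial on `μ_p`, `Q = y - P₀` for a `p`-torsion
point `y` outside `E₁` and an inertia-fixed point `P₀` on the same branch, and `T = σ y - y`),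
`ω` a `σ`-fixed unit.  With `X := u Q / ω`:

* `split`     : if `v (X ^ p - 1) < lam ^ p` (`lam = v (1 - ξ)`) then `T = 0`;
* `nonsplit`  : if `v (X ^ p - 1) = v p` and `T ≠ 0` then `ϖ := (1 - ξ) / (X - 1)` satisfies
                `v (σ ϖ - ϖ) = v ϖ ^ 2` (lower break exactly `1`);
* `val_varpi` : in that case `v ϖ ^ p = lam`, `v ϖ ^ (p * (p - 1)) = v p`, `v ϖ < 1`.
-/
import Mathlib
import Fermat.Agent.M1.ES.UTors8

set_option autoImplicit false
set_option linter.unusedSectionVars false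

open WeierstrassCurve WeierstrassCurve.Affine

namespace Fermat.Agent.M1.ES.Kummer8

open Fermat.Agent.S05 Fermat.Agent.M1.ES.UChar8 Fermat.Agent.M1.ES.CycloVal8
  Fermat.Agent.M1.ES.UTors8

variable {K : Type*} [Field K] [DecidableEq K] {Γ₀ : Type*} [LinearOrderedCommGroupWithZero Γ₀]
  {v : Valuation K Γ₀} {a b α : K} {p : ℕ} {ξ : K}

/-- `v b < v p`. -/
theorem vb_lt_vp (H : Hyp v a b α p ξ) : v b < v (p : K) := by
  refine lt_of_le_of_lt H.hbp ?_
  have h1 : v (p : K) ^ p ≤ v (p : K) ^ (p - 1) :=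
    pow_le_pow_right_of_le_one' H.hvp.le (Nat.sub_le p 1)
  exact lt_of_le_of_lt h1 H.vp_pow_lt

/-- an endomorphism fixing `ξ` fixes all `p`-th roots of unity. -/
theorem map_root_eq (H : Hyp v a b α p ξ) (σ : K →+* K) (hσξ : σ ξ = ξ) {ζ : K}
    (hζ : ζ ^ p = 1) : σ ζ = ζ := by
  have : NeZero p := ⟨H.hp.ne_zero⟩
  obtain ⟨k, -, rfl⟩ := H.hξ.eq_pow_of_pow_eq_one hζ
  rw [map_pow, hσξ]

/-- The root of unity attached to a `p`-torsion point of `E₀`. -/
theorem exists_zeta_ne (H : Hyp v a b α p ξ) {T : (Wab a b).toAffine.Point} (hT : InE0 v T)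
    (hpT : p • T = 0) :
    ∃ ζ : K, ζ ^ p = 1 ∧ v (uc α T - ζ) < v (p : K) ∧ (T ≠ 0 → ζ ≠ 1) := by
  obtain ⟨ζ, hζ, hlt⟩ := H.exists_zeta hT hpT
  refine ⟨ζ, hζ, hlt, ?_⟩
  intro hT0 h1
  rcases T with _ | ⟨x, y, h⟩
  · exact hT0 rfl
  · have := H.val_uc_sub_one_of_torsion h hT hpT
    rw [h1, this] at hlt
    exact absurd (hlt.trans H.vp_lt_lam) (lt_irrefl _)

section Main

variable (H : Hyp v a b α p ξ) {Q T : (Wab a b).toAffine.Point} (hQ : InE0 v Q) (hT : InE0 v T)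
  (hpT : p • T = 0) (σ : K →+* K) (hσv : ∀ x, v (σ x) = v x) (hσξ : σ ξ = ξ)
  (hσU : σ (uc α Q) = uc α (Q + T)) {ω : K} (hω : v ω = 1) (hσω : σ ω = ω)

include H hQ hT hpT hσU

/-- `σ (u Q) ≡ u Q * ζ_T`. -/
theorem val_map_uc_sub {ζ : K} (hζT : v (uc α T - ζ) < v (p : K)) :
    v (σ (uc α Q) - uc α Q * ζ) < v (p : K) := by
  have e : σ (uc α Q) - uc α Q * ζ =
      (uc α (Q + T) - uc α Q * uc α T) + uc α Q * (uc α T - ζ) := by
    rw [hσU]; ring
  rw [e]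
  refine lt_of_le_of_lt (v.map_add _ _) (max_lt ?_ ?_)
  · exact lt_of_le_of_lt (uc_add H.hα H.hαv H.hb H.hb0 hQ hT) (vb_lt_vp H)
  · rw [map_mul, val_uc H.hα H.hαv H.hb hQ, one_mul]; exact hζT

include hσv hσξ hω hσω

/-- **The split case**: `σ` does not move `Q`. -/
theorem split (hX : v ((uc α Q / ω) ^ p - 1) < v (1 - ξ) ^ p) : T = 0 := by
  by_contra hT0
  obtain ⟨ζT, hζT, hltT, hne⟩ := exists_zeta_ne H hT hpT
  have hζT1 : ζT ≠ 1 := hne hT0
  obtain ⟨ζX, hζX, hltX, -⟩ := exists_root_near v H.hp H.hξ hX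
  have hω0 : ω ≠ 0 := (Valuation.ne_zero_iff v).mp (by rw [hω]; exact one_ne_zero)
  have hvU : v (uc α Q) = 1 := val_uc H.hα H.hαv H.hb hQ
  have hvζX : v ζX = 1 := val_eq_one_of_pow_eq_one v H.hp.ne_zero hζX
  have hvζT : v ζT = 1 := val_eq_one_of_pow_eq_one v H.hp.ne_zero hζT
  -- `σ X ≡ ζX`
  have h1 : v (σ (uc α Q) / ω - ζX) < v (1 - ξ) := by
    have e : σ (uc α Q) / ω - ζX = σ (uc α Q / ω - ζX) := by
      rw [map_sub, map_div₀, hσω, map_root_eq H σ hσξ hζX]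
    rw [e, hσv]; exact hltX
  -- `σ X ≡ X ζT`
  have h2 : v (σ (uc α Q) / ω - uc α Q / ω * ζT) < v (1 - ξ) := by
    have e : σ (uc α Q) / ω - uc α Q / ω * ζT = (σ (uc α Q) - uc α Q * ζT) / ω := by
      field_simp
    rw [e, map_div₀, hω, div_one]
    exact (val_map_uc_sub H hQ hT hpT σ hσU hltT).trans H.vp_lt_lam
  -- `X ζT ≡ ζX ζT`
  have h3 : v ((uc α Q / ω - ζX) * ζT) < v (1 - ξ) := by
    rw [map_mul, hvζT, mul_one]; exact hltX
  have e : ζX - ζX * ζT =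
      -(σ (uc α Q) / ω - ζX) + (σ (uc α Q) / ω - uc α Q / ω * ζT) +
        (uc α Q / ω - ζX) * ζT := by ring
  have h4 : v (ζX - ζX * ζT) < v (1 - ξ) := by
    rw [e]
    refine lt_of_le_of_lt (v.map_add _ _) (max_lt (lt_of_le_of_lt (v.map_add _ _)
      (max_lt ?_ h2)) h3)
    rw [Valuation.map_neg]; exact h1
  have hne' : ζX ≠ ζX * ζT := by
    intro h
    apply hζT1
    have hζX0 : ζX ≠ 0 := (Valuation.ne_zero_iff v).mp (by rw [hvζX]; exact one_ne_zero)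
    have : ζX * 1 = ζX * ζT := by rw [mul_one]; exact h
    exact (mul_left_cancel₀ hζX0 this).symm
  have h5 := val_sub_of_ne v H.hp H.hξ hζX (by rw [mul_pow, hζX, hζT, one_mul]) hne'
  rw [h5] at h4
  exact lt_irrefl _ h4

/-- **The non-split case**: the uniformiser `ϖ = (1 - ξ) / (X - 1)` is moved by exactly `ϖ²`. -/
theorem nonsplit (hX : v ((uc α Q / ω) ^ p - 1) = v (p : K)) (hT0 : T ≠ 0) :
    v (σ ((1 - ξ) / (uc α Q / ω - 1)) - (1 - ξ) / (uc α Q / ω - 1)) =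
      v ((1 - ξ) / (uc α Q / ω - 1)) ^ 2 := by
  obtain ⟨ζT, hζT, hltT, hne⟩ := exists_zeta_ne H hT hpT
  have hζT1 : ζT ≠ 1 := hne hT0
  obtain ⟨hpow, hlam, -⟩ := val_sub_one_of_val_pow_sub_one_eq v H.hp H.hξ H.hvp hX
  have hω0 : ω ≠ 0 := (Valuation.ne_zero_iff v).mp (by rw [hω]; exact one_ne_zero)
  have hvU : v (uc α Q) = 1 := val_uc H.hα H.hαv H.hb hQ
  have hl0 : v (1 - ξ) ≠ 0 := lam_ne_zero v H.hp H.hξ
  set X := uc α Q / ω with hXdef
  have hvX : v X = 1 := by rw [hXdef, map_div₀, hvU, hω, div_one]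
  have hX1 : X - 1 ≠ 0 := by
    intro h
    rw [h, map_zero] at hlam
    exact absurd hlam (not_lt.mpr zero_le)
  have hσX : σ X = σ (uc α Q) / ω := by rw [hXdef, map_div₀, hσω]
  have hσX1 : σ X - 1 ≠ 0 := by
    intro h
    have : σ (X - 1) = 0 := by rw [map_sub, map_one]; exact h
    have h0 : v (σ (X - 1)) = 0 := by rw [this, map_zero]
    rw [hσv] at h0
    exact hX1 ((Valuation.zero_iff v).mp h0)
  have hvσX1 : v (σ X - 1) = v (X - 1) := by
    have : σ X - 1 = σ (X - 1) := by rw [map_sub, map_one]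
    rw [this, hσv]
  -- `v (X - σ X) = lam`
  have h2 : v (σ X - X * ζT) < v (1 - ξ) := by
    have e : σ X - X * ζT = (σ (uc α Q) - uc α Q * ζT) / ω := by
      rw [hσX, hXdef]; field_simp
    rw [e, map_div₀, hω, div_one]
    exact (val_map_uc_sub H hQ hT hpT σ hσU hltT).trans H.vp_lt_lam
  have h3 : v (X * (1 - ζT)) = v (1 - ξ) := by
    rw [map_mul, hvX, one_mul]
    exact val_sub_of_ne v H.hp H.hξ (one_pow p) hζT (Ne.symm hζT1)
  have h4 : v (X - σ X) = v (1 - ξ) := by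
    have e : X - σ X = X * (1 - ζT) + -(σ X - X * ζT) := by ring
    rw [e, ← h3]
    apply Valuation.map_add_eq_of_lt_left
    rw [Valuation.map_neg, h3]; exact h2
  have e : σ ((1 - ξ) / (X - 1)) - (1 - ξ) / (X - 1) =
      (1 - ξ) * (X - σ X) / ((σ X - 1) * (X - 1)) := by
    rw [map_div₀, map_sub, map_sub, map_one, hσξ]
    field_simp
    ring
  rw [e, map_div₀, map_mul, map_mul, h4, hvσX1, map_div₀, div_pow, pow_two, pow_two]

omit hT hpT hσU hσv hσξ hσω in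
/-- Valuation of the uniformiser. -/
theorem val_varpi (hX : v ((uc α Q / ω) ^ p - 1) = v (p : K)) :
    v ((1 - ξ) / (uc α Q / ω - 1)) ^ p = v (1 - ξ) ∧
      v ((1 - ξ) / (uc α Q / ω - 1)) ^ (p * (p - 1)) = v (p : K) ∧
      v ((1 - ξ) / (uc α Q / ω - 1)) < 1 := by
  obtain ⟨hpow, hlam, -⟩ := val_sub_one_of_val_pow_sub_one_eq v H.hp H.hξ H.hvp hX
  have hp0 : v (p : K) ≠ 0 := H.vp_ne_zero
  have h1 : v ((1 - ξ) / (uc α Q / ω - 1)) ^ p = v (1 - ξ) := by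
    rw [map_div₀, div_pow, hpow, lam_pow_p v H.hp H.hξ, mul_div_assoc, div_self hp0, mul_one]
  refine ⟨h1, ?_, ?_⟩
  · rw [pow_mul, h1, lam_pow v H.hp H.hξ]
  · rw [map_div₀]
    have hpos : 0 < v (uc α Q / ω - 1) := lt_of_le_of_lt zero_le hlam
    exact (div_lt_one₀ hpos).mpr hlam

end Main

end Fermat.Agent.M1.ES.Kummer8
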