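/-
M1 (row 38, S44), chapter ES (helper20): **two Newton-polygon facts without Newton polygons**.

`K` a valued field, `f : K[X]` a split polynomial with integral coefficients, one of which is a
unit.
* `exists_root_lt_one`  : if the constant coefficient is a non-unit, `f` has a root `r` with
  `v r < 1`;
* `exists_root_one_lt`  : if the leading coefficient is a non-unit, `f` has a root `r` with
  `1 < v r`.
-/
import Mathlib

set_option autoImplicit false

open Polynomial

namespace Fermat.Agent.M1.ES.NewtonRoot20

variable {K : Type*} [Field K] {Γ₀ : Type*} [LinearOrderedCommGroupWithZero Γ₀]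
  (v : Valuation K Γ₀)

theorem coeff_X_sub_C_mul' (r : K) (p : K[X]) (i : ℕ) :
    ((X - C r) * p).coeff (i + 1) = p.coeff i - r * p.coeff (i + 1) := by
  rw [sub_mul, coeff_sub, coeff_X_mul, coeff_C_mul]

theorem coeff_X_sub_C_mul_zero (r : K) (p : K[X]) :
    ((X - C r) * p).coeff 0 = -(r * p.coeff 0) := by
  rw [sub_mul, coeff_sub, coeff_X_mul_zero, coeff_C_mul, zero_sub]

/-- a product of `X - r`, `v r ≤ 1`, has integral coefficients. -/
theorem val_coeff_prod_le_one (s : Multiset K) (hs : ∀ r ∈ s, v r ≤ 1) (i : ℕ) :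
    v ((s.map (fun a => X - C a)).prod.coeff i) ≤ 1 := by
  induction s using Multiset.induction_on generalizing i with
  | empty =>
    simp only [Multiset.map_zero, Multiset.prod_zero, coeff_one]
    split_ifs <;> simp
  | cons a s ih =>
    have ha : v a ≤ 1 := hs a (Multiset.mem_cons_self a s)
    have ih' := ih fun r hr => hs r (Multiset.mem_cons_of_mem hr)
    rw [Multiset.map_cons, Multiset.prod_cons]
    rcases i with _ | i
    · rw [coeff_X_sub_C_mul_zero, Valuation.map_neg, map_mul]
      exact mul_le_one' ha (ih' 0)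
    · rw [coeff_X_sub_C_mul']
      refine le_trans (Valuation.map_sub _ _ _) (max_le (ih' i) ?_)
      rw [map_mul]
      exact mul_le_one' ha (ih' (i + 1))

/-- a product of `X - r`, `1 ≤ v r`: every coefficient is dominated by the constant one. -/
theorem val_coeff_prod_le_coeff_zero (s : Multiset K) (hs : ∀ r ∈ s, 1 ≤ v r) (i : ℕ) :
    v ((s.map (fun a => X - C a)).prod.coeff i) ≤ v ((s.map (fun a => X - C a)).prod.coeff 0) := by
  induction s using Multiset.induction_on generalizing i with
  | empty =>
    simp only [Multiset.map_zero, Multiset.prod_zero, coeff_one]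
    split_ifs <;> simp
  | cons a s ih =>
    have ha : 1 ≤ v a := hs a (Multiset.mem_cons_self a s)
    have ih' := ih fun r hr => hs r (Multiset.mem_cons_of_mem hr)
    rw [Multiset.map_cons, Multiset.prod_cons]
    set p := (s.map (fun a => X - C a)).prod with hp
    have h0 : v (((X - C a) * p).coeff 0) = v a * v (p.coeff 0) := by
      rw [coeff_X_sub_C_mul_zero, Valuation.map_neg, map_mul]
    have hle : v (p.coeff 0) ≤ v a * v (p.coeff 0) := by
      calc v (p.coeff 0) = 1 * v (p.coeff 0) := (one_mul _).symm
        _ ≤ v a * v (p.coeff 0) := mul_le_mul' ha le_rfl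
    rcases i with _ | i
    · exact le_rfl
    · rw [h0, coeff_X_sub_C_mul']
      refine le_trans (Valuation.map_sub _ _ _) (max_le ((ih' i).trans hle) ?_)
      rw [map_mul]
      exact mul_le_mul' le_rfl (ih' (i + 1))

variable {v}

/-- **A root in the open unit disc.** -/
theorem exists_root_lt_one {f : K[X]} (hf : f.Splits) {j : ℕ} (hj : v (f.coeff j) = 1)
    (h0 : v (f.coeff 0) < 1) : ∃ r : K, f.eval r = 0 ∧ v r < 1 := by
  by_contra hcon
  push Not at hcon
  have hroots : ∀ r ∈ f.roots, 1 ≤ v r := fun r hr => hcon r ((mem_roots'.mp hr).2)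
  have hfe := hf.eq_prod_roots
  have key : ∀ i, v (f.coeff i) ≤ v (f.coeff 0) := by
    intro i
    rw [hfe, coeff_C_mul, coeff_C_mul, map_mul, map_mul]
    exact mul_le_mul' le_rfl (val_coeff_prod_le_coeff_zero v f.roots hroots i)
  have := key j
  rw [hj] at this
  exact absurd (lt_of_le_of_lt this h0) (lt_irrefl _)

/-- **A root outside the closed unit disc.** -/
theorem exists_root_one_lt {f : K[X]} (hf : f.Splits) {j : ℕ} (hj : v (f.coeff j) = 1)
    (hlc : v f.leadingCoeff < 1) : ∃ r : K, f.eval r = 0 ∧ 1 < v r := by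
  by_contra hcon
  push Not at hcon
  have hroots : ∀ r ∈ f.roots, v r ≤ 1 := fun r hr => hcon r ((mem_roots'.mp hr).2)
  have hfe := hf.eq_prod_roots
  have key : ∀ i, v (f.coeff i) ≤ v f.leadingCoeff := by
    intro i
    rw [hfe, coeff_C_mul, map_mul, ← hfe]
    calc v f.leadingCoeff * v ((f.roots.map (fun a => X - C a)).prod.coeff i)
        ≤ v f.leadingCoeff * 1 := mul_le_mul' le_rfl (val_coeff_prod_le_one v f.roots hroots i)
      _ = v f.leadingCoeff := mul_one _
  have := key j
  rw [hj] at this
  exact absurd (lt_of_le_of_lt this hlc) (lt_irrefl _)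

/-- a polynomial with integral coefficients taking a unit value at an integral point has a unit
coefficient. -/
theorem exists_coeff_val_eq_one {f : K[X]} (hint : ∀ i, v (f.coeff i) ≤ 1) {x : K}
    (hx : v x ≤ 1) (hfx : v (f.eval x) = 1) : ∃ j, v (f.coeff j) = 1 := by
  by_contra hcon
  push Not at hcon
  have hlt : ∀ i, v (f.coeff i) < 1 := fun i => lt_of_le_of_ne (hint i) (hcon i)
  have : v (f.eval x) < 1 := by
    rw [eval_eq_sum_range]
    apply Valuation.map_sum_lt v one_ne_zero
    intro i _
    rw [map_mul, map_pow]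
    calc v (f.coeff i) * v x ^ i ≤ v (f.coeff i) * 1 :=
          mul_le_mul' le_rfl (pow_le_one₀ zero_le hx)
      _ = v (f.coeff i) := mul_one _
      _ < 1 := hlt i
  rw [hfx] at this
  exact lt_irrefl _ this

end Fermat.Agent.M1.ES.NewtonRoot20
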