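/-
M1 / chapter ES (helper73): the position analysis for the weak (E2) "peu ramifié" statement.

Model curve `Wab a b : Y² = X³ + aX² + bX` over a valued field `(K, v)` with `v 2 = 1`, `v a = 1`,
`v b < 1`, `b ≠ 0`, `v b = v h₀ ^ p`, `p` odd.  Let `P₀ = (x, y)` be a `p`-torsion point outside
the kernel of reduction `E₁`, and `P₁ = (x₁, y₁)`, `P₂ = (x₂, y₂)` (think `P₁ = g P₀`,
`P₂ = g² P₀`) with `P₁ - P₀ = P₂ - P₁ = Q ∈ E₁`, `Q ≠ 0`, `v x₁ = v x`, `v y₁ = v y`.
Then there is `c ≠ 0` in any subfield `F` containing `b` and `h₀` such that either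
`t = x / c` or `t = c / x` is a unit and `v (t₂ - t) = v (z(Q))` for the corresponding
`t₂ = x₂ / c` resp. `c / x₂`.
-/
import Fermat.Agent.M1.ES.AddSub73
import Fermat.Agent.S05.Mult
import Fermat.Agent.S05.Components

set_option autoImplicit false
set_option linter.unusedSectionVars false

namespace Fermat.Agent.M1.ES.Position73

open WeierstrassCurve WeierstrassCurve.Affine
open Fermat.Agent.S05 Fermat.Agent.S05.Mult Fermat.Agent.M1.ES.AddSub73

variable {K : Type*} [Field K] [DecidableEq K] {Γ₀ : Type*} [LinearOrderedCommGroupWithZero Γ₀]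
  (v : Valuation K Γ₀) {a b : K}

/-- `E₁` is closed under natural multiples. -/
theorem inE1_nsmul (ha : v a ≤ 1) (hb : v b ≤ 1) {P : (Wab a b).toAffine.Point}
    (hP : InE1 v P) (n : ℕ) : InE1 v (n • P) := by
  have hW := KernelContract.integralCoeffs_Wab v ha hb
  exact (KernelContract.inE1_iff v _).mp
    ((Kernel.E1 v _ hW).nsmul_mem ((KernelContract.inE1_iff v P).mpr hP) n)

/-- If `p` is odd, `p • P = 0` and `2 • P ∈ E₁` then `P ∈ E₁`. -/
theorem inE1_of_odd_nsmul (ha : v a ≤ 1) (hb : v b ≤ 1) {p : ℕ} (hp : Odd p)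
    {P : (Wab a b).toAffine.Point} (hpP : p • P = 0) (h2P : InE1 v (2 • P)) : InE1 v P := by
  obtain ⟨m, rfl⟩ := hp
  have e : P = -(m • (2 • P)) := by
    have h1 : (2 * m + 1) • P = m • (2 • P) + P := by
      rw [add_smul, one_smul, mul_comm, mul_smul]
    rw [h1] at hpP
    exact eq_neg_of_add_eq_zero_right hpP
  rw [e]
  exact KernelContract.inE1_neg v _ (inE1_nsmul v ha hb h2P m)

/-- A point with unit `x`-coordinate and non-unit `y`-coordinate doubles into `E₁`. -/
theorem two_nsmul_inE1 (h2 : v 2 = 1) (hb : v b < 1) {x y : K}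
    (h : (Wab a b).toAffine.Nonsingular x y) (hx : v x = 1) (hy : v y < 1) :
    InE1 v (2 • Point.some x y h) := by
  have hx0 : x ≠ 0 := by rintro rfl; simp at hx
  have h20 : (2 : K) ≠ 0 := by rintro h0; rw [h0, map_zero] at h2; exact zero_ne_one h2
  by_cases hy0 : y = 0
  · subst hy0
    have : (2 : ℕ) • Point.some x 0 h = 0 := by
      rw [two_nsmul]
      exact Point.add_of_Y_eq rfl (by simp)
    rw [this]; trivial
  · obtain ⟨h', e⟩ := some_eq_xs h hx0
    set s := y / x with hs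
    have hs0 : s ≠ 0 := div_ne_zero hy0 hx0
    have hvs : v s = v y := by rw [hs, map_div₀, hx, div_one]
    have hS : s + s ≠ 0 := by rw [← two_mul]; exact mul_ne_zero h20 hs0
    have hb' : x * x ≠ b := by
      intro hxb
      have : v (x * x) = 1 := by rw [map_mul, hx, mul_one]
      rw [hxb] at this
      rw [this] at hb; exact lt_irrefl _ hb
    obtain ⟨h₃, e₃⟩ := add_xs h' h' hx0 hx0 hS hb'
    rw [two_nsmul, e, e₃, InE1_some]
    have hnum : v (x * x - b) = 1 := by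
      have := val_sq_sub_eq_one (v := v) hx hb
      rwa [pow_two] at this
    have hvs0 : v s ≠ 0 := (Valuation.ne_zero_iff v).mpr hs0
    have hden : v (x * x * (s + s) ^ 2) = v s ^ 2 := by
      rw [map_mul, map_mul, hx, one_mul, one_mul, map_pow, ← two_mul, map_mul, h2, one_mul]
    rw [addXs, map_div₀, map_pow, hnum, one_pow, hden, one_lt_div₀ (pow_pos (zero_lt_iff.mpr hvs0) 2)]
    rw [hvs]
    exact pow_lt_one₀ zero_le hy (by norm_num)

/-- If `2 • R ∉ E₁` and `1 ≤ v x(R)` then both coordinates of `R` are units. -/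
theorem unit_coords_of_two_nsmul_not_inE1 (h2 : v 2 = 1) (ha : v a ≤ 1) (hb : v b < 1)
    {x y : K} (h : (Wab a b).toAffine.Nonsingular x y) (hx : 1 ≤ v x)
    (h2R : ¬ InE1 v (2 • Point.some x y h)) : v x = 1 ∧ v y = 1 := by
  rcases lt_or_eq_of_le hx with hgt | heq
  · exact absurd (inE1_nsmul v ha hb.le (P := Point.some x y h) hgt 2) h2R
  · refine ⟨heq.symm, ?_⟩
    have hy1 : v y ≤ 1 := by
      apply val_le_one_of_sq
      rw [((Wab_nonsingular_iff _ _).1 h).1]
      have hx1 : v x ≤ 1 := heq.symm.le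
      refine v.map_add_le (v.map_add_le ?_ ?_) ?_
      · rw [map_pow]; exact pow_le_one₀ zero_le hx1
      · rw [map_mul, map_pow]; exact mul_le_one₀ ha zero_le (pow_le_one₀ zero_le hx1)
      · rw [map_mul]; exact mul_le_one₀ hb.le zero_le hx1
    rcases lt_or_eq_of_le hy1 with hlt | heq'
    · exact absurd (two_nsmul_inE1 v h2 hb h heq.symm hlt) h2R
    · exact heq'

/-- **Core lemma**: if `P₁ - P₀ = P₂ - P₁ = Q ∈ E₁ ∖ {0}` and `P₁` has integral `x`-coordinate
then `v (x₂ - x₀) = v y₁ * v (z(Q))`. -/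
theorem val_sub_of_sub_eq (h2 : v 2 = 1) (ha : v a ≤ 1) (hb : v b ≤ 1)
    {x y x₁ y₁ x₂ y₂ : K} (h : (Wab a b).toAffine.Nonsingular x y)
    (h₁ : (Wab a b).toAffine.Nonsingular x₁ y₁) (h₂ : (Wab a b).toAffine.Nonsingular x₂ y₂)
    {Q : (Wab a b).toAffine.Point} (hQ : InE1 v Q) (hQ0 : Q ≠ 0)
    (e1 : Point.some x₁ y₁ h₁ - Point.some x y h = Q)
    (e2 : Point.some x₂ y₂ h₂ - Point.some x₁ y₁ h₁ = Q) (hx₁ : v x₁ ≤ 1) :
    v (x₂ - x) = v y₁ * v (Kernel.zc Q) := by
  rcases Q with _ | ⟨xQ, yQ, hQ'⟩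
  · exact absurd rfl hQ0
  · have hxQ : 1 < v xQ := hQ
    obtain ⟨X, Y, X', Y', hh, hh', f1, f2, f3⟩ := val_add_sub_X v h2 ha hb h₁ hQ' hx₁ hxQ
    have g1 : Point.some x₂ y₂ h₂ = Point.some X Y hh := by
      rw [← f1, ← e2]; abel
    have g2 : Point.some x y h = Point.some X' Y' hh' := by
      rw [← f2, ← e1]; abel
    rw [Point.some.injEq] at g1 g2
    rw [g1.1, g2.1, f3, Kernel.zc_some]

/-- `2 • T0 = 0` in the form used below. -/
theorem two_nsmul_add_T0 (hb0 : b ≠ 0) (P : (Wab a b).toAffine.Point) :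
    2 • (P + T0 hb0) = 2 • P := by
  rw [smul_add, two_nsmul (T0 hb0), T0_add_T0, add_zero]

/-- **Position analysis.**  See the header of this file. -/
theorem exists_param (h2 : v 2 = 1) (ha : v a = 1) (hb : v b < 1) (hb0 : b ≠ 0) (α : K)
    (hα : α ^ 2 = a) (F : Subfield K) (hbF : b ∈ F) (h₀ : K) (hhF : h₀ ∈ F)
    {p : ℕ} (hp : Odd p) (hbh : v b = v h₀ ^ p)
    {x y x₁ y₁ x₂ y₂ : K} (h : (Wab a b).toAffine.Nonsingular x y)
    (h₁ : (Wab a b).toAffine.Nonsingular x₁ y₁) (h₂ : (Wab a b).toAffine.Nonsingular x₂ y₂)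
    (hvx₁ : v x₁ = v x) (hvy₁ : v y₁ = v y) (hvx₂ : v x₂ = v x)
    (ht : p • Point.some x y h = 0) (hx : v x ≤ 1)
    {Q : (Wab a b).toAffine.Point} (hQ : InE1 v Q) (hQ0 : Q ≠ 0)
    (e1 : Point.some x₁ y₁ h₁ - Point.some x y h = Q)
    (e2 : Point.some x₂ y₂ h₂ - Point.some x₁ y₁ h₁ = Q) :
    ∃ c ∈ F, c ≠ 0 ∧ ((v (x / c) = 1 ∧ v (x₂ / c - x / c) = v (Kernel.zc Q)) ∨
      (x ≠ 0 ∧ x₂ ≠ 0 ∧ v (c / x) = 1 ∧ v (c / x₂ - c / x) = v (Kernel.zc Q))) := by
  have hale : v a ≤ 1 := le_of_eq ha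
  have hble : v b ≤ 1 := le_of_lt hb
  have hαv : v α = 1 := val_eq_one_of_sq (by rw [hα]; exact ha)
  have hp0 : p ≠ 0 := by rintro rfl; simp at hp
  have hP0 : ¬ InE1 v (Point.some x y h) := by rw [InE1_some]; exact not_lt.mpr hx
  have h2P0 : ¬ InE1 v (2 • Point.some x y h) :=
    fun h' => hP0 (inE1_of_odd_nsmul v hale hble hp ht h')
  rcases lt_or_eq_of_le hx with hlt | heq
  · -- `v x < 1`
    by_cases hx0 : x = 0
    · -- the point `T0` is excluded: `2 • T0 = 0 ∈ E₁`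
      exfalso
      subst hx0
      have hy0 : y = 0 := by
        have h1 := ((Wab_nonsingular_iff _ _).1 h).1
        have : y ^ 2 = 0 := by rw [h1]; ring
        exact pow_eq_zero_iff (by norm_num) |>.mp this
      subst hy0
      apply h2P0
      have : (2 : ℕ) • Point.some (0 : K) 0 h = 0 := by
        rw [two_nsmul]; exact Point.add_of_Y_eq rfl (by simp)
      rw [this]; trivial
    · have hvx0 : v x ≠ 0 := (Valuation.ne_zero_iff v).mpr hx0
      have hx₁0 : x₁ ≠ 0 := by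
        rw [← Valuation.ne_zero_iff v, hvx₁]; exact hvx0
      have hx₂0 : x₂ ≠ 0 := by
        rw [← Valuation.ne_zero_iff v, hvx₂]; exact hvx0
      obtain ⟨hP, eP⟩ := some_eq_xs h hx0
      obtain ⟨hP₁, eP₁⟩ := some_eq_xs h₁ hx₁0
      obtain ⟨hP₂, eP₂⟩ := some_eq_xs h₂ hx₂0
      have es := s_sq hP hx0
      by_cases hfar : v x ≤ v b
      · -- far points: translate by `T0`
        have hxpos : 0 < v x := zero_lt_iff.mpr hvx0
        have hbx : 1 ≤ v (b / x) := by
          rw [map_div₀]; exact (one_le_div₀ hxpos).mpr hfar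
        obtain ⟨hR, eR⟩ := add_T0_xs hb0 hP hx0
        obtain ⟨hR₁, eR₁⟩ := add_T0_xs hb0 hP₁ hx₁0
        obtain ⟨hR₂, eR₂⟩ := add_T0_xs hb0 hP₂ hx₂0
        have f1 : Point.some _ _ hR₁ - Point.some _ _ hR = Q := by
          rw [← eR, ← eR₁, ← eP, ← eP₁, ← e1]; abel
        have f2 : Point.some _ _ hR₂ - Point.some _ _ hR₁ = Q := by
          rw [← eR₁, ← eR₂, ← eP₁, ← eP₂, ← e2]; abel
        have h2R : ¬ InE1 v (2 • Point.some _ _ hR) := by
          rw [← eR, ← eP, two_nsmul_add_T0]; exact h2P0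
        obtain ⟨u1, u2⟩ := unit_coords_of_two_nsmul_not_inE1 v h2 hale hb hR hbx h2R
        have hbx₁ : v (b / x₁) = 1 := by rw [map_div₀, hvx₁, ← map_div₀]; exact u1
        have hy₁ : v (b / x₁ * -(y₁ / x₁)) = 1 := by
          have : v (b / x₁ * -(y₁ / x₁)) = v (b / x * -(y / x)) := by
            simp only [map_mul, map_div₀, Valuation.map_neg, hvx₁, hvy₁]
          rw [this]; exact u2
        have key := val_sub_of_sub_eq v h2 hale hble hR hR₁ hR₂ hQ hQ0 f1 f2 hbx₁.le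
        rw [hy₁, one_mul] at key
        exact ⟨b, hbF, hb0, Or.inr ⟨hx0, hx₂0, u1, key⟩⟩
      · -- on a branch: `v b < v x < 1`
        have hfar' : v b < v x := not_le.mp hfar
        obtain ⟨k, hk⟩ := comp_torsion v h2 hb hb0 α hα hαv h hlt hfar' ht
        have hh0 : h₀ ≠ 0 := by
          rintro rfl
          rw [map_zero, zero_pow hp0] at hbh
          exact hb0 ((Valuation.zero_iff v).mp hbh)
        obtain ⟨c, hc⟩ : ∃ c : K, c = h₀ ^ (2 * k) := ⟨_, rfl⟩
        have hc0 : c ≠ 0 := by rw [hc]; exact zpow_ne_zero _ hh0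
        have hcF : c ∈ F := by rw [hc]; exact zpow_mem hhF _
        have hvc : v x = v c := by
          have e1 : v x ^ p = v c ^ p := by
            rw [hk, hbh, hc, map_zpow₀, ← zpow_natCast (v h₀) p, ← zpow_mul, ← zpow_natCast,
              ← zpow_mul, mul_comm]
          exact (pow_left_inj₀ zero_le zero_le hp0).mp e1
        have hvc0 : v c ≠ 0 := (Valuation.ne_zero_iff v).mpr hc0
        have hxpos : 0 < v x := zero_lt_iff.mpr hvx0
        have hbx : v (b / x) < 1 := by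
          rw [map_div₀]; exact (div_lt_one₀ hxpos).mpr hfar'
        have hs1 : v (y / x) = 1 := by
          apply val_eq_one_of_sq
          have e : (y / x) ^ 2 = a + (x + b / x) := by rw [es]; ring
          rw [e, v.map_add_eq_of_lt_left (show v (x + b / x) < v a by
            rw [ha]; exact v.map_add_lt hlt hbx), ha]
        have hvy : v y = v x := by
          rw [map_div₀, div_eq_one_iff_eq hvx0] at hs1; exact hs1
        have key := val_sub_of_sub_eq v h2 hale hble h h₁ h₂ hQ hQ0 e1 e2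
          (by rw [hvx₁]; exact hx)
        refine ⟨c, hcF, hc0, Or.inl ⟨?_, ?_⟩⟩
        · rw [map_div₀, hvc, div_self hvc0]
        · rw [← sub_div, map_div₀, key, hvy₁, hvy, hvc, mul_comm, mul_div_assoc, div_self hvc0,
            mul_one]
  · -- `v x = 1`
    obtain ⟨-, u2⟩ := unit_coords_of_two_nsmul_not_inE1 v h2 hale hb h heq.symm.le h2P0
    have key := val_sub_of_sub_eq v h2 hale hble h h₁ h₂ hQ hQ0 e1 e2
      (by rw [hvx₁]; exact hx)
    rw [hvy₁, u2, one_mul] at key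
    refine ⟨1, one_mem F, one_ne_zero, Or.inl ⟨?_, ?_⟩⟩
    · rw [div_one]; exact heq
    · rw [div_one, div_one]; exact key

end Fermat.Agent.M1.ES.Position73
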