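/-
M1 / chapter ES (helper73): the SHARP DEPTH of a `p`-torsion point of the kernel of reduction on
which "inertia acts through the cyclotomic character":  `v p ≤ v (z(Q)) ^ (p - 1)`
(i.e. `v (z(Q)) ≥ v (ζ_p - 1)`).

Abstract setting: a Weierstrass curve `W` with integral coefficients over a valued field `(K, v)`,
`v p < 1`, `v n = 1` for `0 < n < p`, `ζ` a primitive `p`-th root of unity, `Q ∈ E₁`, `Q ≠ 0`,
`p • Q = 0`.  A set `S` of ring endomorphisms of `K` such that every `σ ∈ S` satisfies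
`σ ζ = ζ ^ d` and `σ (z (c • Q)) = z ((c * d) • Q)` for some `d` (this is `σ Q = d • Q`), and such
that `S`-fixed elements of the maximal ideal are divisible by `p` ("the `S`-fixed field is
unramified").
-/
import Fermat.Agent.M1.ES.CycloVal73
import Fermat.Agent.S05.Kernel

set_option autoImplicit false
set_option linter.unusedSectionVars false

namespace Fermat.Agent.M1.ES.SharpDepth73

open WeierstrassCurve WeierstrassCurve.Affine Finset
open Fermat.Agent.S05 Fermat.Agent.S05.Kernel Fermat.Agent.M1.ES.CycloVal73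

variable {K : Type*} [Field K] [DecidableEq K] {Γ₀ : Type*} [LinearOrderedCommGroupWithZero Γ₀]
  (v : Valuation K Γ₀) {W : Affine K}

/-- **Weak bound**: `v p ≤ v (z(Q))` for a nonzero `p`-torsion point of `E₁`. -/
theorem val_le_val_zc (hW : IntegralCoeffs v W) {p : ℕ} {Q : W.Point} (hQ : InE1 v Q)
    (hQ0 : Q ≠ 0) (hpQ : p • Q = 0) : v (p : K) ≤ v (zc Q) := by
  have hlt := hQ.zc_lt_one hW
  have hpos := hQ.zc_pos hW hQ0
  obtain ⟨-, h₂⟩ := nsmul_estimate hW hlt hQ le_rfl p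
  rw [hpQ, zc_zero, zero_sub, Valuation.map_neg, map_mul, sq, mul_comm] at h₂
  exact le_of_mul_le_mul_left h₂ hpos

/-- `n • Q` only depends on `n` modulo `p`. -/
theorem mod_nsmul {p : ℕ} {Q : W.Point} (hpQ : p • Q = 0) (n : ℕ) : (n % p) • Q = n • Q := by
  conv_rhs => rw [← Nat.mod_add_div' n p]
  rw [add_smul, mul_smul, hpQ, smul_zero, add_zero]

omit [DecidableEq K] in
/-- `ζ ^ n` only depends on `n` modulo `p`. -/
theorem pow_mod_of_pow_eq_one {p : ℕ} {ζ : K} (hζ : ζ ^ p = 1) (n : ℕ) : ζ ^ (n % p) = ζ ^ n := by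
  conv_rhs => rw [← Nat.mod_add_div n p]
  rw [pow_add, pow_mul, hζ, one_pow, mul_one]

/-- The normalised multiples `U c = z (c • Q) / (1 + ζ + ⋯ + ζ^(c-1))` are all close to `z(Q)`. -/
theorem val_U_sub_le (hW : IntegralCoeffs v W) {p : ℕ} (hvn : ∀ n : ℕ, 0 < n → n < p → v (n : K) = 1)
    {ζ : K} (hζ1 : v ζ = 1) (hw : v (ζ - 1) < 1) {Q : W.Point} (hQ : InE1 v Q)
    {c : ℕ} (hc0 : 0 < c) (hcp : c < p) :
    v (zc (c • Q) / (∑ i ∈ range c, ζ ^ i) - zc Q) ≤ v (zc Q) * max (v (zc Q)) (v (ζ - 1)) := by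
  set z := zc Q with hz
  set g := ∑ i ∈ range c, ζ ^ i with hg
  have hlt := hQ.zc_lt_one hW
  obtain ⟨-, h₂⟩ := nsmul_estimate hW hlt hQ le_rfl c
  have hgc : v (g - (c : K)) ≤ v (ζ - 1) := val_geom_sum_sub_le v hζ1 c
  have hvc : v (c : K) = 1 := hvn c hc0 hcp
  have hvg : v g = 1 := by
    have e : g = (c : K) + (g - c) := by ring
    rw [e, v.map_add_eq_of_lt_left (by rw [hvc]; exact lt_of_le_of_lt hgc hw), hvc]
  have hg0 : g ≠ 0 := by
    rintro h0; rw [h0, map_zero] at hvg; exact zero_ne_one hvg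
  have e : zc (c • Q) / g - z = ((zc (c • Q) - c * z) - (g - c) * z) / g := by
    field_simp; ring
  rw [e, map_div₀, hvg, div_one]
  refine (v.map_sub_le (h₂.trans ?_) ?_)
  · rw [sq]; exact mul_le_mul_right (le_max_left _ _) _
  · rw [map_mul, mul_comm]
    exact mul_le_mul_right (hgc.trans (le_max_right _ _)) _

/-- **Sharp depth.** -/
theorem val_prime_le_pow (hW : IntegralCoeffs v W) {p : ℕ} (hp : p.Prime) (hvp : v (p : K) < 1)
    (hvn : ∀ n : ℕ, 0 < n → n < p → v (n : K) = 1)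
    {ζ : K} (hζ : IsPrimitiveRoot ζ p) {Q : W.Point} (hQ : InE1 v Q) (hQ0 : Q ≠ 0)
    (hpQ : p • Q = 0) (S : Set (K →+* K))
    (hS : ∀ σ ∈ S, ∃ d : ℕ, σ ζ = ζ ^ d ∧ ∀ c : ℕ, σ (zc (c • Q)) = zc ((c * d) • Q))
    (hfix : ∀ s : K, (∀ σ ∈ S, σ s = s) → v s < 1 → v s ≤ v (p : K)) :
    v (p : K) ≤ v (zc Q) ^ (p - 1) := by
  have : Fact p.Prime := ⟨hp⟩
  have hζp : ζ ^ p = 1 := hζ.pow_eq_one
  have hζ1 : v ζ = 1 := val_eq_one_of_pow_eq_one v hp.ne_zero hζp
  have hw1 : v (ζ - 1) < 1 := val_sub_one_lt_one v hp hζ hvp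
  have hw0 : ζ - 1 ≠ 0 := sub_ne_zero.mpr (hζ.ne_one hp.one_lt)
  have hvw0 : v (ζ - 1) ≠ 0 := (Valuation.ne_zero_iff v).mpr hw0
  have hvpw : v (p : K) = v (ζ - 1) ^ (p - 1) := val_prime_eq v hp hζ
  have hlt := hQ.zc_lt_one hW
  have hpos := hQ.zc_pos hW hQ0
  have hweak := val_le_val_zc v hW hQ hQ0 hpQ
  set z := zc Q with hz
  by_contra hcon
  have hcon' : v z ^ (p - 1) < v (ζ - 1) ^ (p - 1) := by rw [← hvpw]; exact not_le.mp hcon
  have hzw : v z < v (ζ - 1) := lt_of_pow_lt_pow_left₀ (p - 1) zero_le hcon'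
  -- the trace-like sum
  let T : ZMod p → K := fun c => zc (c.val • Q) / (ζ ^ c.val - 1)
  set Ssum : K := ∑ u : (ZMod p)ˣ, T (u : ZMod p) with hSsum
  -- invariance
  have hinv : ∀ σ ∈ S, σ Ssum = Ssum := by
    intro σ hσ
    obtain ⟨d, hd1, hd2⟩ := hS σ hσ
    have hdne : (d : ZMod p) ≠ 0 := by
      intro h0
      rw [ZMod.natCast_eq_zero_iff] at h0
      obtain ⟨k, rfl⟩ := h0
      rw [pow_mul, hζp, one_pow] at hd1
      have : σ ζ = σ 1 := by rw [hd1, map_one]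
      exact hζ.ne_one hp.one_lt (σ.injective this)
    set ud : (ZMod p)ˣ := Units.mk0 (d : ZMod p) hdne with hud
    have hT : ∀ c : ZMod p, σ (T c) = T (c * (d : ZMod p)) := by
      intro c
      have hval : (c * (d : ZMod p)).val = (c.val * d) % p := by
        rw [ZMod.val_mul, ZMod.val_natCast, Nat.mul_mod_mod]
      show σ (zc (c.val • Q) / (ζ ^ c.val - 1)) =
        zc ((c * (d : ZMod p)).val • Q) / (ζ ^ (c * (d : ZMod p)).val - 1)
      rw [hval, mod_nsmul hpQ, pow_mod_of_pow_eq_one hζp, map_div₀, hd2, map_sub, map_pow, hd1,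
        map_one, ← pow_mul, mul_comm d]
    rw [hSsum, map_sum]
    rw [← Equiv.sum_comp (Equiv.mulRight ud) (fun u : (ZMod p)ˣ => T (u : ZMod p))]
    refine Finset.sum_congr rfl fun u _ => ?_
    rw [hT]
    simp [hud]
  -- valuation of the sum
  have hTU : ∀ u : (ZMod p)ˣ, T (u : ZMod p) =
      zc ((u : ZMod p).val • Q) / (∑ i ∈ range (u : ZMod p).val, ζ ^ i) / (ζ - 1) := by
    intro u
    show zc ((u : ZMod p).val • Q) / (ζ ^ (u : ZMod p).val - 1) = _
    rw [← geom_sum_mul, div_div]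
  set m := max (v z) (v (ζ - 1)) with hm
  have hm1 : m < 1 := max_lt hlt hw1
  have hU : ∀ u : (ZMod p)ˣ,
      v (zc ((u : ZMod p).val • Q) / (∑ i ∈ range (u : ZMod p).val, ζ ^ i) - z) ≤ v z * m := by
    intro u
    have h0 : 0 < (u : ZMod p).val := by
      rw [Nat.pos_iff_ne_zero, Ne, ZMod.val_eq_zero]; exact u.ne_zero
    exact val_U_sub_le v hW hvn hζ1 hw1 hQ h0 (ZMod.val_lt _)
  have hcard : Fintype.card (ZMod p)ˣ = p - 1 := by
    rw [ZMod.card_units_eq_totient, Nat.totient_prime hp]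
  have hsumU : v (∑ u : (ZMod p)ˣ,
      zc ((u : ZMod p).val • Q) / (∑ i ∈ range (u : ZMod p).val, ζ ^ i)) = v z := by
    have e : ∑ u : (ZMod p)ˣ, zc ((u : ZMod p).val • Q) / (∑ i ∈ range (u : ZMod p).val, ζ ^ i)
        = ((p - 1 : ℕ) : K) * z + ∑ u : (ZMod p)ˣ,
          (zc ((u : ZMod p).val • Q) / (∑ i ∈ range (u : ZMod p).val, ζ ^ i) - z) := by
      rw [Finset.sum_sub_distrib, Finset.sum_const, Finset.card_univ, hcard, nsmul_eq_mul]
      ring
    have hp1 : v (((p - 1 : ℕ) : K)) = 1 :=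
      hvn (p - 1) (Nat.sub_pos_of_lt hp.one_lt) (Nat.sub_lt hp.pos one_pos)
    have hmain : v (((p - 1 : ℕ) : K) * z) = v z := by rw [map_mul, hp1, one_mul]
    have herr : v (∑ u : (ZMod p)ˣ,
        (zc ((u : ZMod p).val • Q) / (∑ i ∈ range (u : ZMod p).val, ζ ^ i) - z)) < v z := by
      refine lt_of_le_of_lt (v.map_sum_le fun u _ => hU u) ?_
      calc v z * m < v z * 1 := by
            exact (mul_lt_mul_iff_right₀ hpos).mpr hm1
        _ = v z := mul_one _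
    rw [e, v.map_add_eq_of_lt_left (by rw [hmain]; exact herr), hmain]
  have hvS : v Ssum = v z / v (ζ - 1) := by
    rw [hSsum, Finset.sum_congr rfl (fun u _ => hTU u), ← Finset.sum_div, map_div₀, hsumU]
  have hS1 : v Ssum < 1 := by
    rw [hvS, div_lt_one₀ (zero_lt_iff.mpr hvw0)]; exact hzw
  have hSp := hfix Ssum hinv hS1
  rw [hvS, div_le_iff₀ (zero_lt_iff.mpr hvw0)] at hSp
  have hvp0 : 0 < v (p : K) := by
    rw [hvpw]; exact pow_pos (zero_lt_iff.mpr hvw0) _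
  have : v z < v (p : K) := by
    calc v z ≤ v (p : K) * v (ζ - 1) := hSp
      _ < v (p : K) * 1 := (mul_lt_mul_iff_right₀ hvp0).mpr hw1
      _ = v (p : K) := mul_one _
  exact absurd hweak (not_le.mpr this)

end Fermat.Agent.M1.ES.SharpDepth73
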