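/-
M1 / chapter ES (helper73): the WEAK form of (E2) "peu ramifié" for the Frey curve at `p ∣ abc`.

Let `A` be a valuation subring of `ℚ̄` over `p = P.p`, `I_A` its inertia group, `V1 ⊆ E[p]` the
`p`-torsion in the kernel of reduction.  Assume inertia acts on `V1` through the mod `p` cyclotomic
character (hypothesis `hχ`; it follows from `det ρ = χ` once `V1` is a line).  Let `g ∈ I_A` fix
the `p`-th roots of unity and let `y ∈ E[p]` with `g • y ≠ y`.  Then there is a UNIT `t` of `A` in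
the field `ℚ(x(y))` such that `v p ≤ v (g t - t) ^ (p - 1)`, i.e. `i_L(g) ≤ e_L / (p - 1)` for
every finite `L ∋ x(y)`: the lower ramification break of `g` is `< e_L / (p - 1)` (not "très
ramifié").
-/
import Mathlib
import Fermat.Agent.S13.FreyE1
import Fermat.Agent.ES.P36.UnrFixed1
import Fermat.Agent.M1.ES.Position73
import Fermat.Agent.M1.ES.SharpDepth73

set_option autoImplicit false
set_option linter.unusedSectionVars false

open WeierstrassCurve WeierstrassCurve.Affine WeierstrassCurve.Affine.Point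

namespace Fermat.Agent.M1.ES.PeuRam73

open Fermat.Agent.S05 Fermat.Agent.S05.FreyTransport Fermat.Agent.S13.FreyE1

local notation "Qbar" => AlgebraicClosure ℚ

variable (P : FreyPackage)

/-- The `z`-coordinate is Galois equivariant. -/
theorem zc_smul (σ : Qbar ≃ₐ[ℚ] Qbar) (R : (P.freyCurve⁄Qbar).Point) :
    Kernel.zc (σ • R) = σ (Kernel.zc R) := by
  rcases R with _ | ⟨x, y, h⟩
  · show Kernel.zc (0 : (P.freyCurve⁄Qbar).Point) = σ (Kernel.zc (0 : (P.freyCurve⁄Qbar).Point))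
    rw [Kernel.zc_zero, _root_.map_zero]
  · have h' : (P.freyCurve⁄Qbar).Nonsingular (σ x) (σ y) :=
      (Affine.baseChange_nonsingular (W := P.freyCurve) (f := σ.toAlgHom)
        σ.toAlgHom.injective x y).mpr h
    have hs : σ • (Point.some x y h : (P.freyCurve⁄Qbar).Point) = Point.some (σ x) (σ y) h' := rfl
    rw [hs, Kernel.zc_some, Kernel.zc_some, map_div₀, map_neg]

section Transport

variable {Γ₀ : Type*} [LinearOrderedCommGroupWithZero Γ₀] (v : Valuation Qbar Γ₀)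

/-- The valuation of the `z`-coordinate of a point of the kernel of reduction is the same on the
Frey curve and on the model `Wab a b`. -/
theorem val_zc_freyEquiv (hW : Kernel.IntegralCoeffs v (P.freyCurve⁄Qbar)) (h2 : v (2 : Qbar) = 1)
    {t a b : Qbar} (ht : t * (t - cA P) * (t + cB P) = 0) (ha : a = 3 * t + cB P - cA P)
    (hb : b = 3 * t ^ 2 + 2 * (cB P - cA P) * t - cA P * cB P) (hvt : v t ≤ 1)
    {R : (P.freyCurve⁄Qbar).Point} (hR : Kernel.InE1 v R) :
    v (Kernel.zc (freyEquiv P ht ha hb R)) = v (Kernel.zc R) := by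
  rcases R with _ | ⟨x, y, h⟩
  · have h0 : freyEquiv P ht ha hb (Point.zero : (P.freyCurve⁄Qbar).Point) = 0 :=
      _root_.map_zero (freyEquiv P ht ha hb)
    rw [h0]
    show v (Kernel.zc (0 : (Wab a b).toAffine.Point)) =
      v (Kernel.zc (0 : (P.freyCurve⁄Qbar).Point))
    rw [Kernel.zc_zero, Kernel.zc_zero]
  · have hx : 1 < v x := (Kernel.inE1_some v h).mp hR
    obtain ⟨h', e⟩ := freyEquiv_some P ht ha hb h
    rw [e, Kernel.zc_some, Kernel.zc_some]
    obtain ⟨hxy, -⟩ := Kernel.vy_of_vx hW h.1 hx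
    have h4 : v (4 : Qbar) = 1 := val_four v h2
    have h8 : v (8 : Qbar) = 1 := by
      have : (8 : Qbar) = 2 * 4 := by norm_num
      rw [this, map_mul, h2, h4, mul_one]
    have e1 : v (4 * x - t) = v x := by
      have h1 : v (4 * x) = v x := by rw [map_mul, h4, one_mul]
      rw [Valuation.map_sub_eq_of_lt_left v (by rw [h1]; exact lt_of_le_of_lt hvt hx), h1]
    have e2 : v (8 * y + 4 * x) = v y := by
      have h1 : v (8 * y) = v y := by rw [map_mul, h8, one_mul]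
      have h1' : v (4 * x) = v x := by rw [map_mul, h4, one_mul]
      rw [Valuation.map_add_eq_of_lt_left v (by rw [h1, h1']; exact hxy), h1]
    rw [map_div₀, map_div₀, Valuation.map_neg, Valuation.map_neg, e1, e2]

end Transport

section Depth

/-- `σ • (c • R) = c • (σ • R)`. -/
theorem smul_nsmul_comm (σ : Qbar ≃ₐ[ℚ] Qbar) (c : ℕ) (R : (P.freyCurve⁄Qbar).Point) :
    σ • (c • R) = c • (σ • R) := by
  have := Point.algEquiv_smul_zsmul σ (c : ℤ) R
  rwa [natCast_zsmul, natCast_zsmul] at this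

/-- **Sharp depth on the Frey curve**: a nonzero point `x` of `V1` on which inertia acts through
the cyclotomic character satisfies `v p ≤ v (z(x)) ^ (p - 1)`. -/
theorem sharp_depth_frey {A : ValuationSubring Qbar} (hA : A.LiesOverPrime P.p)
    (hχ : ∀ σ ∈ A.inertiaSubgroupIn ℚ, ∀ c : ℕ, (∀ ζ : Qbar, ζ ^ P.p = 1 → σ ζ = ζ ^ c) →
      ∀ x ∈ V1 P A, σ • x = c • x)
    {x : Submodule.torsionBy ℤ (P.freyCurve⁄Qbar).Point P.p} (hx : x ∈ V1 P A) (hx0 : x ≠ 0) :
    A.valuation (P.p : Qbar) ≤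
      A.valuation (Kernel.zc (x : (P.freyCurve⁄Qbar).Point)) ^ (P.p - 1) := by
  have hq := P.pp
  have hW := integralCoeffs_frey P A
  have hne : NeZero P.p := ⟨hq.ne_zero⟩
  obtain ⟨ζ, hζ⟩ := HasEnoughRootsOfUnity.exists_primitiveRoot Qbar P.p
  have hvp : A.valuation (P.p : Qbar) < 1 := Inertia.valuation_prime_lt_one hA
  have hvn : ∀ n : ℕ, 0 < n → n < P.p → A.valuation (n : Qbar) = 1 := by
    intro n h0 hn
    apply Inertia.valuation_natCast_eq_one hq hA
    intro hd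
    exact absurd (Nat.le_of_dvd h0 hd) (not_le.mpr hn)
  have hQ : Kernel.InE1 A.valuation (x : (P.freyCurve⁄Qbar).Point) := (mem_V1 P).mp hx
  have hQ0 : (x : (P.freyCurve⁄Qbar).Point) ≠ 0 := fun h0 => hx0 (Subtype.ext h0)
  have hpQ : P.p • (x : (P.freyCurve⁄Qbar).Point) = 0 := nsmul_eq_zero_of_mem P x
  refine SharpDepth73.val_prime_le_pow A.valuation hW hq hvp hvn hζ hQ hQ0 hpQ
    {f | ∃ σ ∈ A.inertiaSubgroupIn ℚ, f = (σ : Qbar →+* Qbar)} ?_ ?_
  · rintro f ⟨σ, hσ, rfl⟩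
    have hσζ : (σ ζ) ^ P.p = 1 := by rw [← map_pow, hζ.pow_eq_one, map_one]
    obtain ⟨d, -, hd⟩ := hζ.eq_pow_of_pow_eq_one hσζ
    have hcyc : ∀ ζ' : Qbar, ζ' ^ P.p = 1 → σ ζ' = ζ' ^ d := by
      intro ζ' hζ'
      obtain ⟨k, -, rfl⟩ := hζ.eq_pow_of_pow_eq_one hζ'
      rw [map_pow, ← hd, ← pow_mul, ← pow_mul, mul_comm]
    have hact := hχ σ hσ d hcyc x hx
    have hact' : σ • (x : (P.freyCurve⁄Qbar).Point) = d • (x : (P.freyCurve⁄Qbar).Point) := by
      have h1 := congrArg Subtype.val hact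
      have h2 : ((d • x : Submodule.torsionBy ℤ (P.freyCurve⁄Qbar).Point P.p) :
          (P.freyCurve⁄Qbar).Point) = d • (x : (P.freyCurve⁄Qbar).Point) := by
        simp
      exact h1.trans h2
    refine ⟨d, hd.symm, fun c => ?_⟩
    show σ (Kernel.zc (c • (x : (P.freyCurve⁄Qbar).Point))) = _
    rw [← zc_smul, smul_nsmul_comm, hact', mul_smul]
  · intro s hs hs1
    have hfix : ∀ τ ∈ A.inertiaSubgroupIn ℚ, τ s = s := fun τ hτ => hs _ ⟨τ, hτ, rfl⟩
    have hmem : s ∈ A.nonunits := (ValuationSubring.mem_nonunits_iff (A := A)).mpr hs1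
    have hdiv := Fermat.Agent.ES.P36.UnrFixed1.div_natCast_mem_of_fixed A hq hA s hfix hmem
    have hle : A.valuation (s / (P.p : Qbar)) ≤ 1 := (ValuationSubring.valuation_le_one_iff A _).mpr hdiv
    have hp0 : A.valuation (P.p : Qbar) ≠ 0 :=
      (Valuation.ne_zero_iff _).mpr (by exact_mod_cast hq.ne_zero)
    rw [map_div₀, div_le_iff₀ (zero_lt_iff.mpr hp0), one_mul] at hle
    exact hle

end Depth

section Main

/-- The prime field `ℚ` inside `ℚ̄`, as a subfield. -/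
noncomputable def ratField : Subfield Qbar := (algebraMap ℚ Qbar).fieldRange

theorem apply_of_mem_ratField (σ : Qbar ≃ₐ[ℚ] Qbar) {c : Qbar} (hc : c ∈ ratField) : σ c = c := by
  obtain ⟨r, rfl⟩ := hc
  exact σ.commutes r

theorem intCast_mem_ratField (n : ℤ) : (n : Qbar) ∈ ratField := intCast_mem _ n

/-- `freyEquiv` of a Galois conjugate, in coordinates. -/
theorem freyEquiv_smul_some (σ : Qbar ≃ₐ[ℚ] Qbar) {t a b : Qbar}
    (ht : t * (t - cA P) * (t + cB P) = 0) (ha : a = 3 * t + cB P - cA P)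
    (hb : b = 3 * t ^ 2 + 2 * (cB P - cA P) * t - cA P * cB P) (hσt : σ t = t)
    {x y : Qbar} (h : (P.freyCurve⁄Qbar).Nonsingular x y) :
    ∃ h₂ : (Wab a b).toAffine.Nonsingular (σ (4 * x - t)) (σ (8 * y + 4 * x)),
      freyEquiv P ht ha hb (σ • (Point.some x y h : (P.freyCurve⁄Qbar).Point)) =
        Point.some _ _ h₂ := by
  have h' : (P.freyCurve⁄Qbar).Nonsingular (σ x) (σ y) :=
    (Affine.baseChange_nonsingular (W := P.freyCurve) (f := σ.toAlgHom)
      σ.toAlgHom.injective x y).mpr h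
  have hs : σ • (Point.some x y h : (P.freyCurve⁄Qbar).Point) = Point.some (σ x) (σ y) h' := rfl
  obtain ⟨h2, e2⟩ := freyEquiv_some P ht ha hb h'
  have hX : 4 * σ x - t = σ (4 * x - t) := by
    rw [map_sub, map_mul, hσt, map_ofNat]
  have hY : 8 * σ y + 4 * σ x = σ (8 * y + 4 * x) := by
    rw [map_add, map_mul, map_mul, map_ofNat, map_ofNat]
  obtain ⟨h3, e3⟩ := some_congr h2 hX hY
  exact ⟨h3, by rw [hs, e2, e3]⟩

/-- `freyEquiv` of a point and of its first two Galois conjugates, in coordinates. -/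
theorem freyEquiv_three (g : Qbar ≃ₐ[ℚ] Qbar) {t a b : Qbar}
    (ht : t * (t - cA P) * (t + cB P) = 0) (ha : a = 3 * t + cB P - cA P)
    (hb : b = 3 * t ^ 2 + 2 * (cB P - cA P) * t - cA P * cB P) (hgt : g t = t)
    {x₀ y₀ : Qbar} (h : (P.freyCurve⁄Qbar).Nonsingular x₀ y₀) :
    ∃ (X Y : Qbar) (h₁ : (Wab a b).toAffine.Nonsingular X Y)
      (h₂ : (Wab a b).toAffine.Nonsingular (g X) (g Y))
      (h₃ : (Wab a b).toAffine.Nonsingular (g (g X)) (g (g Y))),
      X = 4 * x₀ - t ∧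
      freyEquiv P ht ha hb (Point.some x₀ y₀ h : (P.freyCurve⁄Qbar).Point) = Point.some X Y h₁ ∧
      freyEquiv P ht ha hb (g • (Point.some x₀ y₀ h : (P.freyCurve⁄Qbar).Point)) =
        Point.some _ _ h₂ ∧
      freyEquiv P ht ha hb (g • g • (Point.some x₀ y₀ h : (P.freyCurve⁄Qbar).Point)) =
        Point.some _ _ h₃ := by
  obtain ⟨h₁, e₁⟩ := freyEquiv_some P ht ha hb h
  obtain ⟨h₂, e₂⟩ := freyEquiv_smul_some P g ht ha hb hgt h
  have h' : (P.freyCurve⁄Qbar).Nonsingular (g x₀) (g y₀) :=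
    (Affine.baseChange_nonsingular (W := P.freyCurve) (f := g.toAlgHom)
      g.toAlgHom.injective x₀ y₀).mpr h
  have hs : g • (Point.some x₀ y₀ h : (P.freyCurve⁄Qbar).Point) =
      Point.some (g x₀) (g y₀) h' := rfl
  obtain ⟨h₃', e₃'⟩ := freyEquiv_smul_some P g ht ha hb hgt h'
  have hX' : 4 * g x₀ - t = g (4 * x₀ - t) := by rw [map_sub, map_mul, hgt, map_ofNat]
  have hY' : 8 * g y₀ + 4 * g x₀ = g (8 * y₀ + 4 * x₀) := by
    rw [map_add, map_mul, map_mul, map_ofNat, map_ofNat]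
  obtain ⟨h₃, e₃''⟩ := some_congr h₃' (congrArg g hX') (congrArg g hY')
  exact ⟨_, _, h₁, h₂, h₃, rfl, e₁, e₂, by rw [← e₃'', ← e₃', hs]⟩

/-- **Weak (E2) on a model** `Wab a b` of the Frey curve with multiplicative reduction at `A`. -/
theorem peuRam_model {A : ValuationSubring Qbar} (hA : A.LiesOverPrime P.p)
    (hχ : ∀ σ ∈ A.inertiaSubgroupIn ℚ, ∀ c : ℕ, (∀ ζ : Qbar, ζ ^ P.p = 1 → σ ζ = ζ ^ c) →
      ∀ x ∈ V1 P A, σ • x = c • x)
    {t a b h₀ : Qbar} (ht : t * (t - cA P) * (t + cB P) = 0) (ha : a = 3 * t + cB P - cA P)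
    (hb : b = 3 * t ^ 2 + 2 * (cB P - cA P) * t - cA P * cB P)
    (htF : t ∈ ratField) (hbF : b ∈ ratField) (hhF : h₀ ∈ ratField)
    (hvt : A.valuation t ≤ 1) (hva : A.valuation a = 1)
    (hbh : A.valuation b = A.valuation h₀ ^ P.p) (hlt : A.valuation h₀ < 1) (hb0 : b ≠ 0)
    {g : Qbar ≃ₐ[ℚ] Qbar} (hg : g ∈ A.inertiaSubgroupIn ℚ)
    (hg1 : ∀ ζ : Qbar, ζ ^ P.p = 1 → g ζ = ζ ^ 1)
    (y : Submodule.torsionBy ℤ (P.freyCurve⁄Qbar).Point P.p) (hy : g • y ≠ y) :
    ∃ (x₀ y₀ : Qbar) (h : (P.freyCurve⁄Qbar).Nonsingular x₀ y₀) (t' : Qbar),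
      (y : (P.freyCurve⁄Qbar).Point) = Point.some x₀ y₀ h ∧
      t' ∈ IntermediateField.adjoin ℚ {x₀} ∧ A.valuation t' = 1 ∧
      A.valuation (P.p : Qbar) ≤ A.valuation (g t' - t') ^ (P.p - 1) := by
  have hq := P.pp
  have hq2 : P.p ≠ 2 := by have := P.hp5; omega
  have h2 : A.valuation (2 : Qbar) = 1 := Inertia.valuation_two_eq_one hq hA hq2
  have hW := integralCoeffs_frey P A
  set v := A.valuation with hv
  -- the difference `y' = g y - y`
  set y' := g • y - y with hy'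
  have hy'V : y' ∈ V1 P A := close_at_p P hA hg y
  have hy'0 : y' ≠ 0 := sub_ne_zero.mpr hy
  have hgy' : g • y' = y' := by rw [hχ g hg 1 hg1 y' hy'V, one_smul]
  have hyV : y ∉ V1 P A := fun hyV => hy (by rw [hχ g hg 1 hg1 y hyV, one_smul])
  -- coordinates of `y`
  obtain ⟨R, hR⟩ : ∃ R : (P.freyCurve⁄Qbar).Point, R = (y : (P.freyCurve⁄Qbar).Point) := ⟨_, rfl⟩
  have hgR : ((g • y : Submodule.torsionBy ℤ (P.freyCurve⁄Qbar).Point P.p) :
      (P.freyCurve⁄Qbar).Point) = g • R := by rw [hR]; rfl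
  have hy'R : (y' : (P.freyCurve⁄Qbar).Point) = g • R - R := by
    rw [hy', hR]; rfl
  have hgy'R : g • (g • R - R) = g • R - R := by
    have := congrArg Subtype.val hgy'
    rw [← hy'R]; exact this
  have hRV : ¬ Kernel.InE1 v R := fun h => hyV ((mem_V1 P).mpr (by rw [← hR]; exact h))
  have hpR : P.p • R = 0 := by rw [hR]; exact nsmul_eq_zero_of_mem P y
  have hgt : g t = t := apply_of_mem_ratField g htF
  rcases R with _ | ⟨x₀, y₀, h₀'⟩
  · exact absurd (Kernel.inE1_zero v) hRV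
  · obtain ⟨X, Y, h₁, h₂, h₃, hX, e₁, e₂, e₃⟩ := freyEquiv_three P g ht ha hb hgt h₀'
    -- the point `Q`
    obtain ⟨Q, hQdef⟩ : ∃ Q, Q = freyEquiv P ht ha hb
      (g • (Point.some x₀ y₀ h₀' : (P.freyCurve⁄Qbar).Point) - Point.some x₀ y₀ h₀') := ⟨_, rfl⟩
    have hQ : S05.InE1 v Q := by
      rw [hQdef, ← inE1_freyEquiv_iff P v h2 ht ha hb hvt, ← hy'R]
      exact (mem_V1 P).mp hy'V
    have hQ0 : Q ≠ 0 := by
      rw [hQdef]
      intro h0
      rw [map_eq_zero_iff _ (freyEquiv P ht ha hb).injective, ← hy'R] at h0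
      exact hy'0 (Subtype.ext h0)
    have f1 : Point.some (g X) (g Y) h₂ - Point.some X Y h₁ = Q := by
      rw [hQdef, map_sub, e₁, e₂]
    have f2 : Point.some (g (g X)) (g (g Y)) h₃ - Point.some (g X) (g Y) h₂ = Q := by
      rw [← e₃, ← e₂, ← map_sub, ← smul_sub, hgy'R, hQdef]
    have htors : P.p • Point.some X Y h₁ = 0 := by
      rw [← e₁, ← map_nsmul, hpR, _root_.map_zero]
    have hxle : v X ≤ 1 := by
      by_contra hcon
      apply hRV
      rw [inE1_freyEquiv_iff P v h2 ht ha hb hvt, e₁, S05.InE1_some]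
      exact not_le.mp hcon
    have hvg : ∀ z : Qbar, v (g z) = v z := fun z => Inertia.valuation_apply_rat hg z
    have hb' : v b < 1 := by
      rw [hbh]; exact pow_lt_one₀ zero_le hlt P.hp0
    obtain ⟨α, hα⟩ := IsAlgClosed.exists_pow_nat_eq a (n := 2) (by norm_num)
    obtain ⟨c, hcF, hc0, hcase⟩ := Position73.exists_param v h2 hva hb' hb0 α hα ratField hbF h₀
      hhF P.hp_odd hbh h₁ h₂ h₃ (hvg X) (hvg Y) ((hvg (g X)).trans (hvg X)) htors hxle hQ hQ0 f1 f2
    have hgc : g c = c := apply_of_mem_ratField g hcF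
    -- sharp depth
    have hzc : v (Kernel.zc Q) = v (Kernel.zc (y' : (P.freyCurve⁄Qbar).Point)) := by
      rw [hQdef, ← hy'R]
      exact val_zc_freyEquiv P v hW h2 ht ha hb hvt ((mem_V1 P).mp hy'V)
    have hdepth := sharp_depth_frey P hA hχ hy'V hy'0
    rw [← hv, ← hzc] at hdepth
    -- membership in `ℚ(x₀)`
    have hXmem : X ∈ IntermediateField.adjoin ℚ {x₀} := by
      rw [hX]
      refine sub_mem (mul_mem ?_ (IntermediateField.mem_adjoin_simple_self ℚ x₀)) ?_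
      · exact ofNat_mem _ 4
      · obtain ⟨r, rfl⟩ := htF
        exact IntermediateField.algebraMap_mem _ r
    have hcmem : c ∈ IntermediateField.adjoin ℚ {x₀} := by
      obtain ⟨r, rfl⟩ := hcF
      exact IntermediateField.algebraMap_mem _ r
    -- the final inequality
    have hfinal : ∀ t' : Qbar, v (g (g t') - t') = v (Kernel.zc Q) →
        v (P.p : Qbar) ≤ v (g t' - t') ^ (P.p - 1) := by
      intro t' ht'
      refine hdepth.trans (pow_le_pow_left₀ zero_le ?_ _)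
      rw [← ht']
      have e : g (g t') - t' = g (g t' - t') + (g t' - t') := by rw [map_sub]; ring
      rw [e]
      refine (v.map_add _ _).trans ?_
      rw [hvg, max_self]
    rcases hcase with ⟨u1, u2⟩ | ⟨hX0, hgX0, u1, u2⟩
    · refine ⟨x₀, y₀, h₀', X / c, hR.symm, div_mem hXmem hcmem, u1, hfinal _ ?_⟩
      rw [map_div₀, map_div₀, hgc, hgc]; exact u2
    · refine ⟨x₀, y₀, h₀', c / X, hR.symm, div_mem hcmem hXmem, u1, hfinal _ ?_⟩
      rw [map_div₀, map_div₀, hgc, hgc]; exact u2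

/-- **Weak (E2), "peu ramifié"** for the Frey curve at `p ∣ abc`: if `g ∈ I_A` fixes the `p`-th
roots of unity and moves the `p`-torsion point `y`, there is a unit `t'` of `A` in `ℚ(x(y))` with
`v p ≤ v (g t' - t') ^ (p - 1)`. -/
theorem peuRam_weak {A : ValuationSubring Qbar} (hA : A.LiesOverPrime P.p)
    (hmult : (P.p : ℤ) ∣ P.a * P.b * P.c)
    (hχ : ∀ σ ∈ A.inertiaSubgroupIn ℚ, ∀ c : ℕ, (∀ ζ : Qbar, ζ ^ P.p = 1 → σ ζ = ζ ^ c) →
      ∀ x ∈ V1 P A, σ • x = c • x)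
    {g : Qbar ≃ₐ[ℚ] Qbar} (hg : g ∈ A.inertiaSubgroupIn ℚ)
    (hg1 : ∀ ζ : Qbar, ζ ^ P.p = 1 → g ζ = ζ ^ 1)
    (y : Submodule.torsionBy ℤ (P.freyCurve⁄Qbar).Point P.p) (hy : g • y ≠ y) :
    ∃ (x₀ y₀ : Qbar) (h : (P.freyCurve⁄Qbar).Nonsingular x₀ y₀) (t' : Qbar),
      (y : (P.freyCurve⁄Qbar).Point) = Point.some x₀ y₀ h ∧
      t' ∈ IntermediateField.adjoin ℚ {x₀} ∧ A.valuation t' = 1 ∧
      A.valuation (P.p : Qbar) ≤ A.valuation (g t' - t') ^ (P.p - 1) := by
  have hq := P.pp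
  have hv : FreyArith.LiesOver A.valuation P.p :=
    ⟨Inertia.valuation_intCast_le_one, Inertia.valuation_intCast_lt_one_iff hq hA⟩
  have hcA : (cA P : Qbar) = (P.a : Qbar) ^ P.p := rfl
  have hcB : (cB P : Qbar) = (P.b : Qbar) ^ P.p := rfl
  have hmemA : (P.a : Qbar) ^ P.p ∈ ratField := pow_mem (intCast_mem_ratField P.a) _
  have hmemB : (P.b : Qbar) ^ P.p ∈ ratField := pow_mem (intCast_mem_ratField P.b) _
  have hmemC : (P.c : Qbar) ^ P.p ∈ ratField := pow_mem (intCast_mem_ratField P.c) _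
  rcases FreyArith.trichotomy P (q := P.p) with ⟨ha, hb, hc⟩ | hab | hc
  · exfalso
    have hpr : Prime (P.p : ℤ) := Nat.prime_iff_prime_int.mp hq
    rcases hpr.dvd_or_dvd hmult with h1 | h1
    · rcases hpr.dvd_or_dvd h1 with h2 | h2
      · exact ha h2
      · exact hb h2
    · exact hc h1
  · obtain ⟨g1, g2, g3⟩ := FreyArith.mult_ab_val P hv hq hab
    have hb0 : -((P.a : Qbar) ^ P.p * (P.b : Qbar) ^ P.p) ≠ 0 := by
      rw [← mul_pow]
      exact neg_ne_zero.mpr (pow_ne_zero _ (FreyArith.ab_ne_zero P))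
    exact peuRam_model P hA hχ (t := 0)
      (a := (P.b : Qbar) ^ P.p - (P.a : Qbar) ^ P.p)
      (b := -((P.a : Qbar) ^ P.p * (P.b : Qbar) ^ P.p))
      (h₀ := (P.a : Qbar) * (P.b : Qbar)) (by ring) (by rw [hcA, hcB]; ring)
      (by rw [hcA, hcB]; ring) (zero_mem _) (neg_mem (mul_mem hmemA hmemB))
      (mul_mem (intCast_mem_ratField P.a) (intCast_mem_ratField P.b)) (by simp) g1 g2 g3 hb0
      hg hg1 y hy
  · have hcc : (P.c : Qbar) ^ P.p = (P.a : Qbar) ^ P.p + (P.b : Qbar) ^ P.p :=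
      FreyArith.c_pow_eq_cast P
    have hvt : A.valuation ((P.a : Qbar) ^ P.p) ≤ 1 := by
      have := Inertia.valuation_intCast_le_one (A := A) (P.a ^ P.p)
      simpa using this
    obtain ⟨g1, g2, g3⟩ := FreyArith.mult_c_val P hv hq hc
    have hb0 : (P.a : Qbar) ^ P.p * (P.c : Qbar) ^ P.p ≠ 0 := by
      rw [← mul_pow]
      exact pow_ne_zero _ (FreyArith.ac_ne_zero P)
    exact peuRam_model P hA hχ (t := (P.a : Qbar) ^ P.p)
      (a := (P.a : Qbar) ^ P.p + (P.c : Qbar) ^ P.p)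
      (b := (P.a : Qbar) ^ P.p * (P.c : Qbar) ^ P.p)
      (h₀ := (P.a : Qbar) * (P.c : Qbar)) (by rw [hcA]; ring)
      (by rw [hcA, hcB, hcc]; ring) (by rw [hcA, hcB, hcc]; ring) hmemA (mul_mem hmemA hmemC)
      (mul_mem (intCast_mem_ratField P.a) (intCast_mem_ratField P.c)) hvt g1 g2 g3 hb0
      hg hg1 y hy

end Main

end Fermat.Agent.M1.ES.PeuRam73
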